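/-
DS programme (S48), GEO half, brick PATCH (helper71).

The geometric half produces the mod-`ℓ` representations from reduction modulo `p` of the curves
`X₁(M)` with `4 ∣ M` (all odd `p ∤ M`) and with `9 ∣ M` (all `p ∤ M`, `p ≠ 3`).  This file glues
the two families into the contract `Iface.ModLambdaReps`.

* `charpoly_pow_eq` : two endomorphisms of rank-two spaces with the same characteristic
  polynomial have powers with the same characteristic polynomial.
* `charpoly_eq_of_frobenius` : two residual representations whose Frobenius characteristic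
  polynomials agree outside a finite set of primes have the same characteristic polynomials on
  the whole Galois group (generator form of Chebotarev, `ChebQbar23`).
* `trivial_of_unipotent_normal` : a normal subgroup acting unipotently in a semisimple
  two-dimensional representation acts trivially.
* `exists_common` : under the hypothesis of `charpoly_eq_of_frobenius` there is a residual
  representation `ρ` with the characteristic polynomials of both and with
  `ker ρ₁ ∪ ker ρ₂ ⊆ ker ρ` (in particular unramified wherever `ρ₁` or `ρ₂` is).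
* `ModLambdaRepsAway c` : the contract `Iface.ModLambdaReps` with `N ℓ` replaced by `c N ℓ`;
  `modLambdaReps_of_away : ModLambdaRepsAway 2 → ModLambdaRepsAway 3 → ModLambdaReps`.
-/
import Mathlib
import Fermat.Agent.DS.Iface
import Fermat.Agent.DS.GL2.SS
import Fermat.Agent.ES.GAL.ChebQbar23

set_option autoImplicit false
set_option linter.style.haveILetI false

open Polynomial Matrix

namespace Fermat.Agent.DS.G.Top.Patch

open Fermat.Agent.DS.GL2.Transvections

local notation "Γℚ" => (AlgebraicClosure ℚ ≃ₐ[ℚ] AlgebraicClosure ℚ)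
local notation "ℤbar" => integralClosure ℤ ℂ

/-! ### Two by two matrices -/

section Mat2

variable {k : Type*} [Field k]

theorem trace_det_of_charpoly_eq {M₁ M₂ : Matrix (Fin 2) (Fin 2) k}
    (h : M₁.charpoly = M₂.charpoly) : M₁.trace = M₂.trace ∧ M₁.det = M₂.det := by
  rw [Matrix.charpoly_fin_two, Matrix.charpoly_fin_two] at h
  have h0 := congrArg (fun P : k[X] => P.coeff 0) h
  have h1 := congrArg (fun P : k[X] => P.coeff 1) h
  simp only [coeff_add, coeff_sub, coeff_X_pow, coeff_C_mul, coeff_X_zero,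
    coeff_X_one, coeff_C] at h0 h1
  norm_num at h0 h1
  exact ⟨h1, h0⟩

theorem sq_eq (M : Matrix (Fin 2) (Fin 2) k) : M * M = M.trace • M - M.det • (1 : Matrix _ _ k) := by
  ext i j
  fin_cases i <;> fin_cases j <;>
    simp [Matrix.mul_apply, Fin.sum_univ_two, Matrix.trace_fin_two, Matrix.det_fin_two] <;> ring

theorem trace_pow_rec (M : Matrix (Fin 2) (Fin 2) k) (j : ℕ) :
    (M ^ (j + 2)).trace = M.trace * (M ^ (j + 1)).trace - M.det * (M ^ j).trace := by
  have h : M ^ (j + 2) = M.trace • M ^ (j + 1) - M.det • M ^ j := by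
    rw [pow_add, pow_two, sq_eq, mul_sub, Matrix.mul_smul, Matrix.mul_smul, mul_one, ← pow_succ]
  rw [h, Matrix.trace_sub, Matrix.trace_smul, Matrix.trace_smul, smul_eq_mul, smul_eq_mul]

theorem trace_pow_eq {M₁ M₂ : Matrix (Fin 2) (Fin 2) k} (ht : M₁.trace = M₂.trace)
    (hd : M₁.det = M₂.det) (j : ℕ) : (M₁ ^ j).trace = (M₂ ^ j).trace := by
  induction j using Nat.twoStepInduction with
  | zero => simp
  | one => simpa using ht
  | more j h0 h1 => rw [trace_pow_rec, trace_pow_rec, ht, hd, h0, h1]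

theorem matrix_charpoly_pow_eq {M₁ M₂ : Matrix (Fin 2) (Fin 2) k}
    (h : M₁.charpoly = M₂.charpoly) (j : ℕ) : (M₁ ^ j).charpoly = (M₂ ^ j).charpoly := by
  obtain ⟨ht, hd⟩ := trace_det_of_charpoly_eq h
  rw [Matrix.charpoly_fin_two, Matrix.charpoly_fin_two, trace_pow_eq ht hd j, Matrix.det_pow,
    Matrix.det_pow, hd]

/-- polarised Cayley--Hamilton for `2 × 2` matrices -/
theorem polarized_ch (X Y : Matrix (Fin 2) (Fin 2) k) :
    X * Y + Y * X = X.trace • Y + Y.trace • X +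
      ((X * Y).trace - X.trace * Y.trace) • (1 : Matrix (Fin 2) (Fin 2) k) := by
  ext i j
  fin_cases i <;> fin_cases j <;>
    simp [Matrix.mul_apply, Fin.sum_univ_two, Matrix.trace_fin_two] <;> ring

theorem trace_sub_one (u : Matrix (Fin 2) (Fin 2) k) (ht : u.trace = 2) :
    (u - 1).trace = 0 := by
  rw [Matrix.trace_sub, ht, Matrix.trace_one, Fintype.card_fin]
  norm_num

theorem det_sub_one (u : Matrix (Fin 2) (Fin 2) k) (ht : u.trace = 2) (hd : u.det = 1) :
    (u - 1).det = 0 := by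
  rw [Matrix.trace_fin_two] at ht
  rw [Matrix.det_fin_two] at hd ⊢
  simp only [Matrix.sub_apply, Matrix.one_apply_eq, Matrix.one_apply_ne, ne_eq, Fin.isValue,
    zero_ne_one, one_ne_zero, not_false_eq_true, sub_zero]
  linear_combination hd - ht

theorem sub_one_sq (u : Matrix (Fin 2) (Fin 2) k) (ht : u.trace = 2) (hd : u.det = 1) :
    (u - 1) * (u - 1) = 0 := by
  rw [sq_eq, trace_sub_one u ht, det_sub_one u ht hd, zero_smul, zero_smul, sub_zero]

theorem anticomm (u u' : Matrix (Fin 2) (Fin 2) k) (ht : u.trace = 2) (ht' : u'.trace = 2)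
    (htt : (u * u').trace = 2) : (u - 1) * (u' - 1) = -((u' - 1) * (u - 1)) := by
  have h := polarized_ch (u - 1) (u' - 1)
  have h3 : ((u - 1) * (u' - 1)).trace = 0 := by
    have : (u - 1) * (u' - 1) = u * u' - u - u' + 1 := by
      rw [sub_mul, mul_sub, mul_sub, mul_one, one_mul, one_mul]
      abel
    rw [this, Matrix.trace_add, Matrix.trace_sub, Matrix.trace_sub, htt, ht, ht',
      Matrix.trace_one, Fintype.card_fin]
    norm_num
  rw [trace_sub_one u ht, trace_sub_one u' ht', h3, zero_smul, zero_smul, mul_zero, sub_zero,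
    zero_smul, add_zero, add_zero] at h
  exact eq_neg_of_add_eq_zero_left h

/-- the kernel of a nonzero `2 × 2` matrix is at most a line -/
theorem exists_smul_of_mulVec_eq_zero (ν : Matrix (Fin 2) (Fin 2) k) (hν : ν ≠ 0)
    (a c : Fin 2 → k) (ha : a ≠ 0) (h1 : ν *ᵥ a = 0) (h2 : ν *ᵥ c = 0) : ∃ t : k, c = t • a := by
  by_cases hD : a 0 * c 1 - a 1 * c 0 = 0
  · by_cases ha0 : a 0 = 0
    · have ha1 : a 1 ≠ 0 := by
        intro ha1
        apply ha
        ext i
        fin_cases i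
        · exact ha0
        · exact ha1
      refine ⟨c 1 / a 1, ?_⟩
      ext i
      fin_cases i
      · show c 0 = c 1 / a 1 * a 0
        rw [ha0, mul_zero]
        rw [ha0, zero_mul, zero_sub, neg_eq_zero] at hD
        rcases mul_eq_zero.mp hD with h | h
        · exact absurd h ha1
        · exact h
      · show c 1 = c 1 / a 1 * a 1
        field_simp
    · refine ⟨c 0 / a 0, ?_⟩
      ext i
      fin_cases i
      · show c 0 = c 0 / a 0 * a 0
        field_simp
      · show c 1 = c 0 / a 0 * a 1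
        field_simp
        linear_combination hD
  · exfalso
    apply hν
    set P : Matrix (Fin 2) (Fin 2) k := !![a 0, c 0; a 1, c 1] with hP
    have hdet : P.det = a 0 * c 1 - a 1 * c 0 := by
      rw [hP, Matrix.det_fin_two_of]
      ring
    have hPu : IsUnit P.det := by
      rw [hdet]
      exact isUnit_iff_ne_zero.mpr hD
    have hνP : ν * P = 0 := by
      have e1 := congrFun h1
      have e2 := congrFun h2
      ext i j
      have e1i := e1 i
      have e2i := e2 i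
      simp only [Matrix.mulVec, dotProduct, Fin.sum_univ_two, Pi.zero_apply] at e1i e2i
      fin_cases j
      · simpa [hP, Matrix.mul_apply, Fin.sum_univ_two] using e1i
      · simpa [hP, Matrix.mul_apply, Fin.sum_univ_two] using e2i
    calc ν = ν * (P * P⁻¹) := by rw [Matrix.mul_nonsing_inv P hPu, mul_one]
      _ = (ν * P) * P⁻¹ := by rw [Matrix.mul_assoc]
      _ = 0 := by rw [hνP, zero_mul]

theorem exists_mulVec_ne_zero (ν : Matrix (Fin 2) (Fin 2) k) (hν : ν ≠ 0) :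
    ∃ x : Fin 2 → k, ν *ᵥ x ≠ 0 := by
  by_contra hcon
  push Not at hcon
  apply hν
  ext i j
  have := congrFun (hcon (Pi.single j 1)) i
  rw [Matrix.mulVec_single_one] at this
  simpa using this

end Mat2

/-! ### Normal unipotent subgroups of semisimple groups -/

section Unipotent

variable {k : Type*} [Field k] {Γ : Type*} [Group Γ]

/-- A normal subgroup all of whose elements have trace `2` and determinant `1` in a semisimple
two-dimensional representation acts trivially. -/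
theorem trivial_of_unipotent_normal (r : Γ →* GL (Fin 2) k) (hss : IsSemisimpleSubgroup r.range)
    (N : Subgroup Γ) [hN : N.Normal]
    (hu : ∀ n ∈ N, ((r n : GL (Fin 2) k) : Matrix (Fin 2) (Fin 2) k).trace = 2 ∧
      ((r n : GL (Fin 2) k) : Matrix (Fin 2) (Fin 2) k).det = 1) :
    ∀ n ∈ N, r n = 1 := by
  by_contra hcon
  push Not at hcon
  obtain ⟨n₀, hn₀N, hn₀⟩ := hcon
  set u : Matrix (Fin 2) (Fin 2) k := ((r n₀ : GL (Fin 2) k) : Matrix (Fin 2) (Fin 2) k) with hu_def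
  have hν : u - 1 ≠ 0 := by
    intro h
    apply hn₀
    apply Units.ext
    rw [Units.val_one]
    exact sub_eq_zero.mp h
  have hν2 : (u - 1) * (u - 1) = 0 := sub_one_sq u (hu n₀ hn₀N).1 (hu n₀ hn₀N).2
  obtain ⟨x, hx⟩ := exists_mulVec_ne_zero (u - 1) hν
  set a : Fin 2 → k := (u - 1) *ᵥ x with ha_def
  have hνa : (u - 1) *ᵥ a = 0 := by
    rw [ha_def, Matrix.mulVec_mulVec, hν2, Matrix.zero_mulVec]
  -- the line through `a` is stable
  have hstab : ∀ g : Γ, ∃ c : k, ((r g : GL (Fin 2) k) : Matrix (Fin 2) (Fin 2) k) *ᵥ a = c • a := by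
    intro g
    set G : Matrix (Fin 2) (Fin 2) k := ((r g : GL (Fin 2) k) : Matrix (Fin 2) (Fin 2) k) with hG
    set Gi : Matrix (Fin 2) (Fin 2) k := ((r g⁻¹ : GL (Fin 2) k) : Matrix (Fin 2) (Fin 2) k)
      with hGi
    have hGiG : Gi * G = 1 := by
      rw [hGi, hG, ← Units.val_mul, ← map_mul, inv_mul_cancel, map_one, Units.val_one]
    have hGGi : G * Gi = 1 := by
      rw [hGi, hG, ← Units.val_mul, ← map_mul, mul_inv_cancel, map_one, Units.val_one]
    have hnN : g⁻¹ * n₀ * g ∈ N := by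
      have := hN.conj_mem n₀ hn₀N g⁻¹
      rwa [inv_inv] at this
    set u' : Matrix (Fin 2) (Fin 2) k :=
      ((r (g⁻¹ * n₀ * g) : GL (Fin 2) k) : Matrix (Fin 2) (Fin 2) k) with hu'
    have hu'eq : u' = Gi * u * G := by
      rw [hu', map_mul, map_mul, Units.val_mul, Units.val_mul]
    have hν' : u' - 1 = Gi * (u - 1) * G := by
      rw [hu'eq, mul_sub, sub_mul, mul_one, hGiG]
    have hprod : (u * u').trace = 2 := by
      have h1 := (hu (n₀ * (g⁻¹ * n₀ * g)) (N.mul_mem hn₀N hnN)).1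
      rwa [map_mul, Units.val_mul] at h1
    have hanti := anticomm u u' (hu n₀ hn₀N).1 (hu _ hnN).1 hprod
    have h0 : (u - 1) *ᵥ ((u' - 1) *ᵥ a) = 0 := by
      rw [Matrix.mulVec_mulVec, hanti, Matrix.neg_mulVec, ← Matrix.mulVec_mulVec, hνa,
        Matrix.mulVec_zero, neg_zero]
    have ha0 : a ≠ 0 := hx
    obtain ⟨t, ht⟩ := exists_smul_of_mulVec_eq_zero (u - 1) hν a _ ha0 hνa h0
    have hν'2 : (u' - 1) * (u' - 1) = 0 := sub_one_sq u' (hu _ hnN).1 (hu _ hnN).2
    have ht0 : t = 0 := by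
      have h1 : (u' - 1) *ᵥ ((u' - 1) *ᵥ a) = 0 := by
        rw [Matrix.mulVec_mulVec, hν'2, Matrix.zero_mulVec]
      rw [ht, Matrix.mulVec_smul, ht, smul_smul] at h1
      by_contra hne
      apply ha0
      have h2 : t * t ≠ 0 := mul_ne_zero hne hne
      exact (smul_eq_zero.mp h1).resolve_left h2
    have h3 : (u' - 1) *ᵥ a = 0 := by rw [ht, ht0, zero_smul]
    have h4 : (u - 1) *ᵥ (G *ᵥ a) = 0 := by
      have h5 : G *ᵥ ((u' - 1) *ᵥ a) = 0 := by rw [h3, Matrix.mulVec_zero]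
      rw [hν', Matrix.mulVec_mulVec, ← Matrix.mul_assoc, ← Matrix.mul_assoc, hGGi, one_mul,
        ← Matrix.mulVec_mulVec] at h5
      exact h5
    obtain ⟨t', ht'⟩ := exists_smul_of_mulVec_eq_zero (u - 1) hν a _ ha0 hνa h4
    exact ⟨t', ht'⟩
  obtain ⟨v, hv, hvstab⟩ := hss a hx (by
    rintro _ ⟨g, rfl⟩
    exact hstab g)
  obtain ⟨c, hc⟩ := hvstab (r n₀) ⟨n₀, rfl⟩
  have hv0 : v ≠ 0 := by
    intro h
    exact hv ⟨0, by rw [h, zero_smul]⟩
  have hνv : (u - 1) *ᵥ v = (c - 1) • v := by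
    rw [Matrix.sub_mulVec, Matrix.one_mulVec, sub_smul, one_smul]
    exact congrArg (· - v) hc
  have hc1 : c - 1 = 0 := by
    have h1 : (u - 1) *ᵥ ((u - 1) *ᵥ v) = 0 := by
      rw [Matrix.mulVec_mulVec, hν2, Matrix.zero_mulVec]
    rw [hνv, Matrix.mulVec_smul, hνv, smul_smul] at h1
    by_contra hne
    exact hv0 ((smul_eq_zero.mp h1).resolve_left (mul_ne_zero hne hne))
  rw [hc1, zero_smul] at hνv
  exact hv (exists_smul_of_mulVec_eq_zero (u - 1) hν a v hx hνa hνv)

end Unipotent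

/-! ### Endomorphisms of rank-two spaces -/

section End2

variable {k : Type*} [Field k]

theorem charpoly_pow_eq {V₁ V₂ : Type*} [AddCommGroup V₁] [Module k V₁] [AddCommGroup V₂]
    [Module k V₂] [Module.Finite k V₁] [Module.Finite k V₂]
    (h₁ : Module.finrank k V₁ = 2) (h₂ : Module.finrank k V₂ = 2)
    (f₁ : Module.End k V₁) (f₂ : Module.End k V₂)
    (h : LinearMap.charpoly f₁ = LinearMap.charpoly f₂) (j : ℕ) :
    LinearMap.charpoly (f₁ ^ j) = LinearMap.charpoly (f₂ ^ j) := by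
  let b₁ := Module.finBasisOfFinrankEq k V₁ h₁
  let b₂ := Module.finBasisOfFinrankEq k V₂ h₂
  rw [← LinearMap.charpoly_toMatrix (f₁ ^ j) b₁, ← LinearMap.charpoly_toMatrix (f₂ ^ j) b₂,
    ← LinearMap.toMatrix_pow, ← LinearMap.toMatrix_pow]
  apply matrix_charpoly_pow_eq
  rw [LinearMap.charpoly_toMatrix, LinearMap.charpoly_toMatrix, h]

end End2

/-! ### Residual representations -/

section Residual

variable {k : Type} [Field k]

/-- Two residual representations whose Frobenius characteristic polynomials agree outside a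
finite set of primes have the same characteristic polynomials everywhere. -/
theorem charpoly_eq_of_frobenius (ρ₁ ρ₂ : ResidualGaloisRep k) (T : Finset ℕ)
    (h : ∀ p : ℕ, p.Prime → p ∉ T → ∀ A : ValuationSubring (AlgebraicClosure ℚ),
      A.LiesOverPrime p → ∀ σ : Γℚ, A.IsFrobeniusAt σ p →
        LinearMap.charpoly (ρ₁.ρ σ) = LinearMap.charpoly (ρ₂.ρ σ)) (g : Γℚ) :
    LinearMap.charpoly (ρ₁.ρ g) = LinearMap.charpoly (ρ₂.ρ g) := by
  obtain ⟨L₁, hL₁, hk₁⟩ := ρ₁.factorsThroughFiniteLevel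
  obtain ⟨L₂, hL₂, hk₂⟩ := ρ₂.factorsThroughFiniteLevel
  haveI := hL₁
  haveI := hL₂
  haveI : FiniteDimensional ℚ (L₁ ⊔ L₂ : IntermediateField ℚ (AlgebraicClosure ℚ)) :=
    IntermediateField.finiteDimensional_sup L₁ L₂
  obtain ⟨p, A, φ, j, hp, hpT, hAp, hφ, hfix⟩ :=
    Fermat.Agent.ES.GAL.ChebQbar23.exists_frobenius_inv_mul_pow_fixes (L₁ ⊔ L₂) g T
  have e₁ : ρ₁.ρ g = (ρ₁.ρ φ) ^ j := by
    have h1 : ρ₁.ρ (g⁻¹ * φ ^ j) = 1 := hk₁ _ fun x hx => hfix x (le_sup_left (a := L₁) hx)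
    rw [← map_pow]
    have : φ ^ j = g * (g⁻¹ * φ ^ j) := by rw [mul_inv_cancel_left]
    rw [this, map_mul, h1, mul_one]
  have e₂ : ρ₂.ρ g = (ρ₂.ρ φ) ^ j := by
    have h1 : ρ₂.ρ (g⁻¹ * φ ^ j) = 1 := hk₂ _ fun x hx => hfix x (le_sup_right (b := L₂) hx)
    rw [← map_pow]
    have : φ ^ j = g * (g⁻¹ * φ ^ j) := by rw [mul_inv_cancel_left]
    rw [this, map_mul, h1, mul_one]
  rw [e₁, e₂]
  exact charpoly_pow_eq ρ₁.finrank_eq ρ₂.finrank_eq _ _ (h p hp hpT A hAp φ hφ) j

/-- matrix form of a residual representation -/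
theorem exists_matrix_form (ρ : ResidualGaloisRep k) :
    ∃ r : Γℚ →* GL (Fin 2) k,
      (∀ σ, ((r σ : GL (Fin 2) k) : Matrix (Fin 2) (Fin 2) k).charpoly =
        LinearMap.charpoly (ρ.ρ σ)) ∧ ∀ σ, r σ = 1 ↔ ρ.ρ σ = 1 := by
  let b := Module.finBasisOfFinrankEq k ρ.V ρ.finrank_eq
  let hom₀ : Γℚ →* Matrix (Fin 2) (Fin 2) k :=
    ((LinearMap.toMatrixAlgEquiv b : Module.End k ρ.V ≃ₐ[k] Matrix (Fin 2) (Fin 2) k) :
      Module.End k ρ.V →* Matrix (Fin 2) (Fin 2) k).comp ρ.ρ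
  refine ⟨hom₀.toHomUnits, fun σ => ?_, fun σ => ?_⟩
  · show (LinearMap.toMatrix b b (ρ.ρ σ)).charpoly = _
    exact LinearMap.charpoly_toMatrix (ρ.ρ σ) b
  · constructor
    · intro h
      have h1 : LinearMap.toMatrixAlgEquiv b (ρ.ρ σ) = 1 := by
        have := congrArg Units.val h
        exact this
      rw [← map_one (LinearMap.toMatrixAlgEquiv b)] at h1
      exact (LinearMap.toMatrixAlgEquiv b).injective h1
    · intro h
      apply Units.ext
      show LinearMap.toMatrixAlgEquiv b (ρ.ρ σ) = 1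
      rw [h, map_one]

/-- residual representation from matrix form -/
theorem exists_of_matrix_form (r : Γℚ →* GL (Fin 2) k) (hr : GaloisFactorsThroughFiniteLevel r) :
    ∃ ρ : ResidualGaloisRep k,
      (∀ σ, LinearMap.charpoly (ρ.ρ σ) =
        ((r σ : GL (Fin 2) k) : Matrix (Fin 2) (Fin 2) k).charpoly) ∧
      ∀ σ, r σ = 1 → ρ.ρ σ = 1 := by
  let hom₀ : Γℚ →* Module.End k (Fin 2 → k) :=
    ((Matrix.toLinAlgEquiv' : Matrix (Fin 2) (Fin 2) k ≃ₐ[k] Module.End k (Fin 2 → k)) :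
      Matrix (Fin 2) (Fin 2) k →* Module.End k (Fin 2 → k)).comp
      ((Units.coeHom (Matrix (Fin 2) (Fin 2) k)).comp r)
  have hone : ∀ σ, r σ = 1 → hom₀ σ = 1 := by
    intro σ h
    show Matrix.toLinAlgEquiv' ((r σ : GL (Fin 2) k) : Matrix (Fin 2) (Fin 2) k) = 1
    rw [h, Units.val_one, map_one]
  refine ⟨{ V := Fin 2 → k
            finrank_eq := by rw [Module.finrank_fin_fun]
            ρ := hom₀
            factorsThroughFiniteLevel := by
              obtain ⟨L, hL, h1⟩ := hr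
              exact ⟨L, hL, fun σ hσ => hone σ (h1 σ hσ)⟩ }, fun σ => ?_, hone⟩
  show LinearMap.charpoly (Matrix.toLin' ((r σ : GL (Fin 2) k) : Matrix (Fin 2) (Fin 2) k)) = _
  exact Matrix.charpoly_toLin' _

/-- **Common semisimple model.**  If the Frobenius characteristic polynomials of `ρ₁` and `ρ₂`
agree outside a finite set of primes, there is `ρ` with the characteristic polynomials of both on
the whole Galois group and trivial on `ker ρ₁` and on `ker ρ₂`. -/
theorem exists_common (ρ₁ ρ₂ : ResidualGaloisRep k) (T : Finset ℕ)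
    (h : ∀ p : ℕ, p.Prime → p ∉ T → ∀ A : ValuationSubring (AlgebraicClosure ℚ),
      A.LiesOverPrime p → ∀ σ : Γℚ, A.IsFrobeniusAt σ p →
        LinearMap.charpoly (ρ₁.ρ σ) = LinearMap.charpoly (ρ₂.ρ σ)) :
    ∃ ρ : ResidualGaloisRep k,
      (∀ σ, LinearMap.charpoly (ρ.ρ σ) = LinearMap.charpoly (ρ₁.ρ σ)) ∧
      (∀ σ, LinearMap.charpoly (ρ.ρ σ) = LinearMap.charpoly (ρ₂.ρ σ)) ∧
      (∀ σ, ρ₁.ρ σ = 1 → ρ.ρ σ = 1) ∧ (∀ σ, ρ₂.ρ σ = 1 → ρ.ρ σ = 1) := by
  have hall := charpoly_eq_of_frobenius ρ₁ ρ₂ T h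
  obtain ⟨r₁, hr₁c, hr₁k⟩ := exists_matrix_form ρ₁
  obtain ⟨r', hr'c, hr'k, hss⟩ := Fermat.Agent.DS.GL2.SS.exists_semisimplification r₁
  -- the kernel of `ρ₂` acts unipotently, hence trivially
  let N : Subgroup Γℚ := (ρ₂.ρ).ker
  have hNker : ∀ n ∈ N, r' n = 1 := by
    refine trivial_of_unipotent_normal r' hss N fun n hn => ?_
    have h2 : ρ₂.ρ n = 1 := hn
    have hcp : ((r' n : GL (Fin 2) k) : Matrix (Fin 2) (Fin 2) k).charpoly =
        (1 : Matrix (Fin 2) (Fin 2) k).charpoly := by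
      rw [hr'c, hr₁c, hall, h2]
      rw [Matrix.charpoly_one, Fintype.card_fin, LinearMap.charpoly_one, ρ₂.finrank_eq]
    obtain ⟨ht, hd⟩ := trace_det_of_charpoly_eq hcp
    rw [Matrix.trace_one, Fintype.card_fin] at ht
    rw [Matrix.det_one] at hd
    exact ⟨by rw [ht]; norm_num, hd⟩
  have hfin : GaloisFactorsThroughFiniteLevel r' := by
    obtain ⟨L, hL, h1⟩ := ρ₁.factorsThroughFiniteLevel
    exact ⟨L, hL, fun σ hσ => hr'k σ ((hr₁k σ).mpr (h1 σ hσ))⟩
  obtain ⟨ρ, hρc, hρk⟩ := exists_of_matrix_form r' hfin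
  refine ⟨ρ, fun σ => ?_, fun σ => ?_, fun σ hσ => ?_, fun σ hσ => ?_⟩
  · rw [hρc, hr'c, hr₁c]
  · rw [hρc, hr'c, hr₁c, hall]
  · exact hρk σ (hr'k σ ((hr₁k σ).mpr hσ))
  · exact hρk σ (hNker σ hσ)

end Residual

/-! ### The two-level patch -/

open CongruenceSubgroup

/-- `Iface.ModLambdaReps` away from the primes dividing `c`. -/
def ModLambdaRepsAway (c : ℕ) (N : ℕ) [NeZero N] (ε : DirichletCharacter ℂ N)
    (f : CuspForm (Gamma1 N) 1) : Prop :=
  ∃ B : Finset ℕ, ∀ ℓ : ℕ, ℓ.Prime → ℓ ∉ B →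
    ∀ (k : Type) [Field k] [CharP k ℓ] (φ : ℤbar →+* k),
      ∃ ρ : ResidualGaloisRep k, ∀ p : ℕ, p.Prime → ¬ p ∣ c * N * ℓ →
        ρ.IsUnramifiedAt p ∧
        ∀ A : ValuationSubring (AlgebraicClosure ℚ), A.LiesOverPrime p →
          ∀ σ : Γℚ, A.IsFrobeniusAt σ p →
            ∃ a e : ℤbar, (a : ℂ) = ModularFormClass.qCoeff f p ∧
              (e : ℂ) = ε (p : ZMod N) ∧
              LinearMap.charpoly (ρ.ρ σ) = X ^ 2 - C (φ a) * X + C (φ e)

/-- **PATCH**: the contract `C0` from its two partial versions away from `2` and away from `3`. -/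
theorem modLambdaReps_of_away (N : ℕ) [NeZero N] (ε : DirichletCharacter ℂ N)
    (f : CuspForm (Gamma1 N) 1) (h2 : ModLambdaRepsAway 2 N ε f)
    (h3 : ModLambdaRepsAway 3 N ε f) : Fermat.Agent.DS.Iface.ModLambdaReps N ε f := by
  classical
  obtain ⟨B2, hB2⟩ := h2
  obtain ⟨B3, hB3⟩ := h3
  refine ⟨B2 ∪ B3, fun ℓ hℓ hℓB k _ _ φ => ?_⟩
  have hℓ2 : ℓ ∉ B2 := fun h => hℓB (Finset.mem_union_left _ h)
  have hℓ3 : ℓ ∉ B3 := fun h => hℓB (Finset.mem_union_right _ h)
  obtain ⟨ρ₁, hρ₁⟩ := hB2 ℓ hℓ hℓ2 k φ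
  obtain ⟨ρ₂, hρ₂⟩ := hB3 ℓ hℓ hℓ3 k φ
  -- outside the primes dividing `6 N ℓ` the characteristic polynomials agree
  have hagree : ∀ p : ℕ, p.Prime → p ∉ (Nat.primeFactors (6 * N * ℓ)) →
      ∀ A : ValuationSubring (AlgebraicClosure ℚ), A.LiesOverPrime p → ∀ σ : Γℚ,
        A.IsFrobeniusAt σ p → LinearMap.charpoly (ρ₁.ρ σ) = LinearMap.charpoly (ρ₂.ρ σ) := by
    intro p hp hpT A hA σ hσ
    have hN0 : N ≠ 0 := NeZero.ne N
    have h6 : ¬ p ∣ 6 * N * ℓ := by
      intro hdvd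
      exact hpT (Nat.mem_primeFactors.mpr ⟨hp, hdvd,
        mul_ne_zero (mul_ne_zero (by norm_num) hN0) hℓ.ne_zero⟩)
    have hd2 : ¬ p ∣ 2 * N * ℓ := by
      intro hdvd
      apply h6
      have : 6 * N * ℓ = 3 * (2 * N * ℓ) := by ring
      rw [this]
      exact Dvd.dvd.mul_left hdvd 3
    have hd3 : ¬ p ∣ 3 * N * ℓ := by
      intro hdvd
      apply h6
      have : 6 * N * ℓ = 2 * (3 * N * ℓ) := by ring
      rw [this]
      exact Dvd.dvd.mul_left hdvd 2
    obtain ⟨a₁, e₁, ha₁, he₁, hc₁⟩ := (hρ₁ p hp hd2).2 A hA σ hσ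
    obtain ⟨a₂, e₂, ha₂, he₂, hc₂⟩ := (hρ₂ p hp hd3).2 A hA σ hσ
    have haa : a₁ = a₂ := Subtype.ext (ha₁.trans ha₂.symm)
    have hee : e₁ = e₂ := Subtype.ext (he₁.trans he₂.symm)
    rw [hc₁, hc₂, haa, hee]
  obtain ⟨ρ, hc1, hc2, hk1, hk2⟩ := exists_common ρ₁ ρ₂ _ hagree
  refine ⟨ρ, fun p hp hpN => ?_⟩
  by_cases hp2 : p = 2
  · -- use the family away from `3`
    have hd3 : ¬ p ∣ 3 * N * ℓ := by
      intro hdvd
      have h3 : ¬ p ∣ 3 := by
        rw [hp2]
        norm_num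
      rw [mul_assoc] at hdvd
      exact hpN ((hp.dvd_mul.mp hdvd).resolve_left h3)
    obtain ⟨hunr, hfrob⟩ := hρ₂ p hp hd3
    refine ⟨fun A hA σ hσ => hk2 σ (hunr A hA σ hσ), fun A hA σ hσ => ?_⟩
    obtain ⟨a, e, ha, he, hc⟩ := hfrob A hA σ hσ
    exact ⟨a, e, ha, he, by rw [hc2, hc]⟩
  · have hd2 : ¬ p ∣ 2 * N * ℓ := by
      intro hdvd
      have h2' : ¬ p ∣ 2 := by
        intro h
        exact hp2 ((Nat.prime_dvd_prime_iff_eq hp Nat.prime_two).mp h)
      rw [mul_assoc] at hdvd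
      exact hpN ((hp.dvd_mul.mp hdvd).resolve_left h2')
    obtain ⟨hunr, hfrob⟩ := hρ₁ p hp hd2
    refine ⟨fun A hA σ hσ => hk1 σ (hunr A hA σ hσ), fun A hA σ hσ => ?_⟩
    obtain ⟨a, e, ha, he, hc⟩ := hfrob A hA σ hσ
    exact ⟨a, e, ha, he, by rw [hc1, hc]⟩

end Fermat.Agent.DS.G.Top.Patch
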