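/-
DS programme (S48), GEO half: the two internal CONTRACTS of the geometric half and their glue
(helper71).

* `HeckeModLReps c'` (deliverable of the geometry chapters, "S30 for `Γ₁(M)` modulo `ℓ`"):
  for every level `M` divisible by `c'` (`c' = 4` or `9`), every odd prime `ℓ`, every field `k` of
  characteristic `ℓ` and every ring homomorphism `θ : T2 M →+* k` from the weight-two Hecke
  algebra of `Γ₁(M)` (helper2's `Hecke1.Algebra.T2`, generated by `T_p`, `p ∤ M`, and the diamond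
  operators) there is a two-dimensional representation of `G_ℚ` over `k`, unramified at all
  primes `p ∤ M ℓ`, with Frobenius characteristic polynomial `X² - θ(T_p) X + p θ(⟨p⟩)`.
  CONVENTIONS: `T_p`, `⟨d⟩` are helper2's operators on `CuspForm (Gamma1 M) 2`
  (`⟨d⟩ f = f ∣ γ` for `γ ∈ Γ₀(M)` with lower right entry `d`;
  `a_n(T_p f) = a_{np}(f) + p a_{n/p}(⟨p⟩ f)`); Frobenius is the ARITHMETIC Frobenius of the
  Prelude (`ValuationSubring.IsFrobeniusAt`).
* `EigenCharModL c' c N ε f` (deliverable of W1-LIFT): for almost all `ℓ`, every `k`, `φ`, a level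
  `M` with `c' ∣ M`, all of whose prime factors divide `c N ℓ`, and a character `θ` of `T2 M` with
  `θ(T_p) = φ(a_p)` and `p θ(⟨p⟩) = φ(ε(p))`.
* `modLambdaRepsAway_of` : the two contracts give `Patch.ModLambdaRepsAway c`.
-/
import Mathlib
import Fermat.Agent.DS.Iface
import Fermat.Agent.DS.Hecke1.Algebra
import Fermat.Agent.DS.G.Top.Patch

set_option autoImplicit false

open Polynomial CongruenceSubgroup

namespace Fermat.Agent.DS.G.Top.Contract

open Fermat.Agent.DS.Hecke1.Algebra Fermat.Agent.DS.Hecke1.HeckeT1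
open Fermat.Agent.DS.G.Top.Patch

local notation "Γℚ" => (AlgebraicClosure ℚ ≃ₐ[ℚ] AlgebraicClosure ℚ)
local notation "ℤbar" => integralClosure ℤ ℂ

/-- **GEO-MAIN**: mod `ℓ` Galois representations attached to characters of the weight-two Hecke
algebra of `Γ₁(M)`, for levels `M` divisible by `c'`. -/
def HeckeModLReps (c' : ℕ) : Prop :=
  ∀ (M : ℕ) [NeZero M], c' ∣ M → ∀ ℓ : ℕ, ℓ.Prime → ℓ ≠ 2 →
    ∀ (k : Type) [Field k] [CharP k ℓ] (θ : T2 M →+* k),
      ∃ ρ : ResidualGaloisRep k, ∀ (p : ℕ) (hp : p.Prime) (hpM : ¬ p ∣ M), p ≠ ℓ →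
        ρ.IsUnramifiedAt p ∧
        ∀ A : ValuationSubring (AlgebraicClosure ℚ), A.LiesOverPrime p →
          ∀ σ : Γℚ, A.IsFrobeniusAt σ p →
            LinearMap.charpoly (ρ.ρ σ) =
              X ^ 2 - C (θ (heckeAlgebra1.T hp hpM)) * X +
                C ((p : k) * θ (heckeAlgebra1.dia (unitP hp hpM)))

/-- **W1-LIFT**: the eigensystem of the weight-one form occurs modulo `ℓ` in weight two. -/
def EigenCharModL (c' c : ℕ) (N : ℕ) [NeZero N] (ε : DirichletCharacter ℂ N)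
    (f : CuspForm (Gamma1 N) 1) : Prop :=
  ∃ B : Finset ℕ, ∀ ℓ : ℕ, ℓ.Prime → ℓ ∉ B →
    ∀ (k : Type) [Field k] [CharP k ℓ] (φ : ℤbar →+* k),
      ∃ (M : ℕ) (_ : NeZero M) (θ : T2 M →+* k), c' ∣ M ∧
        (∀ p : ℕ, p.Prime → p ∣ M → p ∣ c * N * ℓ) ∧
        ∀ (p : ℕ) (hp : p.Prime) (hpM : ¬ p ∣ M),
          ∃ a e : ℤbar, (a : ℂ) = ModularFormClass.qCoeff f p ∧ (e : ℂ) = ε (p : ZMod N) ∧
            θ (heckeAlgebra1.T hp hpM) = φ a ∧
            (p : k) * θ (heckeAlgebra1.dia (unitP hp hpM)) = φ e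

/-- The two contracts give the partial form of `C0`. -/
theorem modLambdaRepsAway_of (c' c : ℕ) (N : ℕ) [NeZero N] (ε : DirichletCharacter ℂ N)
    (f : CuspForm (Gamma1 N) 1) (hG : HeckeModLReps c') (hE : EigenCharModL c' c N ε f) :
    ModLambdaRepsAway c N ε f := by
  classical
  obtain ⟨B, hB⟩ := hE
  refine ⟨insert 2 B, fun ℓ hℓ hℓB k _ _ φ => ?_⟩
  have hℓ2 : ℓ ≠ 2 := fun h => hℓB (h ▸ Finset.mem_insert_self _ _)
  have hℓB' : ℓ ∉ B := fun h => hℓB (Finset.mem_insert_of_mem h)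
  obtain ⟨M, hM, θ, hcM, hprimes, hθ⟩ := hB ℓ hℓ hℓB' k φ
  obtain ⟨ρ, hρ⟩ := hG M hcM ℓ hℓ hℓ2 k θ
  refine ⟨ρ, fun p hp hpN => ?_⟩
  have hpM : ¬ p ∣ M := fun h => hpN (hprimes p hp h)
  have hpℓ : p ≠ ℓ := by
    rintro rfl
    exact hpN (Dvd.intro_left _ rfl)
  obtain ⟨hunr, hfrob⟩ := hρ p hp hpM hpℓ
  refine ⟨hunr, fun A hA σ hσ => ?_⟩
  obtain ⟨a, e, ha, he, hT, hD⟩ := hθ p hp hpM
  exact ⟨a, e, ha, he, by rw [hfrob A hA σ hσ, hT, hD]⟩

end Fermat.Agent.DS.G.Top.Contract
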