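/-
DS programme (S48), GEO half, brick PATCH, general form (helper71).

`away_gcd` : `ModLambdaRepsAway c₁ → ModLambdaRepsAway c₂ → ModLambdaRepsAway (gcd c₁ c₂)`, and
`modLambdaReps_of_away_one` : `ModLambdaRepsAway 1 → Iface.ModLambdaReps`.
Used to glue the families coming from the two charts (`4 ∣ M`, `9 ∣ M`) and from two auxiliary
weight-one forms of coprime levels.
-/
import Mathlib
import Fermat.Agent.DS.G.Top.Patch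

set_option autoImplicit false

open Polynomial CongruenceSubgroup

namespace Fermat.Agent.DS.G.Top.PatchGcd

open Fermat.Agent.DS.G.Top.Patch

local notation "Γℚ" => (AlgebraicClosure ℚ ≃ₐ[ℚ] AlgebraicClosure ℚ)
local notation "ℤbar" => integralClosure ℤ ℂ

theorem not_dvd_of_not_dvd_mul {p c N ℓ : ℕ} (hp : p.Prime) (hc : ¬ p ∣ c) (hN : ¬ p ∣ N)
    (hℓ : ¬ p ∣ ℓ) : ¬ p ∣ c * N * ℓ := by
  intro h
  rcases hp.dvd_mul.mp h with h1 | h1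
  · rcases hp.dvd_mul.mp h1 with h2 | h2
    · exact hc h2
    · exact hN h2
  · exact hℓ h1

/-- **PATCH, general form.** -/
theorem away_gcd (c₁ c₂ : ℕ) (hc₁ : c₁ ≠ 0) (hc₂ : c₂ ≠ 0) (N : ℕ) [NeZero N]
    (ε : DirichletCharacter ℂ N) (f : CuspForm (Gamma1 N) 1)
    (h1 : ModLambdaRepsAway c₁ N ε f) (h2 : ModLambdaRepsAway c₂ N ε f) :
    ModLambdaRepsAway (Nat.gcd c₁ c₂) N ε f := by
  classical
  obtain ⟨B1, hB1⟩ := h1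
  obtain ⟨B2, hB2⟩ := h2
  refine ⟨B1 ∪ B2, fun ℓ hℓ hℓB k _ _ φ => ?_⟩
  have hℓ1 : ℓ ∉ B1 := fun h => hℓB (Finset.mem_union_left _ h)
  have hℓ2 : ℓ ∉ B2 := fun h => hℓB (Finset.mem_union_right _ h)
  obtain ⟨ρ₁, hρ₁⟩ := hB1 ℓ hℓ hℓ1 k φ
  obtain ⟨ρ₂, hρ₂⟩ := hB2 ℓ hℓ hℓ2 k φ
  have hN0 : N ≠ 0 := NeZero.ne N
  have hagree : ∀ p : ℕ, p.Prime → p ∉ (Nat.primeFactors (c₁ * c₂ * N * ℓ)) →
      ∀ A : ValuationSubring (AlgebraicClosure ℚ), A.LiesOverPrime p → ∀ σ : Γℚ,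
        A.IsFrobeniusAt σ p → LinearMap.charpoly (ρ₁.ρ σ) = LinearMap.charpoly (ρ₂.ρ σ) := by
    intro p hp hpT A hA σ hσ
    have hnd : ¬ p ∣ c₁ * c₂ * N * ℓ := by
      intro hdvd
      exact hpT (Nat.mem_primeFactors.mpr ⟨hp, hdvd,
        mul_ne_zero (mul_ne_zero (mul_ne_zero hc₁ hc₂) hN0) hℓ.ne_zero⟩)
    have hpc1 : ¬ p ∣ c₁ := fun h => hnd (by
      rw [mul_assoc, mul_assoc]
      exact Dvd.dvd.mul_right h _)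
    have hpc2 : ¬ p ∣ c₂ := fun h => hnd (by
      have : c₁ * c₂ * N * ℓ = c₂ * (c₁ * N * ℓ) := by ring
      rw [this]
      exact Dvd.dvd.mul_right h _)
    have hpN : ¬ p ∣ N := fun h => hnd (by
      have : c₁ * c₂ * N * ℓ = N * (c₁ * c₂ * ℓ) := by ring
      rw [this]
      exact Dvd.dvd.mul_right h _)
    have hpℓ : ¬ p ∣ ℓ := fun h => hnd (Dvd.dvd.mul_left h _)
    obtain ⟨a₁, e₁, ha₁, he₁, hc₁'⟩ :=
      (hρ₁ p hp (not_dvd_of_not_dvd_mul hp hpc1 hpN hpℓ)).2 A hA σ hσ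
    obtain ⟨a₂, e₂, ha₂, he₂, hc₂'⟩ :=
      (hρ₂ p hp (not_dvd_of_not_dvd_mul hp hpc2 hpN hpℓ)).2 A hA σ hσ
    have haa : a₁ = a₂ := Subtype.ext (ha₁.trans ha₂.symm)
    have hee : e₁ = e₂ := Subtype.ext (he₁.trans he₂.symm)
    rw [hc₁', hc₂', haa, hee]
  obtain ⟨ρ, hcp1, hcp2, hk1, hk2⟩ := exists_common ρ₁ ρ₂ _ hagree
  refine ⟨ρ, fun p hp hpN => ?_⟩
  have hpN' : ¬ p ∣ N := fun h => hpN (by
    have : Nat.gcd c₁ c₂ * N * ℓ = N * (Nat.gcd c₁ c₂ * ℓ) := by ring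
    rw [this]
    exact Dvd.dvd.mul_right h _)
  have hpℓ : ¬ p ∣ ℓ := fun h => hpN (Dvd.dvd.mul_left h _)
  have hpg : ¬ p ∣ Nat.gcd c₁ c₂ := fun h => hpN (by
    rw [mul_assoc]
    exact Dvd.dvd.mul_right h _)
  by_cases hpc1 : p ∣ c₁
  · have hpc2 : ¬ p ∣ c₂ := fun h => hpg (Nat.dvd_gcd hpc1 h)
    obtain ⟨hunr, hfrob⟩ := hρ₂ p hp (not_dvd_of_not_dvd_mul hp hpc2 hpN' hpℓ)
    refine ⟨fun A hA σ hσ => hk2 σ (hunr A hA σ hσ), fun A hA σ hσ => ?_⟩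
    obtain ⟨a, e, ha, he, hc⟩ := hfrob A hA σ hσ
    exact ⟨a, e, ha, he, by rw [hcp2, hc]⟩
  · obtain ⟨hunr, hfrob⟩ := hρ₁ p hp (not_dvd_of_not_dvd_mul hp hpc1 hpN' hpℓ)
    refine ⟨fun A hA σ hσ => hk1 σ (hunr A hA σ hσ), fun A hA σ hσ => ?_⟩
    obtain ⟨a, e, ha, he, hc⟩ := hfrob A hA σ hσ
    exact ⟨a, e, ha, he, by rw [hcp1, hc]⟩

theorem modLambdaReps_of_away_one (N : ℕ) [NeZero N] (ε : DirichletCharacter ℂ N)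
    (f : CuspForm (Gamma1 N) 1) (h : ModLambdaRepsAway 1 N ε f) :
    Fermat.Agent.DS.Iface.ModLambdaReps N ε f := by
  obtain ⟨B, hB⟩ := h
  refine ⟨B, fun ℓ hℓ hℓB k _ _ φ => ?_⟩
  obtain ⟨ρ, hρ⟩ := hB ℓ hℓ hℓB k φ
  refine ⟨ρ, fun p hp hpN => ?_⟩
  exact hρ p hp (by rwa [one_mul])

end Fermat.Agent.DS.G.Top.PatchGcd
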