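/-
DS programme (S48), GEO half: the CONTRACT between the geometry chapters and the mod-`ℓ` back end
(helper71).

`GeoInputs M ℓ` is the twin, for `Γ₁(M)`, of the pair
`ES/J/S30Glue8.TateComparison` (K2) + `ES/J/TateJZero13` (Galois action on the Tate module:
`rhoT`, `tT`, `commute_rhoT_tT`, `rhoT_continuous`, `rhoT_inertia`, `rhoT_frobenius`),
in GENERATOR form and with the diamond operators:

* `Lam` : a finite `ℤ`-module (the lattice `Hom_par(Γ₁(M), ℤ)`), `R` a commutative ring acting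
  FAITHFULLY on it (the `ℤ`-algebra generated by the double coset operators), generated by elements
  `gT p` (`p ∤ M` prime) and `gD d` (`d ∈ (ℤ/M)ˣ`), with a ring homomorphism `π : R → T2 M` to
  helper2's weight-two Hecke algebra sending `gT p ↦ T_p`, `gD d ↦ ⟨d⟩` (period chapter:
  `Per1/TransferAlg.exists_transferHom`);
* `TJ` : a `ℤ_[ℓ]`-module (the `ℓ`-adic Tate module of the Jacobian of `X₁(M)`), with a comparison
  `ι₀ : Lam → TJ` which is a base change `ℤ → ℤ_[ℓ]` and intertwines `gT p`, `gD d` with operators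
  `bT p`, `bD d` on `TJ` (Kummer chapter + Hecke equivariance chapter);
* `ρ` : the Galois action on `TJ`, commuting with `bT p`, `bD d`, of finite level modulo `ℓ`,
  unramified at the primes `q ∤ M ℓ` (reduction chapter), and satisfying the Eichler--Shimura
  relation `ρ(σ)² - bT p ρ(σ) + p bD ⟨p⟩ = 0` for Frobenius lifts `σ` at `p ∤ M ℓ`.

CONVENTIONS (binding): `T_p`, `⟨d⟩` are helper2's operators (`Hecke1`), Frobenius is the arithmetic
Frobenius of the Prelude.  `Assemble.lean` turns `GeoInputs` into `Contract.HeckeModLReps`.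
-/
import Mathlib
import Fermat.Prelude.Def_GaloisRep_Residual
import Fermat.Agent.DS.Hecke1.Algebra

set_option autoImplicit false

namespace Fermat.Agent.DS.G.Top.Inputs

open Fermat.Agent.DS.Hecke1.Algebra Fermat.Agent.DS.Hecke1.HeckeT1

local notation "Qb" => AlgebraicClosure ℚ
local notation "GQ" => (AlgebraicClosure ℚ ≃ₐ[ℚ] AlgebraicClosure ℚ)

/-- **The geometric inputs** at level `Γ₁(M)` and prime `ℓ`. -/
structure GeoInputs (M : ℕ) [NeZero M] (ℓ : ℕ) [Fact ℓ.Prime] : Type 1 where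
  /-- the lattice `Hom_par(Γ₁(M), ℤ)` -/
  Lam : Type
  [instLamGroup : AddCommGroup Lam]
  [instLamFinite : Module.Finite ℤ Lam]
  /-- the Hecke ring of the lattice -/
  R : Type
  [instRCommRing : CommRing R]
  /-- its action -/
  act : R →+* Module.End ℤ Lam
  act_injective : Function.Injective act
  /-- `T_p` on the lattice -/
  gT : ∀ {p : ℕ}, p.Prime → ¬ p ∣ M → R
  /-- `⟨d⟩` on the lattice -/
  gD : (ZMod M)ˣ → R
  gen : Algebra.adjoin ℤ
      ({r : R | ∃ (p : ℕ) (hp : p.Prime) (hpM : ¬ p ∣ M), r = gT hp hpM} ∪ Set.range gD) = ⊤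
  /-- comparison with the Hecke algebra of cusp forms -/
  π : R →+* T2 M
  π_T : ∀ {p : ℕ} (hp : p.Prime) (hpM : ¬ p ∣ M), π (gT hp hpM) = heckeAlgebra1.T hp hpM
  π_D : ∀ d : (ZMod M)ˣ, π (gD d) = heckeAlgebra1.dia d
  /-- the Tate module -/
  TJ : Type
  [instTJGroup : AddCommGroup TJ]
  [instTJModule : Module ℤ_[ℓ] TJ]
  /-- the comparison map -/
  ι₀ : Lam →ₗ[ℤ] TJ
  isBaseChange : IsBaseChange ℤ_[ℓ] ι₀
  /-- `T_p` on the Tate module -/
  bT : ∀ {p : ℕ}, p.Prime → ¬ p ∣ M → Module.End ℤ_[ℓ] TJ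
  /-- `⟨d⟩` on the Tate module -/
  bD : (ZMod M)ˣ → Module.End ℤ_[ℓ] TJ
  bT_ι₀ : ∀ {p : ℕ} (hp : p.Prime) (hpM : ¬ p ∣ M) (x : Lam),
    bT hp hpM (ι₀ x) = ι₀ (act (gT hp hpM) x)
  bD_ι₀ : ∀ (d : (ZMod M)ˣ) (x : Lam), bD d (ι₀ x) = ι₀ (act (gD d) x)
  /-- the Galois action -/
  ρ : GQ →* Module.End ℤ_[ℓ] TJ
  commute_T : ∀ (g : GQ) {p : ℕ} (hp : p.Prime) (hpM : ¬ p ∣ M), Commute (ρ g) (bT hp hpM)
  commute_D : ∀ (g : GQ) (d : (ZMod M)ˣ), Commute (ρ g) (bD d)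
  finiteLevel : ∃ L : IntermediateField ℚ Qb, FiniteDimensional ℚ L ∧
    ∀ σ : GQ, (∀ a ∈ L, σ a = a) → ∀ x : TJ, ∃ y : TJ, ρ σ x - x = (ℓ : ℤ_[ℓ]) • y
  unramified : ∀ q : ℕ, q.Prime → ¬ q ∣ M → q ≠ ℓ →
    ∀ A : ValuationSubring Qb, A.LiesOverPrime q → ∀ τ ∈ A.inertiaSubgroupIn ℚ, ρ τ = 1
  frobenius : ∀ {p : ℕ} (hp : p.Prime) (hpM : ¬ p ∣ M), p ≠ ℓ →
    ∀ A : ValuationSubring Qb, A.LiesOverPrime p → ∀ σ : GQ, A.IsFrobeniusAt σ p →
      ρ σ * ρ σ - bT hp hpM * ρ σ + (p : ℤ_[ℓ]) • bD (unitP hp hpM) = 0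

attribute [instance] GeoInputs.instLamGroup GeoInputs.instLamFinite GeoInputs.instRCommRing
  GeoInputs.instTJGroup GeoInputs.instTJModule

end Fermat.Agent.DS.G.Top.Inputs
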