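/-
DS programme (S48), GEO half (helper71): **the mod-`ℓ` assembly**
`GeoInputs M ℓ` (for all `M` divisible by `c'`, all odd `ℓ`) `⟹ Contract.HeckeModLReps c'`.

Given `D : GeoInputs M ℓ`, a field `k` of characteristic `ℓ` and `θ : T2 M →+* k`:
`W := k ⊗[ℤ_[ℓ]] D.TJ ≃ k ⊗[ℤ] D.Lam`; the ring `D.R` acts on `W` (base change of its action on the
lattice), commuting with the Galois action (generators: `commute_T`, `commute_D`); the character
`χ = θ ∘ π` of `D.R` occurs in `W` (helper93's `EigenModL`, faithfulness of `R` on the lattice);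
`d(σ) = cyclo_ℓ(σ) · θ(⟨cyclo_M(σ)⟩)` is a finite-level character with `d(c) = -1`
(`⟨-1⟩ = 1` in weight two) and `d(Frob_p) = p θ(⟨p⟩)` (helper20's `CycloModM`);
the Eichler--Shimura relation on `TJ` base-changes to `W`.  Then helper93's
`ResidualOfEigen.exists_residualRep` (generator Chebotarev + rank-two algebra over a field).
-/
import Mathlib
import Fermat.Agent.DS.G.Top.Inputs
import Fermat.Agent.DS.G.Top.Contract
import Fermat.Agent.DS.Geo.ResidualOfEigen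
import Fermat.Agent.DS.Geo.EigenModL
import Fermat.Agent.DS.Geo.CycloModM

set_option autoImplicit false
set_option linter.unusedSectionVars false

open Polynomial TensorProduct
open Matrix.SpecialLinearGroup UpperHalfPlane CongruenceSubgroup ModularForm
open scoped MatrixGroups ModularForm

noncomputable section

namespace Fermat.Agent.DS.G.Top.Assemble

open Fermat.Agent.DS.Hecke1.Algebra Fermat.Agent.DS.Hecke1.HeckeT1 Fermat.Agent.DS.Hecke1.Diamond
open Fermat.Agent.DS.Hecke1.Cosets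
open Fermat.Agent.DS.G.Top.Inputs Fermat.Agent.DS.Geo.CycloModM

local notation "Qb" => AlgebraicClosure ℚ
local notation "GQ" => (AlgebraicClosure ℚ ≃ₐ[ℚ] AlgebraicClosure ℚ)

/-! ### The diamond operators as a character of `(ℤ/M)ˣ` -/

theorem slash_two_neg_one (f : ℍ → ℂ) : f ∣[(2 : ℤ)] (-1 : SL(2, ℤ)) = f := by
  ext z
  rw [ModularForm.SL_slash_apply]
  have h1 : ((-1 : SL(2, ℤ)) • z) = z := by
    rw [ModularGroup.SL_neg_smul, one_smul]
  have h2 : denom ((-1 : SL(2, ℤ)) : GL (Fin 2) ℝ) z = -1 := by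
    simp [denom]
  rw [h1, h2]
  norm_num

section Dia

variable {M : ℕ} [NeZero M]

theorem dia_one {k : ℤ} : (heckeAlgebra1.dia (1 : (ZMod M)ˣ) : heckeAlgebra1 M k) = 1 := by
  apply Subtype.ext
  rw [heckeAlgebra1.coe_dia, diamond_one]
  rfl

theorem dia_mul {k : ℤ} (d e : (ZMod M)ˣ) :
    (heckeAlgebra1.dia (d * e) : heckeAlgebra1 M k) =
      heckeAlgebra1.dia d * heckeAlgebra1.dia e := by
  apply Subtype.ext
  rw [heckeAlgebra1.coe_dia, mul_comm d e, diamond_mul]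
  rfl

/-- `⟨-1⟩ = 1` in weight two. -/
theorem dia_neg_one : (heckeAlgebra1.dia (-1 : (ZMod M)ˣ) : T2 M) = 1 := by
  apply Subtype.ext
  rw [heckeAlgebra1.coe_dia]
  have hmem : (-1 : SL(2, ℤ)) ∈ Gamma0 M := by
    rw [Gamma0_mem]
    simp
  have hlr : lr M (-1 : SL(2, ℤ)) = ((-1 : (ZMod M)ˣ) : ZMod M) := by
    simp [lr]
  refine LinearMap.ext fun f => ?_
  apply DFunLike.coe_injective
  rw [coe_diamond (-1) hmem hlr f, slash_two_neg_one]
  rfl

/-- the character `d ↦ θ(⟨d⟩)` -/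
def diaChar {k : Type*} [Field k] (θ : T2 M →+* k) : (ZMod M)ˣ →* kˣ :=
  MonoidHom.toHomUnits
    { toFun := fun d => θ (heckeAlgebra1.dia d)
      map_one' := by rw [dia_one, map_one]
      map_mul' := fun d e => by rw [dia_mul, map_mul] }

theorem coe_diaChar {k : Type*} [Field k] (θ : T2 M →+* k) (d : (ZMod M)ˣ) :
    ((diaChar θ d : kˣ) : k) = θ (heckeAlgebra1.dia d) := rfl

end Dia

/-! ### The determinant character -/

section Det

variable (M : ℕ) [NeZero M] (ℓ : ℕ) [Fact ℓ.Prime] {k : Type} [Field k] [CharP k ℓ]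
  (θ : T2 M →+* k)

/-- the mod `ℓ` cyclotomic character with values in `k` -/
def cycloK : GQ →* kˣ :=
  (Units.map ((ZMod.castHom (dvd_refl ℓ) k : ZMod ℓ →+* k) : ZMod ℓ →* k)).comp (cycloM ℓ)

/-- `d(σ) = cyclo_ℓ(σ) θ(⟨cyclo_M(σ)⟩)` -/
def detChar : GQ →* kˣ := cycloK ℓ * (diaChar θ).comp (cycloM M)

theorem coe_detChar (σ : GQ) :
    ((detChar M ℓ θ σ : kˣ) : k) =
      ZMod.castHom (dvd_refl ℓ) k ((cycloM ℓ σ : (ZMod ℓ)ˣ) : ZMod ℓ) *
        θ (heckeAlgebra1.dia (cycloM M σ)) := rfl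

theorem detChar_complexConjugation :
    ((detChar M ℓ θ complexConjugation : kˣ) : k) = -1 := by
  rw [coe_detChar, cycloM_complexConjugation, cycloM_complexConjugation, dia_neg_one, map_one,
    mul_one, Units.val_neg, Units.val_one, map_neg, map_one]

theorem detChar_finiteLevel : GaloisFactorsThroughFiniteLevel (detChar M ℓ θ) := by
  obtain ⟨L₁, hL₁, H₁⟩ := cycloM_factorsThroughFiniteLevel ℓ
  obtain ⟨L₂, hL₂, H₂⟩ := cycloM_factorsThroughFiniteLevel M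
  have := hL₁
  have := hL₂
  refine ⟨L₁ ⊔ L₂, inferInstance, fun σ hσ => ?_⟩
  have h1 : cycloM ℓ σ = 1 := H₁ σ fun x hx => hσ x ((le_sup_left : L₁ ≤ L₁ ⊔ L₂) hx)
  have h2 : cycloM M σ = 1 := H₂ σ fun x hx => hσ x ((le_sup_right : L₂ ≤ L₁ ⊔ L₂) hx)
  show cycloK ℓ σ * (diaChar θ) (cycloM M σ) = 1
  rw [cycloK, MonoidHom.comp_apply, h1, h2, map_one, map_one, mul_one]

theorem detChar_inertia {q : ℕ} (hq : q.Prime) (hqM : ¬ q ∣ M) (hqℓ : q ≠ ℓ)
    (A : ValuationSubring Qb) (hA : A.LiesOverPrime q) {τ : GQ}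
    (hτ : τ ∈ A.inertiaSubgroupIn ℚ) : detChar M ℓ θ τ = 1 := by
  have hqℓ' : ¬ q ∣ ℓ := fun h =>
    hqℓ ((Nat.prime_dvd_prime_iff_eq hq (Fact.out : ℓ.Prime)).mp h)
  have h1 : cycloM ℓ τ = 1 := cycloM_of_mem_inertia ℓ hq hqℓ' A hA hτ
  have h2 : cycloM M τ = 1 := cycloM_of_mem_inertia M hq hqM A hA hτ
  show cycloK ℓ τ * (diaChar θ) (cycloM M τ) = 1
  rw [cycloK, MonoidHom.comp_apply, h1, h2, map_one, map_one, mul_one]

theorem detChar_frobenius {p : ℕ} (hp : p.Prime) (hpM : ¬ p ∣ M) (hpℓ : p ≠ ℓ)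
    (A : ValuationSubring Qb) (hA : A.LiesOverPrime p) {σ : GQ} (hσ : A.IsFrobeniusAt σ p) :
    ((detChar M ℓ θ σ : kˣ) : k) = (p : k) * θ (heckeAlgebra1.dia (unitP hp hpM)) := by
  have hpℓ' : ¬ p ∣ ℓ := fun h =>
    hpℓ ((Nat.prime_dvd_prime_iff_eq hp (Fact.out : ℓ.Prime)).mp h)
  rw [coe_detChar, cycloM_of_isFrobeniusAt ℓ hp hpℓ' A hA hσ, map_natCast,
    cycloM_of_isFrobeniusAt' M hp hpM A hA hσ]
  rfl

end Det

/-! ### The base change to `k` -/

section Main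

variable {M : ℕ} [NeZero M] {ℓ : ℕ} [Fact ℓ.Prime] (D : GeoInputs M ℓ)
  (k : Type) [Field k] [CharP k ℓ] [Algebra ℤ_[ℓ] k]

/-- `W = k ⊗ TJ` -/
abbrev W : Type := k ⊗[ℤ_[ℓ]] D.TJ

/-- the lattice inside `W` -/
def jMap : D.Lam →ₗ[ℤ] W D k :=
  ((TensorProduct.mk ℤ_[ℓ] k D.TJ 1).restrictScalars ℤ).comp D.ι₀

theorem jMap_isBaseChange : IsBaseChange k (jMap D k) :=
  D.isBaseChange.comp (TensorProduct.isBaseChange ℤ_[ℓ] D.TJ k)

/-- `k ⊗[ℤ] Lam ≃ W` -/
def eqv : k ⊗[ℤ] D.Lam ≃ₗ[k] W D k := (jMap_isBaseChange D k).equiv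

theorem eqv_tmul (c : k) (x : D.Lam) : eqv D k (c ⊗ₜ[ℤ] x) = c ⊗ₜ[ℤ_[ℓ]] D.ι₀ x := by
  change (jMap_isBaseChange D k).equiv (c ⊗ₜ[ℤ] x) = _
  rw [IsBaseChange.equiv_tmul]
  change c • ((1 : k) ⊗ₜ[ℤ_[ℓ]] D.ι₀ x) = _
  rw [TensorProduct.smul_tmul', smul_eq_mul, mul_one]

instance : Module.Finite k (W D k) := Module.Finite.equiv (eqv D k)

/-- the action of the Hecke ring on `W` -/
def thetaW : D.R →+* Module.End k (W D k) where
  toFun r := (eqv D k).toLinearMap ∘ₗ (D.act r).baseChange k ∘ₗ (eqv D k).symm.toLinearMap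
  map_one' := by
    rw [map_one, LinearMap.baseChange_one]
    ext w
    simp
  map_mul' r s := by
    rw [map_mul, LinearMap.baseChange_mul]
    ext w
    simp
  map_zero' := by
    rw [map_zero, LinearMap.baseChange_zero]
    ext w
    simp
  map_add' r s := by
    rw [map_add, LinearMap.baseChange_add]
    ext w
    simp

theorem thetaW_eqv (r : D.R) (v : k ⊗[ℤ] D.Lam) :
    thetaW D k r (eqv D k v) = eqv D k ((D.act r).baseChange k v) := by
  show (eqv D k) ((D.act r).baseChange k ((eqv D k).symm (eqv D k v))) = _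
  rw [LinearEquiv.symm_apply_apply]

/-- an operator on `TJ` which extends the action of `r` on the lattice base-changes to
`thetaW r`. -/
theorem baseChange_eq_thetaW (b : Module.End ℤ_[ℓ] D.TJ) (r : D.R)
    (h : ∀ x : D.Lam, b (D.ι₀ x) = D.ι₀ (D.act r x)) :
    b.baseChange k = thetaW D k r := by
  refine LinearMap.ext fun w => ?_
  obtain ⟨v, rfl⟩ := (eqv D k).surjective w
  rw [thetaW_eqv]
  induction v with
  | zero => simp
  | add x y hx hy => rw [map_add, map_add, hx, hy, map_add, map_add]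
  | tmul c x =>
    rw [eqv_tmul, LinearMap.baseChange_tmul, LinearMap.baseChange_tmul, eqv_tmul, h]

/-- the Galois action on `W` -/
def rhoW : GQ →* Module.End k (W D k) where
  toFun σ := (D.ρ σ).baseChange k
  map_one' := by rw [map_one, LinearMap.baseChange_one]
  map_mul' σ τ := by rw [map_mul, LinearMap.baseChange_mul]

theorem rhoW_apply (σ : GQ) : rhoW D k σ = (D.ρ σ).baseChange k := rfl

theorem commute_rhoW_thetaW (g : GQ) (r : D.R) : Commute (rhoW D k g) (thetaW D k r) := by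
  have hr : r ∈ Algebra.adjoin ℤ
      ({r : D.R | ∃ (p : ℕ) (hp : p.Prime) (hpM : ¬ p ∣ M), r = D.gT hp hpM} ∪
        Set.range D.gD) := by
    rw [D.gen]
    exact Algebra.mem_top
  induction hr using Algebra.adjoin_induction with
  | mem x hx =>
    rcases hx with ⟨p, hp, hpM, rfl⟩ | ⟨d, rfl⟩
    · rw [← baseChange_eq_thetaW D k (D.bT hp hpM) _ (D.bT_ι₀ hp hpM), rhoW_apply]
      have := D.commute_T g hp hpM
      unfold Commute SemiconjBy at this ⊢
      rw [← LinearMap.baseChange_mul, this, LinearMap.baseChange_mul]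
    · rw [← baseChange_eq_thetaW D k (D.bD d) _ (D.bD_ι₀ d), rhoW_apply]
      have := D.commute_D g d
      unfold Commute SemiconjBy at this ⊢
      rw [← LinearMap.baseChange_mul, this, LinearMap.baseChange_mul]
  | algebraMap n =>
    rw [eq_intCast, map_intCast]
    exact Int.commute_cast _ _
  | add x y _ _ hx hy => rw [map_add]; exact hx.add_right hy
  | mul x y _ _ hx hy => rw [map_mul]; exact hx.mul_right hy

end Main

/-! ### The representation -/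

section Final

variable {M : ℕ} [NeZero M] {ℓ : ℕ} [Fact ℓ.Prime] (D : GeoInputs M ℓ)
  (k : Type) [Field k] [CharP k ℓ] [Algebra ℤ_[ℓ] k]

theorem algebraMap_ell : algebraMap ℤ_[ℓ] k (ℓ : ℤ_[ℓ]) = 0 := by
  rw [map_natCast]
  exact CharP.cast_eq_zero k ℓ

theorem rhoW_finiteLevel : GaloisFactorsThroughFiniteLevel (rhoW D k) := by
  obtain ⟨L, hL, H⟩ := D.finiteLevel
  refine ⟨L, hL, fun σ hσ => ?_⟩
  rw [rhoW_apply]
  refine LinearMap.ext fun w => ?_
  induction w with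
  | zero => simp
  | add x y hx hy => rw [map_add, hx, hy, map_add]
  | tmul c x =>
    obtain ⟨y, hy⟩ := H σ hσ x
    have hx : D.ρ σ x = x + (ℓ : ℤ_[ℓ]) • y := by rw [← hy]; abel
    rw [LinearMap.baseChange_tmul, Module.End.one_apply, hx, TensorProduct.tmul_add,
      TensorProduct.tmul_smul, TensorProduct.smul_tmul', Algebra.smul_def, algebraMap_ell,
      zero_mul, TensorProduct.zero_tmul, add_zero]

include D in
/-- **The mod-`ℓ` representation attached to a character of `T2 M`**, from the geometric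
inputs. -/
theorem exists_rep (hℓ2 : ℓ ≠ 2) (θ : T2 M →+* k) :
    ∃ r : ResidualGaloisRep k, ∀ (p : ℕ) (hp : p.Prime) (hpM : ¬ p ∣ M), p ≠ ℓ →
      r.IsUnramifiedAt p ∧
      ∀ A : ValuationSubring Qb, A.LiesOverPrime p → ∀ σ : GQ, A.IsFrobeniusAt σ p →
        LinearMap.charpoly (r.ρ σ) =
          X ^ 2 - C (θ (heckeAlgebra1.T hp hpM)) * X +
            C ((p : k) * θ (heckeAlgebra1.dia (unitP hp hpM))) := by
  classical
  have hℓ : ℓ.Prime := Fact.out
  have h2 : (2 : k) ≠ 0 := by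
    intro h
    have h' : ((2 : ℕ) : k) = 0 := by exact_mod_cast h
    rw [CharP.cast_eq_zero_iff k ℓ] at h'
    exact hℓ2 ((Nat.prime_dvd_prime_iff_eq hℓ Nat.prime_two).mp h')
  set χ : D.R →+* k := θ.comp D.π with hχ
  -- the eigenvector
  obtain ⟨w₀, hw₀, hw⟩ :=
    Fermat.Agent.DS.Geo.EigenModL.exists_eigenvector_tensor_field (k := k) D.act χ
      D.act_injective
  have heig : ∃ v : W D k, v ≠ 0 ∧ ∀ t, thetaW D k t v = χ t • v := by
    refine ⟨eqv D k w₀, fun h => hw₀ ((eqv D k).map_eq_zero_iff.mp h), fun t => ?_⟩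
    rw [thetaW_eqv, hw, map_smul]
  -- the Hecke elements
  let tp : ℕ → D.R := fun p => if h : p.Prime ∧ ¬ p ∣ M then D.gT h.1 h.2 else 0
  let dp : ℕ → D.R := fun p =>
    if h : p.Prime ∧ ¬ p ∣ M then (p : D.R) * D.gD (unitP h.1 h.2) else 0
  have htp : ∀ {p : ℕ} (hp : p.Prime) (hpM : ¬ p ∣ M), tp p = D.gT hp hpM :=
    fun hp hpM => dif_pos ⟨hp, hpM⟩
  have hdp : ∀ {p : ℕ} (hp : p.Prime) (hpM : ¬ p ∣ M),
      dp p = (p : D.R) * D.gD (unitP hp hpM) := fun hp hpM => dif_pos ⟨hp, hpM⟩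
  have hχtp : ∀ {p : ℕ} (hp : p.Prime) (hpM : ¬ p ∣ M),
      χ (tp p) = θ (heckeAlgebra1.T hp hpM) := by
    intro p hp hpM
    rw [htp hp hpM, hχ, RingHom.comp_apply, D.π_T]
  have hχdp : ∀ {p : ℕ} (hp : p.Prime) (hpM : ¬ p ∣ M),
      χ (dp p) = (p : k) * θ (heckeAlgebra1.dia (unitP hp hpM)) := by
    intro p hp hpM
    rw [hdp hp hpM, map_mul, map_natCast, hχ, RingHom.comp_apply, D.π_D]
  -- the bad primes
  set S : Finset ℕ := (M * ℓ).primeFactors with hSdef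
  have hne : M * ℓ ≠ 0 := mul_ne_zero (NeZero.ne M) hℓ.ne_zero
  have hS : ∀ p : ℕ, p.Prime → p ∉ S → ¬ p ∣ M ∧ p ≠ ℓ := by
    intro p hp hpS
    have hnd : ¬ p ∣ M * ℓ := fun h => hpS (Nat.mem_primeFactors.mpr ⟨hp, h, hne⟩)
    exact ⟨fun h => hnd (Dvd.dvd.mul_right h ℓ), fun h => hnd (h ▸ Dvd.intro_left M rfl)⟩
  have hS' : ∀ p : ℕ, p.Prime → ¬ p ∣ M → p ≠ ℓ → p ∉ S := by
    intro p hp hpM hpℓ h
    obtain ⟨-, hd, -⟩ := Nat.mem_primeFactors.mp h
    rcases (Nat.Prime.dvd_mul hp).mp hd with h | h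
    · exact hpM h
    · exact hpℓ ((Nat.prime_dvd_prime_iff_eq hp hℓ).mp h)
  have hES : ∀ p : ℕ, p.Prime → p ∉ S → ∀ A : ValuationSubring Qb, A.LiesOverPrime p →
      ∀ σ : GQ, A.IsFrobeniusAt σ p →
        rhoW D k σ * rhoW D k σ - thetaW D k (tp p) * rhoW D k σ + thetaW D k (dp p) = 0 ∧
          ((detChar M ℓ θ σ : kˣ) : k) = χ (dp p) := by
    intro p hp hpS A hA σ hσ
    obtain ⟨hpM, hpℓ⟩ := hS p hp hpS
    refine ⟨?_, ?_⟩
    · have h := congrArg (LinearMap.baseChange k) (D.frobenius hp hpM hpℓ A hA σ hσ)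
      rw [LinearMap.baseChange_add, LinearMap.baseChange_sub, LinearMap.baseChange_mul,
        LinearMap.baseChange_mul, LinearMap.baseChange_smul, LinearMap.baseChange_zero,
        baseChange_eq_thetaW D k (D.bT hp hpM) _ (D.bT_ι₀ hp hpM),
        baseChange_eq_thetaW D k (D.bD (unitP hp hpM)) _ (D.bD_ι₀ _),
        Nat.cast_smul_eq_nsmul, nsmul_eq_mul] at h
      rw [htp hp hpM, hdp hp hpM, map_mul, map_natCast]
      exact h
    · rw [hχdp hp hpM]
      exact detChar_frobenius M ℓ θ hp hpM hpℓ A hA hσ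
  have hunr : ∀ p : ℕ, p.Prime → p ∉ S → ∀ A : ValuationSubring Qb, A.LiesOverPrime p →
      ∀ τ ∈ A.inertiaSubgroupIn ℚ, rhoW D k τ = 1 ∧ detChar M ℓ θ τ = 1 := by
    intro p hp hpS A hA τ hτ
    obtain ⟨hpM, hpℓ⟩ := hS p hp hpS
    refine ⟨?_, detChar_inertia M ℓ θ hp hpM hpℓ A hA hτ⟩
    rw [rhoW_apply, D.unramified p hp hpM hpℓ A hA τ hτ, LinearMap.baseChange_one]
  obtain ⟨r, hr⟩ := Fermat.Agent.DS.Geo.ResidualOfEigen.exists_residualRep h2 (rhoW D k)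
    (thetaW D k) (commute_rhoW_thetaW D k) χ heig (rhoW_finiteLevel D k) (detChar M ℓ θ)
    (detChar_finiteLevel M ℓ θ) (detChar_complexConjugation M ℓ θ) S tp dp hES hunr
  refine ⟨r, fun p hp hpM hpℓ => ?_⟩
  obtain ⟨h1, h2'⟩ := hr p hp (hS' p hp hpM hpℓ)
  refine ⟨h1, fun A hA σ hσ => ?_⟩
  rw [h2' A hA σ hσ, hχtp hp hpM, hχdp hp hpM]

end Final

/-- **GEO-MAIN from the geometric inputs.** -/
theorem heckeModLReps_of_geoInputs (c' : ℕ)
    (h : ∀ (M : ℕ) [NeZero M], c' ∣ M → ∀ (ℓ : ℕ) [Fact ℓ.Prime], ℓ ≠ 2 →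
      Nonempty (GeoInputs M ℓ)) :
    Fermat.Agent.DS.G.Top.Contract.HeckeModLReps c' := by
  intro M _ hcM ℓ hℓ hℓ2 k _ _ θ
  have : Fact ℓ.Prime := ⟨hℓ⟩
  obtain ⟨D⟩ := h M hcM ℓ hℓ2
  let _ : Algebra ℤ_[ℓ] k :=
    ((ZMod.castHom (dvd_refl ℓ) k : ZMod ℓ →+* k).comp (PadicInt.toZMod (p := ℓ))).toAlgebra
  exact exists_rep D k hℓ2 θ

end Fermat.Agent.DS.G.Top.Assemble
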