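/-
DS programme (S48), GEO half: `GeoInputs2`, the EIGENVECTOR form of the contract
`G/Top/Inputs.GeoInputs` (helper91).

`GeoInputs` asks for a COMMUTATIVE ring `R` acting faithfully on the lattice
`Lam = Hom_par(Γ₁(M), ℤ)` with a ring homomorphism `π : R → T2 M`; commutativity of the
double-coset operators on `Lam` is not available without the full Eichler--Shimura isomorphism.
`GeoInputs2` replaces the fields `R, act, act_injective, gT, gD, gen, π, π_T, π_D` by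

* `aT p`, `aD d : Module.End ℤ Lam` (the double-coset operators, no relation required), and
* `eig` : for every field `k` and every ring homomorphism `θ : T2 M →+* k` a NONZERO
  `w ∈ k ⊗[ℤ] Lam` with `(aT p ⊗ 1) w = θ(T_p) w`, `(aD d ⊗ 1) w = θ(⟨d⟩) w`

(period chapter: `Per1/EigenTensor1.exists_eigen_tensor_Gamma1`, unconditional).  All other fields
are unchanged.  `ofGeoInputs` shows that the new contract is weaker than the old one;
`Assemble2.heckeModLReps_of_geoInputs2` is the back end.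
-/
import Mathlib
import Fermat.Prelude.Def_GaloisRep_Residual
import Fermat.Agent.DS.Hecke1.Algebra
import Fermat.Agent.DS.G.Top.Inputs
import Fermat.Agent.DS.Geo.EigenModL

set_option autoImplicit false

open TensorProduct

namespace Fermat.Agent.DS.G.Top.Inputs2

open Fermat.Agent.DS.Hecke1.Algebra Fermat.Agent.DS.Hecke1.HeckeT1

local notation "Qb" => AlgebraicClosure ℚ
local notation "GQ" => (AlgebraicClosure ℚ ≃ₐ[ℚ] AlgebraicClosure ℚ)

/-- **The geometric inputs, eigenvector form.** -/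
structure GeoInputs2 (M : ℕ) [NeZero M] (ℓ : ℕ) [Fact ℓ.Prime] : Type 1 where
  /-- the lattice `Hom_par(Γ₁(M), ℤ)` -/
  Lam : Type
  [instLamGroup : AddCommGroup Lam]
  [instLamFinite : Module.Finite ℤ Lam]
  /-- `T_p` on the lattice -/
  aT : ∀ {p : ℕ}, p.Prime → ¬ p ∣ M → Module.End ℤ Lam
  /-- `⟨d⟩` on the lattice -/
  aD : (ZMod M)ˣ → Module.End ℤ Lam
  /-- every character of the Hecke algebra of cusp forms occurs in `k ⊗ Lam` -/
  eig : ∀ (k : Type) [Field k] (θ : T2 M →+* k), ∃ w : k ⊗[ℤ] Lam, w ≠ 0 ∧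
    (∀ {p : ℕ} (hp : p.Prime) (hpM : ¬ p ∣ M),
      (aT hp hpM).baseChange k w = θ (heckeAlgebra1.T hp hpM) • w) ∧
    ∀ d : (ZMod M)ˣ, (aD d).baseChange k w = θ (heckeAlgebra1.dia d) • w
  /-- the Tate module -/
  TJ : Type
  [instTJGroup : AddCommGroup TJ]
  [instTJModule : Module ℤ_[ℓ] TJ]
  /-- the comparison map -/
  ι₀ : Lam →ₗ[ℤ] TJ
  isBaseChange : IsBaseChange ℤ_[ℓ] ι₀
  /-- `T_p` on the Tate module -/
  bT : ∀ {p : ℕ}, p.Prime → ¬ p ∣ M → Module.End ℤ_[ℓ] TJ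
  /-- `⟨d⟩` on the Tate module -/
  bD : (ZMod M)ˣ → Module.End ℤ_[ℓ] TJ
  bT_ι₀ : ∀ {p : ℕ} (hp : p.Prime) (hpM : ¬ p ∣ M) (x : Lam),
    bT hp hpM (ι₀ x) = ι₀ (aT hp hpM x)
  bD_ι₀ : ∀ (d : (ZMod M)ˣ) (x : Lam), bD d (ι₀ x) = ι₀ (aD d x)
  /-- the Galois action -/
  ρ : GQ →* Module.End ℤ_[ℓ] TJ
  commute_T : ∀ (g : GQ) {p : ℕ} (hp : p.Prime) (hpM : ¬ p ∣ M), Commute (ρ g) (bT hp hpM)
  commute_D : ∀ (g : GQ) (d : (ZMod M)ˣ), Commute (ρ g) (bD d)
  finiteLevel : ∃ L : IntermediateField ℚ Qb, FiniteDimensional ℚ L ∧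
    ∀ σ : GQ, (∀ a ∈ L, σ a = a) → ∀ x : TJ, ∃ y : TJ, ρ σ x - x = (ℓ : ℤ_[ℓ]) • y
  unramified : ∀ q : ℕ, q.Prime → ¬ q ∣ M → q ≠ ℓ →
    ∀ A : ValuationSubring Qb, A.LiesOverPrime q → ∀ τ ∈ A.inertiaSubgroupIn ℚ, ρ τ = 1
  frobenius : ∀ {p : ℕ} (hp : p.Prime) (hpM : ¬ p ∣ M), p ≠ ℓ →
    ∀ A : ValuationSubring Qb, A.LiesOverPrime p → ∀ σ : GQ, A.IsFrobeniusAt σ p →
      ρ σ * ρ σ - bT hp hpM * ρ σ + (p : ℤ_[ℓ]) • bD (unitP hp hpM) = 0

attribute [instance] GeoInputs2.instLamGroup GeoInputs2.instLamFinite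
  GeoInputs2.instTJGroup GeoInputs2.instTJModule

/-- The old contract (commutative faithful `R` with `π : R → T2 M`) implies the new one. -/
noncomputable def ofGeoInputs {M : ℕ} [NeZero M] {ℓ : ℕ} [Fact ℓ.Prime]
    (D : Fermat.Agent.DS.G.Top.Inputs.GeoInputs M ℓ) : GeoInputs2 M ℓ where
  Lam := D.Lam
  aT hp hpM := D.act (D.gT hp hpM)
  aD d := D.act (D.gD d)
  eig k _ θ := by
    obtain ⟨w, hw0, hw⟩ :=
      Fermat.Agent.DS.Geo.EigenModL.exists_eigenvector_tensor_field (k := k) D.act (θ.comp D.π)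
        D.act_injective
    refine ⟨w, hw0, fun hp hpM => ?_, fun d => ?_⟩
    · rw [hw, RingHom.comp_apply, D.π_T]
    · rw [hw, RingHom.comp_apply, D.π_D]
  TJ := D.TJ
  ι₀ := D.ι₀
  isBaseChange := D.isBaseChange
  bT := D.bT
  bD := D.bD
  bT_ι₀ := D.bT_ι₀
  bD_ι₀ := D.bD_ι₀
  ρ := D.ρ
  commute_T := D.commute_T
  commute_D := D.commute_D
  finiteLevel := D.finiteLevel
  unramified := D.unramified
  frobenius := D.frobenius

end Fermat.Agent.DS.G.Top.Inputs2
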