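/-
Programme DS (S48), chapter G-TOP (helper71): the abstract rank-two assembly over a FIELD.

`exists_rep_of_eigenSpace`: `k` a field with `2 ≠ 0`, `W` a nonzero finite-dimensional `k`-space with an
action `ρ` of a group `G`, `d : G →* kˣ` a character, `Φ ⊆ G` a set of elements satisfying the
quadratic relation `ρ σ ² - aΦ σ • ρ σ + d σ = 0` whose powers reach every `(ρ g, d g)`, and one
`c` with `c * c = 1`, `d c = -1`.  Then there is a two-dimensional `k`-representation `ρ'` of `G` with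
`charpoly (ρ' σ) = X² - aΦ σ X + d σ` on `Φ`, trivial wherever `ρ` and `d` are both trivial.

This is `ES/J/S30Skeleton8.exists_rep_of_eigenLattice` with the complete DVR replaced by a field
(ideal filtration `⊥`): `ES/ALG/RelDense9.exists_trace_fun_of_dense` + `ES/ALG/RankTwo9.exists_rankTwo`.
-/
import Mathlib
import Fermat.Agent.ES.ALG.RankTwo9
import Fermat.Agent.ES.ALG.RelDense9

set_option autoImplicit false

open Polynomial

noncomputable section

namespace Fermat.Agent.DS.G.Top.RankTwoField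

open Fermat.Agent.ES.ALG.RelDense9 Fermat.Agent.ES.ALG.RankTwo9

variable {k : Type} [Field k] {W : Type} [AddCommGroup W] [Module k W] [Module.Finite k W]
variable {G : Type*} [Group G]

/-- the zero ideal filtration. -/
def botFil (k : Type) [Field k] : ℕ → Ideal k := fun _ => ⊥

theorem eq_zero_of_mem_botFil (x : k) (hx : ∀ n, x ∈ botFil k n) : x = 0 := by
  have := hx 0
  simpa [botFil] using this

/-- **The rank-two assembly over a field.** -/
theorem exists_rep_of_eigenSpace [Nontrivial W] (h2 : (2 : k) ≠ 0)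
    (ρ : G →* Module.End k W) (d : G →* kˣ) (Φ : Set G) (aΦ : G → k)
    (hΦ : ∀ σ ∈ Φ, ρ σ * ρ σ - aΦ σ • ρ σ + ((d σ : kˣ) : k) • (1 : Module.End k W) = 0)
    (hdense : ∀ g : G, ∃ σ ∈ Φ, ∃ j : ℕ, ρ g = ρ σ ^ j ∧ ((d g : kˣ) : k) = ((d σ : kˣ) : k) ^ j)
    (c : G) (hc2 : c * c = 1) (hdc : ((d c : kˣ) : k) = -1) :
    ∃ (V : Type) (_ : AddCommGroup V) (_ : Module k V) (_ : Module.Finite k V)
      (ρ' : G →* Module.End k V),
      Module.finrank k V = 2 ∧
      (∀ σ ∈ Φ, (ρ' σ).charpoly = X ^ 2 - C (aΦ σ) * X + C (((d σ : kˣ) : k))) ∧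
      (∀ g : G, ∃ a : k, (ρ' g).charpoly = X ^ 2 - C a * X + C (((d g : kˣ) : k))) ∧
      ∀ g : G, ρ g = 1 → d g = 1 → ρ' g = 1 := by
  classical
  obtain ⟨a, ha, haΦ⟩ := exists_trace_fun_of_dense ρ d (botFil k) eq_zero_of_mem_botFil Φ aΦ hΦ
    (fun _ g => by
      obtain ⟨σ, hσ, j, h1, h2'⟩ := hdense g
      refine ⟨σ, hσ, j, ?_, ?_⟩
      · rw [h1]; exact EndCongr.refl _ _
      · rw [h2', sub_self]; exact Ideal.zero_mem _)
  obtain ⟨V, i1, i2, _, i4, ρ', hrk, hchar, hcongr⟩ :=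
    exists_rankTwo (c := c) h2 ha hc2 hdc
  refine ⟨V, i1, i2, i4, ρ', hrk, fun σ hσ => ?_, fun g => ⟨a g, hchar g⟩, fun g hg hdg => ?_⟩
  · rw [hchar σ, haΦ σ hσ]
  · have h1 : EndCongr (botFil k 0) (ρ g) 1 := by rw [hg]; exact EndCongr.refl _ _
    have h2' : ((d g : kˣ) : k) - 1 ∈ botFil k 0 := by
      rw [hdg, Units.val_one, sub_self]; exact Ideal.zero_mem _
    have h3 := hcongr (botFil k 0) g h1 h2'
    refine LinearMap.ext fun v => ?_
    have h4 := h3 v
    have e : botFil k 0 = ⊥ := rfl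
    rw [e, Submodule.bot_smul, Submodule.mem_bot, sub_eq_zero] at h4
    exact h4

end Fermat.Agent.DS.G.Top.RankTwoField
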