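/-
DS programme (S48), GEO half (helper91, after helper71's `Assemble`): **the mod-`ℓ` assembly from
the eigenvector form of the contract**,
`GeoInputs2 M ℓ` (for all `M` divisible by `c'`, all odd `ℓ`) `⟹ Contract.HeckeModLReps c'`.

Differences with `Assemble`: no commutative Hecke ring of the lattice.  The (noncommutative) free
`ℤ`-algebra `FreeAlgebra ℤ (Gen M)` on the symbols `T_p` (`p ∤ M`) and `⟨d⟩` acts on
`W = k ⊗ TJ` through the base changes of `bT p`, `bD d`, and on `k` through `θ`; the eigenvector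
is provided by the field `GeoInputs2.eig` (period chapter).  The back end
`Geo/ResidualOfEigen.exists_residualRep` only needs a `Semiring` of operators.
-/
import Mathlib
import Fermat.Agent.DS.G.Top.Inputs2
import Fermat.Agent.DS.G.Top.Contract
import Fermat.Agent.DS.G.Top.Assemble
import Fermat.Agent.DS.Geo.ResidualOfEigen
import Fermat.Agent.DS.Geo.CycloModM

set_option autoImplicit false
set_option linter.unusedSectionVars false

open Polynomial TensorProduct

noncomputable section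

namespace Fermat.Agent.DS.G.Top.Assemble2

open Fermat.Agent.DS.Hecke1.Algebra Fermat.Agent.DS.Hecke1.HeckeT1 Fermat.Agent.DS.Hecke1.Diamond
open Fermat.Agent.DS.Hecke1.Cosets
open Fermat.Agent.DS.G.Top.Inputs2 Fermat.Agent.DS.Geo.CycloModM
open Fermat.Agent.DS.G.Top.Assemble (detChar detChar_frobenius detChar_inertia
  detChar_finiteLevel detChar_complexConjugation)

local notation "Qb" => AlgebraicClosure ℚ
local notation "GQ" => (AlgebraicClosure ℚ ≃ₐ[ℚ] AlgebraicClosure ℚ)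

/-- The symbols `T_p` (`p ∤ M` prime) and `⟨d⟩`. -/
abbrev Gen (M : ℕ) : Type := {p : ℕ // p.Prime ∧ ¬ p ∣ M} ⊕ (ZMod M)ˣ

/-- The free (noncommutative) ring on the symbols. -/
abbrev HFree (M : ℕ) : Type := FreeAlgebra ℤ (Gen M)

section Main

variable {M : ℕ} [NeZero M] {ℓ : ℕ} [Fact ℓ.Prime] (D : GeoInputs2 M ℓ)
  (k : Type) [Field k] [CharP k ℓ] [Algebra ℤ_[ℓ] k]

/-- `W = k ⊗ TJ` -/
abbrev W : Type := k ⊗[ℤ_[ℓ]] D.TJ

/-- the lattice inside `W` -/
def jMap : D.Lam →ₗ[ℤ] W D k :=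
  ((TensorProduct.mk ℤ_[ℓ] k D.TJ 1).restrictScalars ℤ).comp D.ι₀

theorem jMap_isBaseChange : IsBaseChange k (jMap D k) :=
  D.isBaseChange.comp (TensorProduct.isBaseChange ℤ_[ℓ] D.TJ k)

/-- `k ⊗[ℤ] Lam ≃ W` -/
def eqv : k ⊗[ℤ] D.Lam ≃ₗ[k] W D k := (jMap_isBaseChange D k).equiv

theorem eqv_tmul (c : k) (x : D.Lam) : eqv D k (c ⊗ₜ[ℤ] x) = c ⊗ₜ[ℤ_[ℓ]] D.ι₀ x := by
  change (jMap_isBaseChange D k).equiv (c ⊗ₜ[ℤ] x) = _
  rw [IsBaseChange.equiv_tmul]
  change c • ((1 : k) ⊗ₜ[ℤ_[ℓ]] D.ι₀ x) = _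
  rw [TensorProduct.smul_tmul', smul_eq_mul, mul_one]

instance : Module.Finite k (W D k) := Module.Finite.equiv (eqv D k)

/-- an operator on `TJ` which extends an operator `a` of the lattice base-changes compatibly. -/
theorem baseChange_eqv (b : Module.End ℤ_[ℓ] D.TJ) (a : Module.End ℤ D.Lam)
    (h : ∀ x : D.Lam, b (D.ι₀ x) = D.ι₀ (a x)) (v : k ⊗[ℤ] D.Lam) :
    b.baseChange k (eqv D k v) = eqv D k (a.baseChange k v) := by
  induction v with
  | zero => simp
  | add x y hx hy => rw [map_add, map_add, hx, hy, map_add, map_add]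
  | tmul c x =>
    rw [eqv_tmul, LinearMap.baseChange_tmul, LinearMap.baseChange_tmul, eqv_tmul, h]

/-- the operators of the symbols on `W` -/
def opW : Gen M → Module.End k (W D k)
  | Sum.inl p => (D.bT p.2.1 p.2.2).baseChange k
  | Sum.inr d => (D.bD d).baseChange k

/-- the action of the free ring on `W` -/
def thetaW : HFree M →+* Module.End k (W D k) :=
  (FreeAlgebra.lift ℤ (opW D k)).toRingHom

theorem thetaW_ι (x : Gen M) : thetaW D k (FreeAlgebra.ι ℤ x) = opW D k x := by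
  show FreeAlgebra.lift ℤ (opW D k) (FreeAlgebra.ι ℤ x) = _
  rw [FreeAlgebra.lift_ι_apply]

/-- the Galois action on `W` -/
def rhoW : GQ →* Module.End k (W D k) where
  toFun σ := (D.ρ σ).baseChange k
  map_one' := by rw [map_one, LinearMap.baseChange_one]
  map_mul' σ τ := by rw [map_mul, LinearMap.baseChange_mul]

theorem rhoW_apply (σ : GQ) : rhoW D k σ = (D.ρ σ).baseChange k := rfl

theorem commute_rhoW_opW (g : GQ) (x : Gen M) : Commute (rhoW D k g) (opW D k x) := by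
  rcases x with p | d
  · have := D.commute_T g p.2.1 p.2.2
    unfold Commute SemiconjBy at this ⊢
    show (D.ρ g).baseChange k * (D.bT p.2.1 p.2.2).baseChange k
      = (D.bT p.2.1 p.2.2).baseChange k * (D.ρ g).baseChange k
    rw [← LinearMap.baseChange_mul, this, LinearMap.baseChange_mul]
  · have := D.commute_D g d
    unfold Commute SemiconjBy at this ⊢
    show (D.ρ g).baseChange k * (D.bD d).baseChange k
      = (D.bD d).baseChange k * (D.ρ g).baseChange k
    rw [← LinearMap.baseChange_mul, this, LinearMap.baseChange_mul]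

theorem commute_rhoW_thetaW (g : GQ) (t : HFree M) : Commute (rhoW D k g) (thetaW D k t) := by
  induction t using FreeAlgebra.induction with
  | grade0 n =>
    rw [eq_intCast, map_intCast]
    exact Int.commute_cast _ _
  | grade1 x => rw [thetaW_ι]; exact commute_rhoW_opW D k g x
  | mul a b ha hb => rw [map_mul]; exact ha.mul_right hb
  | add a b ha hb => rw [map_add]; exact ha.add_right hb

end Main

/-! ### The character of the free ring -/

section Chi

variable {M : ℕ} [NeZero M] {k : Type} [Field k] (θ : T2 M →+* k)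

/-- the values of the symbols -/
def chiGen : Gen M → k
  | Sum.inl p => θ (heckeAlgebra1.T p.2.1 p.2.2)
  | Sum.inr d => θ (heckeAlgebra1.dia d)

/-- the character of the free ring -/
def chiFree : HFree M →+* k := (FreeAlgebra.lift ℤ (chiGen θ)).toRingHom

theorem chiFree_ι (x : Gen M) : chiFree θ (FreeAlgebra.ι ℤ x) = chiGen θ x := by
  show FreeAlgebra.lift ℤ (chiGen θ) (FreeAlgebra.ι ℤ x) = _
  rw [FreeAlgebra.lift_ι_apply]

end Chi

/-! ### The representation -/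

section Final

variable {M : ℕ} [NeZero M] {ℓ : ℕ} [Fact ℓ.Prime] (D : GeoInputs2 M ℓ)
  (k : Type) [Field k] [CharP k ℓ] [Algebra ℤ_[ℓ] k]

theorem algebraMap_ell : algebraMap ℤ_[ℓ] k (ℓ : ℤ_[ℓ]) = 0 := by
  rw [map_natCast]
  exact CharP.cast_eq_zero k ℓ

theorem rhoW_finiteLevel : GaloisFactorsThroughFiniteLevel (rhoW D k) := by
  obtain ⟨L, hL, H⟩ := D.finiteLevel
  refine ⟨L, hL, fun σ hσ => ?_⟩
  rw [rhoW_apply]
  refine LinearMap.ext fun w => ?_
  induction w with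
  | zero => simp
  | add x y hx hy => rw [map_add, hx, hy, map_add]
  | tmul c x =>
    obtain ⟨y, hy⟩ := H σ hσ x
    have hx : D.ρ σ x = x + (ℓ : ℤ_[ℓ]) • y := by rw [← hy]; abel
    rw [LinearMap.baseChange_tmul, Module.End.one_apply, hx, TensorProduct.tmul_add,
      TensorProduct.tmul_smul, TensorProduct.smul_tmul', Algebra.smul_def, algebraMap_ell,
      zero_mul, TensorProduct.zero_tmul, add_zero]

/-- the eigenvector of the free ring in `W` -/
theorem exists_eigenvector (θ : T2 M →+* k) :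
    ∃ v : W D k, v ≠ 0 ∧ ∀ t : HFree M, thetaW D k t v = chiFree θ t • v := by
  obtain ⟨w, hw0, hwT, hwD⟩ := D.eig k θ
  refine ⟨eqv D k w, fun h => hw0 ((eqv D k).map_eq_zero_iff.mp h), fun t => ?_⟩
  induction t using FreeAlgebra.induction with
  | grade0 n =>
    rw [eq_intCast, map_intCast, map_intCast, Module.End.intCast_apply]
    exact (Int.cast_smul_eq_zsmul k n _).symm
  | grade1 x =>
    rw [thetaW_ι, chiFree_ι]
    rcases x with p | d
    · show (D.bT p.2.1 p.2.2).baseChange k (eqv D k w) = _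
      rw [baseChange_eqv D k _ _ (D.bT_ι₀ p.2.1 p.2.2), hwT, map_smul]
      rfl
    · show (D.bD d).baseChange k (eqv D k w) = _
      rw [baseChange_eqv D k _ _ (D.bD_ι₀ d), hwD, map_smul]
      rfl
  | mul a b ha hb =>
    rw [map_mul, Module.End.mul_apply, hb, map_smul, ha, smul_smul, map_mul, mul_comm]
  | add a b ha hb =>
    rw [map_add, LinearMap.add_apply, ha, hb, map_add, add_smul]

include D in
/-- **The mod-`ℓ` representation attached to a character of `T2 M`**, from the geometric inputs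
in eigenvector form. -/
theorem exists_rep (hℓ2 : ℓ ≠ 2) (θ : T2 M →+* k) :
    ∃ r : ResidualGaloisRep k, ∀ (p : ℕ) (hp : p.Prime) (hpM : ¬ p ∣ M), p ≠ ℓ →
      r.IsUnramifiedAt p ∧
      ∀ A : ValuationSubring Qb, A.LiesOverPrime p → ∀ σ : GQ, A.IsFrobeniusAt σ p →
        LinearMap.charpoly (r.ρ σ) =
          X ^ 2 - C (θ (heckeAlgebra1.T hp hpM)) * X +
            C ((p : k) * θ (heckeAlgebra1.dia (unitP hp hpM))) := by
  classical
  have hℓ : ℓ.Prime := Fact.out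
  have h2 : (2 : k) ≠ 0 := by
    intro h
    have h' : ((2 : ℕ) : k) = 0 := by exact_mod_cast h
    rw [CharP.cast_eq_zero_iff k ℓ] at h'
    exact hℓ2 ((Nat.prime_dvd_prime_iff_eq hℓ Nat.prime_two).mp h')
  set χ : HFree M →+* k := chiFree θ with hχ
  have heig : ∃ v : W D k, v ≠ 0 ∧ ∀ t, thetaW D k t v = χ t • v := exists_eigenvector D k θ
  -- the Hecke elements
  let tp : ℕ → HFree M := fun p =>
    if h : p.Prime ∧ ¬ p ∣ M then FreeAlgebra.ι ℤ (Sum.inl ⟨p, h⟩) else 0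
  let dp : ℕ → HFree M := fun p =>
    if h : p.Prime ∧ ¬ p ∣ M then (p : HFree M) * FreeAlgebra.ι ℤ (Sum.inr (unitP h.1 h.2)) else 0
  have htp : ∀ {p : ℕ} (hp : p.Prime) (hpM : ¬ p ∣ M),
      tp p = FreeAlgebra.ι ℤ (Sum.inl ⟨p, hp, hpM⟩) :=
    fun hp hpM => dif_pos ⟨hp, hpM⟩
  have hdp : ∀ {p : ℕ} (hp : p.Prime) (hpM : ¬ p ∣ M),
      dp p = (p : HFree M) * FreeAlgebra.ι ℤ (Sum.inr (unitP hp hpM)) :=
    fun hp hpM => dif_pos ⟨hp, hpM⟩
  have hχtp : ∀ {p : ℕ} (hp : p.Prime) (hpM : ¬ p ∣ M),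
      χ (tp p) = θ (heckeAlgebra1.T hp hpM) := by
    intro p hp hpM
    rw [htp hp hpM, hχ, chiFree_ι]
    rfl
  have hχdp : ∀ {p : ℕ} (hp : p.Prime) (hpM : ¬ p ∣ M),
      χ (dp p) = (p : k) * θ (heckeAlgebra1.dia (unitP hp hpM)) := by
    intro p hp hpM
    rw [hdp hp hpM, map_mul, map_natCast, hχ, chiFree_ι]
    rfl
  -- the bad primes
  set S : Finset ℕ := (M * ℓ).primeFactors with hSdef
  have hne : M * ℓ ≠ 0 := mul_ne_zero (NeZero.ne M) hℓ.ne_zero
  have hS : ∀ p : ℕ, p.Prime → p ∉ S → ¬ p ∣ M ∧ p ≠ ℓ := by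
    intro p hp hpS
    have hnd : ¬ p ∣ M * ℓ := fun h => hpS (Nat.mem_primeFactors.mpr ⟨hp, h, hne⟩)
    exact ⟨fun h => hnd (Dvd.dvd.mul_right h ℓ), fun h => hnd (h ▸ Dvd.intro_left M rfl)⟩
  have hS' : ∀ p : ℕ, p.Prime → ¬ p ∣ M → p ≠ ℓ → p ∉ S := by
    intro p hp hpM hpℓ h
    obtain ⟨-, hd, -⟩ := Nat.mem_primeFactors.mp h
    rcases (Nat.Prime.dvd_mul hp).mp hd with h | h
    · exact hpM h
    · exact hpℓ ((Nat.prime_dvd_prime_iff_eq hp hℓ).mp h)
  have hES : ∀ p : ℕ, p.Prime → p ∉ S → ∀ A : ValuationSubring Qb, A.LiesOverPrime p →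
      ∀ σ : GQ, A.IsFrobeniusAt σ p →
        rhoW D k σ * rhoW D k σ - thetaW D k (tp p) * rhoW D k σ + thetaW D k (dp p) = 0 ∧
          ((detChar M ℓ θ σ : kˣ) : k) = χ (dp p) := by
    intro p hp hpS A hA σ hσ
    obtain ⟨hpM, hpℓ⟩ := hS p hp hpS
    refine ⟨?_, ?_⟩
    · have h := congrArg (LinearMap.baseChange k) (D.frobenius hp hpM hpℓ A hA σ hσ)
      rw [LinearMap.baseChange_add, LinearMap.baseChange_sub, LinearMap.baseChange_mul,
        LinearMap.baseChange_mul, LinearMap.baseChange_smul, LinearMap.baseChange_zero,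
        Nat.cast_smul_eq_nsmul, nsmul_eq_mul] at h
      rw [htp hp hpM, hdp hp hpM, map_mul, map_natCast, thetaW_ι, thetaW_ι]
      exact h
    · rw [hχdp hp hpM]
      exact detChar_frobenius M ℓ θ hp hpM hpℓ A hA hσ
  have hunr : ∀ p : ℕ, p.Prime → p ∉ S → ∀ A : ValuationSubring Qb, A.LiesOverPrime p →
      ∀ τ ∈ A.inertiaSubgroupIn ℚ, rhoW D k τ = 1 ∧ detChar M ℓ θ τ = 1 := by
    intro p hp hpS A hA τ hτ
    obtain ⟨hpM, hpℓ⟩ := hS p hp hpS
    refine ⟨?_, detChar_inertia M ℓ θ hp hpM hpℓ A hA hτ⟩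
    rw [rhoW_apply, D.unramified p hp hpM hpℓ A hA τ hτ, LinearMap.baseChange_one]
  obtain ⟨r, hr⟩ := Fermat.Agent.DS.Geo.ResidualOfEigen.exists_residualRep h2 (rhoW D k)
    (thetaW D k) (commute_rhoW_thetaW D k) χ heig (rhoW_finiteLevel D k) (detChar M ℓ θ)
    (detChar_finiteLevel M ℓ θ) (detChar_complexConjugation M ℓ θ) S tp dp hES hunr
  refine ⟨r, fun p hp hpM hpℓ => ?_⟩
  obtain ⟨h1, h2'⟩ := hr p hp (hS' p hp hpM hpℓ)
  refine ⟨h1, fun A hA σ hσ => ?_⟩
  rw [h2' A hA σ hσ, hχtp hp hpM, hχdp hp hpM]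

end Final

/-- **GEO-MAIN from the geometric inputs in eigenvector form.** -/
theorem heckeModLReps_of_geoInputs2 (c' : ℕ)
    (h : ∀ (M : ℕ) [NeZero M], c' ∣ M → ∀ (ℓ : ℕ) [Fact ℓ.Prime], ℓ ≠ 2 →
      Nonempty (GeoInputs2 M ℓ)) :
    Fermat.Agent.DS.G.Top.Contract.HeckeModLReps c' := by
  intro M _ hcM ℓ hℓ hℓ2 k _ _ θ
  have : Fact ℓ.Prime := ⟨hℓ⟩
  obtain ⟨D⟩ := h M hcM ℓ hℓ2
  let _ : Algebra ℤ_[ℓ] k :=
    ((ZMod.castHom (dvd_refl ℓ) k : ZMod ℓ →+* k).comp (PadicInt.toZMod (p := ℓ))).toAlgebra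
  exact exists_rep D k hℓ2 θ

end Fermat.Agent.DS.G.Top.Assemble2
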