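/-
DS programme (S48), GEO half: the CONTRACT between the geometry chapters and the mod-`ℓ` back end,
version 2 (helper71): GENERATOR + EIGENVECTOR form.

Version 1 (`Inputs.GeoInputs`) asked for a COMMUTATIVE ring `R` acting faithfully on the lattice
`Hom_par(Γ₁(M), ℤ)` together with a homomorphism to the Hecke algebra `T2 M` of cusp forms.
Commutativity of the double coset operators on the lattice is not available without the full
Eichler--Shimura isomorphism (helper78, helper91), and is not needed: the only use of the lattice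
side is the EXISTENCE of a nonzero eigenvector in `k ⊗ Lam` with the eigenvalues prescribed by a
character `θ` of `T2 M`, which helper91 proves directly
(`Per1/EigenTensor1.exists_eigen_tensor_Gamma1`).

Fields: `Lam` finite `ℤ`-module with operators `aT p` (`p ∤ M` prime), `aD d` (`d ∈ (ℤ/M)ˣ`) and the
eigenvector property `eig`; `TJ` a `ℤ_[ℓ]`-module with `ι₀ : Lam → TJ` a base change `ℤ → ℤ_[ℓ]`
intertwining `aT, aD` with `bT, bD`; the Galois action `ρ` on `TJ` commuting with `bT, bD`, of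
finite level mod `ℓ`, unramified outside `M ℓ`, with the Eichler--Shimura relation
`ρ(σ)² - bT p ρ(σ) + p bD ⟨p⟩ = 0` at Frobenius lifts.
`AssembleGen.lean` turns `GeoInputsGen` into `Contract.HeckeModLReps`.
-/
import Mathlib
import Fermat.Prelude.Def_GaloisRep_Residual
import Fermat.Agent.DS.Hecke1.Algebra

set_option autoImplicit false

open TensorProduct

namespace Fermat.Agent.DS.G.Top.InputsGen

open Fermat.Agent.DS.Hecke1.Algebra Fermat.Agent.DS.Hecke1.HeckeT1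

local notation "Qb" => AlgebraicClosure ℚ
local notation "GQ" => (AlgebraicClosure ℚ ≃ₐ[ℚ] AlgebraicClosure ℚ)

/-- **The geometric inputs** at level `Γ₁(M)` and prime `ℓ`, generator + eigenvector form. -/
structure GeoInputsGen (M : ℕ) [NeZero M] (ℓ : ℕ) [Fact ℓ.Prime] : Type 1 where
  /-- the lattice `Hom_par(Γ₁(M), ℤ)` -/
  Lam : Type
  [instLamGroup : AddCommGroup Lam]
  [instLamFinite : Module.Finite ℤ Lam]
  /-- `T_p` on the lattice -/
  aT : ∀ {p : ℕ}, p.Prime → ¬ p ∣ M → Module.End ℤ Lam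
  /-- `⟨d⟩` on the lattice -/
  aD : (ZMod M)ˣ → Module.End ℤ Lam
  /-- every character of the Hecke algebra of cusp forms occurs in `k ⊗ Lam` -/
  eig : ∀ (k : Type) [Field k] [CharP k ℓ] (θ : T2 M →+* k),
    ∃ w : k ⊗[ℤ] Lam, w ≠ 0 ∧
      (∀ {p : ℕ} (hp : p.Prime) (hpM : ¬ p ∣ M),
        (aT hp hpM).baseChange k w = θ (heckeAlgebra1.T hp hpM) • w) ∧
      ∀ d : (ZMod M)ˣ, (aD d).baseChange k w = θ (heckeAlgebra1.dia d) • w
  /-- the Tate module -/
  TJ : Type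
  [instTJGroup : AddCommGroup TJ]
  [instTJModule : Module ℤ_[ℓ] TJ]
  /-- the comparison map -/
  ι₀ : Lam →ₗ[ℤ] TJ
  isBaseChange : IsBaseChange ℤ_[ℓ] ι₀
  /-- `T_p` on the Tate module -/
  bT : ∀ {p : ℕ}, p.Prime → ¬ p ∣ M → Module.End ℤ_[ℓ] TJ
  /-- `⟨d⟩` on the Tate module -/
  bD : (ZMod M)ˣ → Module.End ℤ_[ℓ] TJ
  bT_ι₀ : ∀ {p : ℕ} (hp : p.Prime) (hpM : ¬ p ∣ M) (x : Lam),
    bT hp hpM (ι₀ x) = ι₀ (aT hp hpM x)
  bD_ι₀ : ∀ (d : (ZMod M)ˣ) (x : Lam), bD d (ι₀ x) = ι₀ (aD d x)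
  /-- the Galois action -/
  ρ : GQ →* Module.End ℤ_[ℓ] TJ
  commute_T : ∀ (g : GQ) {p : ℕ} (hp : p.Prime) (hpM : ¬ p ∣ M), Commute (ρ g) (bT hp hpM)
  commute_D : ∀ (g : GQ) (d : (ZMod M)ˣ), Commute (ρ g) (bD d)
  finiteLevel : ∃ L : IntermediateField ℚ Qb, FiniteDimensional ℚ L ∧
    ∀ σ : GQ, (∀ a ∈ L, σ a = a) → ∀ x : TJ, ∃ y : TJ, ρ σ x - x = (ℓ : ℤ_[ℓ]) • y
  unramified : ∀ q : ℕ, q.Prime → ¬ q ∣ M → q ≠ ℓ →
    ∀ A : ValuationSubring Qb, A.LiesOverPrime q → ∀ τ ∈ A.inertiaSubgroupIn ℚ, ρ τ = 1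
  frobenius : ∀ {p : ℕ} (hp : p.Prime) (hpM : ¬ p ∣ M), p ≠ ℓ →
    ∀ A : ValuationSubring Qb, A.LiesOverPrime p → ∀ σ : GQ, A.IsFrobeniusAt σ p →
      ρ σ * ρ σ - bT hp hpM * ρ σ + (p : ℤ_[ℓ]) • bD (unitP hp hpM) = 0

attribute [instance] GeoInputsGen.instLamGroup GeoInputsGen.instLamFinite
  GeoInputsGen.instTJGroup GeoInputsGen.instTJModule

end Fermat.Agent.DS.G.Top.InputsGen
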