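/-
DS programme (S48), GEO half (helper71): **the mod-`ℓ` assembly, version 2**
`GeoInputsGen M ℓ` (for all `M` divisible by `c'`, all odd `ℓ`) `⟹ Contract.HeckeModLReps c'`.

Same proof as `Assemble.lean`, with the commutative ring `R` replaced by the free `ℤ`-algebra `H` on
the generators (`T_p`, `p ∤ M` prime; `⟨d⟩`): `H` acts on the lattice through `aT`, `aD`, the
character `χ : H → k` sends the generators to `θ(T_p)`, `θ(⟨d⟩)`, and the eigenvector of the
contract is an eigenvector for all of `H`.  No commutativity of the operators is used.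
-/
import Mathlib
import Fermat.Agent.DS.G.Top.InputsGen
import Fermat.Agent.DS.G.Top.Assemble

set_option autoImplicit false
set_option linter.unusedSectionVars false

open Polynomial TensorProduct

noncomputable section

namespace Fermat.Agent.DS.G.Top.AssembleGen

open Fermat.Agent.DS.Hecke1.Algebra Fermat.Agent.DS.Hecke1.HeckeT1 Fermat.Agent.DS.Hecke1.Diamond
open Fermat.Agent.DS.G.Top.InputsGen Fermat.Agent.DS.Geo.CycloModM
open Fermat.Agent.DS.G.Top.Assemble (detChar detChar_complexConjugation detChar_finiteLevel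
  detChar_inertia detChar_frobenius algebraMap_ell)

local notation "Qb" => AlgebraicClosure ℚ
local notation "GQ" => (AlgebraicClosure ℚ ≃ₐ[ℚ] AlgebraicClosure ℚ)

/-! ### The free algebra on the generators -/

section Free

variable (M : ℕ) [NeZero M]

/-- the generators: `T_p` for primes `p ∤ M`, and `⟨d⟩` -/
abbrev Gen : Type := {p : ℕ // p.Prime ∧ ¬ p ∣ M} ⊕ (ZMod M)ˣ

/-- the free `ℤ`-algebra on the generators -/
abbrev HFree : Type := FreeAlgebra ℤ (Gen M)

variable {M}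

/-- the generator `T_p` -/
def gT {p : ℕ} (hp : p.Prime) (hpM : ¬ p ∣ M) : HFree M :=
  FreeAlgebra.ι ℤ (Sum.inl ⟨p, hp, hpM⟩)

/-- the generator `⟨d⟩` -/
def gD (d : (ZMod M)ˣ) : HFree M := FreeAlgebra.ι ℤ (Sum.inr d)

/-- the character of `H` attached to a character of `T2 M` -/
def chiH {k : Type*} [Field k] (θ : T2 M →+* k) : HFree M →ₐ[ℤ] k :=
  FreeAlgebra.lift ℤ (Sum.elim (fun p : {p : ℕ // p.Prime ∧ ¬ p ∣ M} =>
    θ (heckeAlgebra1.T p.2.1 p.2.2)) (fun d => θ (heckeAlgebra1.dia d)))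

theorem chiH_gT {k : Type*} [Field k] (θ : T2 M →+* k) {p : ℕ} (hp : p.Prime) (hpM : ¬ p ∣ M) :
    chiH θ (gT hp hpM) = θ (heckeAlgebra1.T hp hpM) := by
  rw [chiH, gT, FreeAlgebra.lift_ι_apply]
  rfl

theorem chiH_gD {k : Type*} [Field k] (θ : T2 M →+* k) (d : (ZMod M)ˣ) :
    chiH θ (gD d) = θ (heckeAlgebra1.dia d) := by
  rw [chiH, gD, FreeAlgebra.lift_ι_apply]
  rfl

end Free

/-! ### The base change to `k` -/

section Main

variable {M : ℕ} [NeZero M] {ℓ : ℕ} [Fact ℓ.Prime] (D : GeoInputsGen M ℓ)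
  (k : Type) [Field k] [CharP k ℓ] [Algebra ℤ_[ℓ] k]

/-- the action of the free algebra on the lattice -/
def actH : HFree M →ₐ[ℤ] Module.End ℤ D.Lam :=
  FreeAlgebra.lift ℤ (Sum.elim (fun p : {p : ℕ // p.Prime ∧ ¬ p ∣ M} => D.aT p.2.1 p.2.2) D.aD)

theorem actH_gT {p : ℕ} (hp : p.Prime) (hpM : ¬ p ∣ M) : actH D (gT hp hpM) = D.aT hp hpM := by
  rw [actH, gT, FreeAlgebra.lift_ι_apply]
  rfl

theorem actH_gD (d : (ZMod M)ˣ) : actH D (gD d) = D.aD d := by
  rw [actH, gD, FreeAlgebra.lift_ι_apply]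
  rfl

/-- `W = k ⊗ TJ` -/
abbrev W : Type := k ⊗[ℤ_[ℓ]] D.TJ

/-- the lattice inside `W` -/
def jMap : D.Lam →ₗ[ℤ] W D k :=
  ((TensorProduct.mk ℤ_[ℓ] k D.TJ 1).restrictScalars ℤ).comp D.ι₀

theorem jMap_isBaseChange : IsBaseChange k (jMap D k) :=
  D.isBaseChange.comp (TensorProduct.isBaseChange ℤ_[ℓ] D.TJ k)

/-- `k ⊗[ℤ] Lam ≃ W` -/
def eqv : k ⊗[ℤ] D.Lam ≃ₗ[k] W D k := (jMap_isBaseChange D k).equiv

theorem eqv_tmul (c : k) (x : D.Lam) : eqv D k (c ⊗ₜ[ℤ] x) = c ⊗ₜ[ℤ_[ℓ]] D.ι₀ x := by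
  change (jMap_isBaseChange D k).equiv (c ⊗ₜ[ℤ] x) = _
  rw [IsBaseChange.equiv_tmul]
  change c • ((1 : k) ⊗ₜ[ℤ_[ℓ]] D.ι₀ x) = _
  rw [TensorProduct.smul_tmul', smul_eq_mul, mul_one]

instance : Module.Finite k (W D k) := Module.Finite.equiv (eqv D k)

/-- the action of the free algebra on `W` -/
def thetaW : HFree M →+* Module.End k (W D k) where
  toFun r := (eqv D k).toLinearMap ∘ₗ (actH D r).baseChange k ∘ₗ (eqv D k).symm.toLinearMap
  map_one' := by
    rw [map_one, LinearMap.baseChange_one]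
    ext w
    simp
  map_mul' r s := by
    rw [map_mul, LinearMap.baseChange_mul]
    ext w
    simp
  map_zero' := by
    rw [map_zero, LinearMap.baseChange_zero]
    ext w
    simp
  map_add' r s := by
    rw [map_add, LinearMap.baseChange_add]
    ext w
    simp

theorem thetaW_eqv (r : HFree M) (v : k ⊗[ℤ] D.Lam) :
    thetaW D k r (eqv D k v) = eqv D k ((actH D r).baseChange k v) := by
  show (eqv D k) ((actH D r).baseChange k ((eqv D k).symm (eqv D k v))) = _
  rw [LinearEquiv.symm_apply_apply]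

/-- an operator on `TJ` which extends the action of `r` on the lattice base-changes to
`thetaW r`. -/
theorem baseChange_eq_thetaW (b : Module.End ℤ_[ℓ] D.TJ) (r : HFree M)
    (h : ∀ x : D.Lam, b (D.ι₀ x) = D.ι₀ (actH D r x)) :
    b.baseChange k = thetaW D k r := by
  refine LinearMap.ext fun w => ?_
  obtain ⟨v, rfl⟩ := (eqv D k).surjective w
  rw [thetaW_eqv]
  induction v with
  | zero => simp
  | add x y hx hy => rw [map_add, map_add, hx, hy, map_add, map_add]
  | tmul c x =>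
    rw [eqv_tmul, LinearMap.baseChange_tmul, LinearMap.baseChange_tmul, eqv_tmul, h]

theorem baseChange_bT {p : ℕ} (hp : p.Prime) (hpM : ¬ p ∣ M) :
    (D.bT hp hpM).baseChange k = thetaW D k (gT hp hpM) :=
  baseChange_eq_thetaW D k _ _ fun x => by rw [actH_gT, D.bT_ι₀]

theorem baseChange_bD (d : (ZMod M)ˣ) : (D.bD d).baseChange k = thetaW D k (gD d) :=
  baseChange_eq_thetaW D k _ _ fun x => by rw [actH_gD, D.bD_ι₀]

/-- the Galois action on `W` -/
def rhoW : GQ →* Module.End k (W D k) where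
  toFun σ := (D.ρ σ).baseChange k
  map_one' := by rw [map_one, LinearMap.baseChange_one]
  map_mul' σ τ := by rw [map_mul, LinearMap.baseChange_mul]

theorem rhoW_apply (σ : GQ) : rhoW D k σ = (D.ρ σ).baseChange k := rfl

theorem commute_rhoW_thetaW (g : GQ) (r : HFree M) : Commute (rhoW D k g) (thetaW D k r) := by
  induction r using FreeAlgebra.induction with
  | grade0 n =>
    rw [eq_intCast, map_intCast]
    exact Int.commute_cast _ _
  | grade1 x =>
    rcases x with ⟨p, hp, hpM⟩ | d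
    · have h1 : thetaW D k (FreeAlgebra.ι ℤ (Sum.inl ⟨p, hp, hpM⟩)) =
          (D.bT hp hpM).baseChange k := (baseChange_bT D k hp hpM).symm
      rw [h1, rhoW_apply]
      have := D.commute_T g hp hpM
      unfold Commute SemiconjBy at this ⊢
      rw [← LinearMap.baseChange_mul, this, LinearMap.baseChange_mul]
    · have h1 : thetaW D k (FreeAlgebra.ι ℤ (Sum.inr d)) = (D.bD d).baseChange k :=
        (baseChange_bD D k d).symm
      rw [h1, rhoW_apply]
      have := D.commute_D g d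
      unfold Commute SemiconjBy at this ⊢
      rw [← LinearMap.baseChange_mul, this, LinearMap.baseChange_mul]
  | mul x y hx hy => rw [map_mul]; exact hx.mul_right hy
  | add x y hx hy => rw [map_add]; exact hx.add_right hy

theorem rhoW_finiteLevel : GaloisFactorsThroughFiniteLevel (rhoW D k) := by
  obtain ⟨L, hL, H⟩ := D.finiteLevel
  refine ⟨L, hL, fun σ hσ => ?_⟩
  rw [rhoW_apply]
  refine LinearMap.ext fun w => ?_
  induction w with
  | zero => simp
  | add x y hx hy => rw [map_add, hx, hy, map_add]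
  | tmul c x =>
    obtain ⟨y, hy⟩ := H σ hσ x
    have hx : D.ρ σ x = x + (ℓ : ℤ_[ℓ]) • y := by rw [← hy]; abel
    rw [LinearMap.baseChange_tmul, Module.End.one_apply, hx, TensorProduct.tmul_add,
      TensorProduct.tmul_smul, TensorProduct.smul_tmul', Algebra.smul_def,
      algebraMap_ell (ℓ := ℓ) k, zero_mul, TensorProduct.zero_tmul, add_zero]

/-- the eigenvector of the contract is an eigenvector for the whole free algebra. -/
theorem exists_eigenvector (θ : T2 M →+* k) :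
    ∃ v : W D k, v ≠ 0 ∧ ∀ t, thetaW D k t v = chiH θ t • v := by
  obtain ⟨w₀, hw₀, hwT, hwD⟩ := D.eig k θ
  have hall : ∀ t : HFree M, (actH D t).baseChange k w₀ = chiH θ t • w₀ := by
    intro t
    induction t using FreeAlgebra.induction with
    | grade0 n =>
      rw [eq_intCast, map_intCast, map_intCast]
      have : ((n : Module.End ℤ D.Lam)).baseChange k = ((n : k) • (1 : Module.End k _)) := by
        ext x
        simp [Int.cast_smul_eq_zsmul]
      rw [this, LinearMap.smul_apply, Module.End.one_apply]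
    | grade1 x =>
      rcases x with ⟨p, hp, hpM⟩ | d
      · have h1 := actH_gT D hp hpM
        have h2 := chiH_gT θ hp hpM
        unfold gT at h1 h2
        rw [h1, h2]
        exact hwT hp hpM
      · have h1 := actH_gD D d
        have h2 := chiH_gD θ d
        unfold gD at h1 h2
        rw [h1, h2]
        exact hwD d
    | mul x y hx hy =>
      rw [map_mul, map_mul, LinearMap.baseChange_mul, Module.End.mul_apply, hy, map_smul, hx,
        smul_smul, mul_comm]
    | add x y hx hy =>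
      rw [map_add, map_add, LinearMap.baseChange_add, LinearMap.add_apply, hx, hy, add_smul]
  refine ⟨eqv D k w₀, fun h => hw₀ ((eqv D k).map_eq_zero_iff.mp h), fun t => ?_⟩
  rw [thetaW_eqv, hall, map_smul]

include D in
/-- **The mod-`ℓ` representation attached to a character of `T2 M`**, from the geometric
inputs (generator + eigenvector form). -/
theorem exists_rep (hℓ2 : ℓ ≠ 2) (θ : T2 M →+* k) :
    ∃ r : ResidualGaloisRep k, ∀ (p : ℕ) (hp : p.Prime) (hpM : ¬ p ∣ M), p ≠ ℓ →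
      r.IsUnramifiedAt p ∧
      ∀ A : ValuationSubring Qb, A.LiesOverPrime p → ∀ σ : GQ, A.IsFrobeniusAt σ p →
        LinearMap.charpoly (r.ρ σ) =
          X ^ 2 - C (θ (heckeAlgebra1.T hp hpM)) * X +
            C ((p : k) * θ (heckeAlgebra1.dia (unitP hp hpM))) := by
  classical
  have hℓ : ℓ.Prime := Fact.out
  have h2 : (2 : k) ≠ 0 := by
    intro h
    have h' : ((2 : ℕ) : k) = 0 := by exact_mod_cast h
    rw [CharP.cast_eq_zero_iff k ℓ] at h'
    exact hℓ2 ((Nat.prime_dvd_prime_iff_eq hℓ Nat.prime_two).mp h')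
  set χ : HFree M →+* k := (chiH θ : HFree M →+* k) with hχ
  have heig : ∃ v : W D k, v ≠ 0 ∧ ∀ t, thetaW D k t v = χ t • v := exists_eigenvector D k θ
  -- the Hecke elements
  let tp : ℕ → HFree M := fun p => if h : p.Prime ∧ ¬ p ∣ M then gT h.1 h.2 else 0
  let dp : ℕ → HFree M := fun p =>
    if h : p.Prime ∧ ¬ p ∣ M then (p : HFree M) * gD (unitP h.1 h.2) else 0
  have htp : ∀ {p : ℕ} (hp : p.Prime) (hpM : ¬ p ∣ M), tp p = gT hp hpM :=
    fun hp hpM => dif_pos ⟨hp, hpM⟩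
  have hdp : ∀ {p : ℕ} (hp : p.Prime) (hpM : ¬ p ∣ M),
      dp p = (p : HFree M) * gD (unitP hp hpM) := fun hp hpM => dif_pos ⟨hp, hpM⟩
  have hχtp : ∀ {p : ℕ} (hp : p.Prime) (hpM : ¬ p ∣ M),
      χ (tp p) = θ (heckeAlgebra1.T hp hpM) := by
    intro p hp hpM
    rw [htp hp hpM]
    exact chiH_gT θ hp hpM
  have hχdp : ∀ {p : ℕ} (hp : p.Prime) (hpM : ¬ p ∣ M),
      χ (dp p) = (p : k) * θ (heckeAlgebra1.dia (unitP hp hpM)) := by
    intro p hp hpM
    rw [hdp hp hpM, map_mul, map_natCast]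
    congr 1
    exact chiH_gD θ _
  -- the bad primes
  set S : Finset ℕ := (M * ℓ).primeFactors with hSdef
  have hne : M * ℓ ≠ 0 := mul_ne_zero (NeZero.ne M) hℓ.ne_zero
  have hS : ∀ p : ℕ, p.Prime → p ∉ S → ¬ p ∣ M ∧ p ≠ ℓ := by
    intro p hp hpS
    have hnd : ¬ p ∣ M * ℓ := fun h => hpS (Nat.mem_primeFactors.mpr ⟨hp, h, hne⟩)
    exact ⟨fun h => hnd (Dvd.dvd.mul_right h ℓ), fun h => hnd (h ▸ Dvd.intro_left M rfl)⟩
  have hS' : ∀ p : ℕ, p.Prime → ¬ p ∣ M → p ≠ ℓ → p ∉ S := by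
    intro p hp hpM hpℓ h
    obtain ⟨-, hd, -⟩ := Nat.mem_primeFactors.mp h
    rcases (Nat.Prime.dvd_mul hp).mp hd with h | h
    · exact hpM h
    · exact hpℓ ((Nat.prime_dvd_prime_iff_eq hp hℓ).mp h)
  have hES : ∀ p : ℕ, p.Prime → p ∉ S → ∀ A : ValuationSubring Qb, A.LiesOverPrime p →
      ∀ σ : GQ, A.IsFrobeniusAt σ p →
        rhoW D k σ * rhoW D k σ - thetaW D k (tp p) * rhoW D k σ + thetaW D k (dp p) = 0 ∧
          ((detChar M ℓ θ σ : kˣ) : k) = χ (dp p) := by
    intro p hp hpS A hA σ hσ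
    obtain ⟨hpM, hpℓ⟩ := hS p hp hpS
    refine ⟨?_, ?_⟩
    · have h := congrArg (LinearMap.baseChange k) (D.frobenius hp hpM hpℓ A hA σ hσ)
      rw [LinearMap.baseChange_add, LinearMap.baseChange_sub, LinearMap.baseChange_mul,
        LinearMap.baseChange_mul, LinearMap.baseChange_smul, LinearMap.baseChange_zero,
        baseChange_bT D k hp hpM, baseChange_bD D k (unitP hp hpM),
        Nat.cast_smul_eq_nsmul, nsmul_eq_mul] at h
      rw [htp hp hpM, hdp hp hpM, map_mul, map_natCast]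
      exact h
    · rw [hχdp hp hpM]
      exact detChar_frobenius M ℓ θ hp hpM hpℓ A hA hσ
  have hunr : ∀ p : ℕ, p.Prime → p ∉ S → ∀ A : ValuationSubring Qb, A.LiesOverPrime p →
      ∀ τ ∈ A.inertiaSubgroupIn ℚ, rhoW D k τ = 1 ∧ detChar M ℓ θ τ = 1 := by
    intro p hp hpS A hA τ hτ
    obtain ⟨hpM, hpℓ⟩ := hS p hp hpS
    refine ⟨?_, detChar_inertia M ℓ θ hp hpM hpℓ A hA hτ⟩
    rw [rhoW_apply, D.unramified p hp hpM hpℓ A hA τ hτ, LinearMap.baseChange_one]
  obtain ⟨r, hr⟩ := Fermat.Agent.DS.Geo.ResidualOfEigen.exists_residualRep h2 (rhoW D k)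
    (thetaW D k) (commute_rhoW_thetaW D k) χ heig (rhoW_finiteLevel D k) (detChar M ℓ θ)
    (detChar_finiteLevel M ℓ θ) (detChar_complexConjugation M ℓ θ) S tp dp hES hunr
  refine ⟨r, fun p hp hpM hpℓ => ?_⟩
  obtain ⟨h1, h2'⟩ := hr p hp (hS' p hp hpM hpℓ)
  refine ⟨h1, fun A hA σ hσ => ?_⟩
  rw [h2' A hA σ hσ, hχtp hp hpM, hχdp hp hpM]

end Main

/-- **GEO-MAIN from the geometric inputs (generator + eigenvector form).** -/
theorem heckeModLReps_of_geoInputsGen (c' : ℕ)
    (h : ∀ (M : ℕ) [NeZero M], c' ∣ M → ∀ (ℓ : ℕ) [Fact ℓ.Prime], ℓ ≠ 2 →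
      Nonempty (GeoInputsGen M ℓ)) :
    Fermat.Agent.DS.G.Top.Contract.HeckeModLReps c' := by
  intro M _ hcM ℓ hℓ hℓ2 k _ _ θ
  have : Fact ℓ.Prime := ⟨hℓ⟩
  obtain ⟨D⟩ := h M hcM ℓ hℓ2
  let _ : Algebra ℤ_[ℓ] k :=
    ((ZMod.castHom (dvd_refl ℓ) k : ZMod ℓ →+* k).comp (PadicInt.toZMod (p := ℓ))).toAlgebra
  exact exists_rep D k hℓ2 θ

end Fermat.Agent.DS.G.Top.AssembleGen
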