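/-
DS programme (S48), GEO half (helper71): monotonicity of the W1-LIFT contract in the auxiliary
number `c` (only the set of prime divisors of `c` matters), so that the depletion route, which
produces `EigenCharModL c c` at level `M = c N ℓ²`, feeds `Asm/GeoGlue` (`EigenCharAll 4 2`,
`EigenCharAll 9 3`).
-/
import Mathlib
import Fermat.Agent.DS.G.Top.Contract

set_option autoImplicit false

open CongruenceSubgroup

namespace Fermat.Agent.DS.G.Top.ContractMono

open Fermat.Agent.DS.G.Top.Contract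

/-- Only the prime divisors of `c` matter in `EigenCharModL c' c`. -/
theorem eigenCharModL_mono {c' c₁ c₂ : ℕ} (h : ∀ p : ℕ, p.Prime → p ∣ c₁ → p ∣ c₂)
    {N : ℕ} [NeZero N] {ε : DirichletCharacter ℂ N} {f : CuspForm (Gamma1 N) 1}
    (hE : EigenCharModL c' c₁ N ε f) : EigenCharModL c' c₂ N ε f := by
  obtain ⟨B, hB⟩ := hE
  refine ⟨B, fun ℓ hℓ hℓB k _ _ φ => ?_⟩
  obtain ⟨M, hM, θ, hcM, hprimes, hθ⟩ := hB ℓ hℓ hℓB k φ
  refine ⟨M, hM, θ, hcM, fun p hp hpM => ?_, hθ⟩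
  have h1 := hprimes p hp hpM
  rcases (Nat.Prime.dvd_mul hp).mp h1 with h2 | h2
  · rcases (Nat.Prime.dvd_mul hp).mp h2 with h3 | h3
    · exact Dvd.dvd.mul_right (Dvd.dvd.mul_right (h p hp h3) N) ℓ
    · exact Dvd.dvd.mul_right (Dvd.dvd.mul_left h3 c₂) ℓ
  · exact Dvd.dvd.mul_left h2 (c₂ * N)

/-- `EigenCharModL 4 4 ⟹ EigenCharModL 4 2`. -/
theorem eigenCharModL_four {N : ℕ} [NeZero N] {ε : DirichletCharacter ℂ N}
    {f : CuspForm (Gamma1 N) 1} (hE : EigenCharModL 4 4 N ε f) : EigenCharModL 4 2 N ε f :=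
  eigenCharModL_mono (fun p hp h => by
    have : p ∣ 2 ^ 2 := by norm_num; exact h
    exact hp.dvd_of_dvd_pow this) hE

/-- `EigenCharModL 9 9 ⟹ EigenCharModL 9 3`. -/
theorem eigenCharModL_nine {N : ℕ} [NeZero N] {ε : DirichletCharacter ℂ N}
    {f : CuspForm (Gamma1 N) 1} (hE : EigenCharModL 9 9 N ε f) : EigenCharModL 9 3 N ε f :=
  eigenCharModL_mono (fun p hp h => by
    have : p ∣ 3 ^ 2 := by norm_num; exact h
    exact hp.dvd_of_dvd_pow this) hE

end Fermat.Agent.DS.G.Top.ContractMono
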