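/-
DS programme (S48), GEO half, brick GEO-FIN-TG (helper54), ABSTRACT CORE.

Generic twin of `ES/TOP/PhiOneTwo21` + `ES/TOP/TorsionGalois12`, WITHOUT level pullback and WITH
the diamond operator, over the Prelude's generic `Place / Divisor / Pic0 / SemilinearAut` API for
two function fields `(K, F)` (characteristic zero side) and `(k, Ft)` (special fibre).

Data: a reduction of places `r : Place K F → Place k Ft` inducing `red : Pic0 K F →+ Pic0 k Ft`
(`RedHom r red`), a group `Γ` acting through `gal : Γ →* SemilinearAut K F`, semilinear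
automorphisms `Fr` (Frobenius), `W` (twisted Verschiebung) and `d'` (diamond) downstairs with
`W * Fr = d'`, the diamond `d` upstairs, and a Hecke operator `T` on `Pic0 K F` with a divisor
level model `TD` (`DivModel T TD`).

* `red_smul`, `red_smul_of_fixed` : equivariance of `red` from the place level (twin of
  `ES/RED/GaloisRed21.reductionPic0Along_smul`).
* `red_T` : the `Pic⁰` passage of (ES-div) with the pair `(Fr, W)`.
* `red_relation` : `red (σ σ x - T (σ x) + p • d x) = 0` for Frobenius lifts `σ`.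
* `inertia_smul_eq`, `frobenius_relation` : the two torsion-level statements consumed by
  `Geo/TateOfTorsion.tateDataOfTorsion` (`hinertia`, `hfrob`).
-/
import Mathlib
import Fermat.Prelude.Def_AlgebraicCurve_BaseChangeGalois

set_option autoImplicit false

noncomputable section

open AlgebraicCurve

namespace Fermat.Agent.DS.G.Top.TorsionGalois

variable {K F k Ft : Type*} [Field K] [Field F] [Algebra K F] [Field k] [Field Ft] [Algebra k Ft]

/-- `red` is the map induced on `Pic⁰` by the reduction of places `r`. -/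
def RedHom (r : Place K F → Place k Ft) (red : Pic0 K F →+ Pic0 k Ft) : Prop :=
  ∀ D : Divisor.degZero (K := K) (F := F),
    ∃ h : Finsupp.mapDomain r (D : Divisor K F) ∈ Divisor.degZero (K := k) (F := Ft),
      red (Pic0.mk D) = Pic0.mk ⟨Finsupp.mapDomain r (D : Divisor K F), h⟩

/-- `T` is induced on `Pic⁰` by the additive map `TD` on divisors. -/
def DivModel (T : Pic0 K F →+ Pic0 K F) (TD : Divisor K F →+ Divisor K F) : Prop :=
  ∀ D : Divisor.degZero (K := K) (F := F),
    ∃ h : TD (D : Divisor K F) ∈ Divisor.degZero (K := K) (F := F),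
      T (Pic0.mk D) = Pic0.mk ⟨TD (D : Divisor K F), h⟩

/-- `Pic0.mk` only depends on the underlying divisor. -/
theorem mk_congr {K F : Type*} [Field K] [Field F] [Algebra K F]
    {D E : Divisor.degZero (K := K) (F := F)} (h : (D : Divisor K F) = (E : Divisor K F)) :
    Pic0.mk D = Pic0.mk E := congrArg Pic0.mk (Subtype.ext h)

/-! ### Equivariance of the reduction -/

section Equivariance

variable (r : Place K F → Place k Ft)

/-- if `r (g • P) = h • r P` for all places `P`, then `r_* (g • D) = h • r_* D` on divisors. -/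
theorem mapDomain_smul (g : SemilinearAut K F) (h : SemilinearAut k Ft)
    (hgh : ∀ P, r (g • P) = h • r P) (D : Divisor K F) :
    Finsupp.mapDomain r (g • D) = h • Finsupp.mapDomain r D := by
  rw [SemilinearAut.divisor_smul_def, SemilinearAut.divisor_smul_def, ← Finsupp.mapDomain_comp,
    ← Finsupp.mapDomain_comp]
  congr 1
  funext P
  exact hgh P

variable {r} {red : Pic0 K F →+ Pic0 k Ft}

/-- if `r (g • P) = h • r P` for all places `P`, then `red` intertwines `g` and `h`. -/
theorem red_smul (hred : RedHom r red) (g : SemilinearAut K F) (h : SemilinearAut k Ft)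
    (hgh : ∀ P, r (g • P) = h • r P) (x : Pic0 K F) : red (g • x) = h • red x := by
  obtain ⟨D, rfl⟩ := Pic0.mk_surjective x
  obtain ⟨h1, e1⟩ := hred D
  obtain ⟨h2, e2⟩ := hred (SemilinearAut.degZeroSMulHom g D)
  rw [SemilinearAut.pic0_smul_mk, e2, e1, SemilinearAut.pic0_smul_mk]
  apply mk_congr
  show Finsupp.mapDomain r (g • (D : Divisor K F)) = h • Finsupp.mapDomain r (D : Divisor K F)
  exact mapDomain_smul r g h hgh _

/-- the case `h = 1`. -/
theorem red_smul_of_fixed (hred : RedHom r red) (g : SemilinearAut K F)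
    (hg : ∀ P, r (g • P) = r P) (x : Pic0 K F) : red (g • x) = red x := by
  have := red_smul hred g 1 (fun P => by rw [hg P, one_smul]) x
  rwa [one_smul] at this

end Equivariance

/-! ### The `Pic⁰` passage of (ES-div) -/

section EsPic

variable {r : Place K F → Place k Ft} {red : Pic0 K F →+ Pic0 k Ft}
  {T : Pic0 K F →+ Pic0 K F} {TD : Divisor K F →+ Divisor K F}

/-- **(ES) on `Pic⁰`** with the pair `(Fr, W)`: `red (T z) = Fr • red z + p • (W • red z)` from the
divisor identity `r_* (TD D) = Fr • r_* D + p • (W • r_* D)`. -/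
theorem red_T (hred : RedHom r red) (hT : DivModel T TD) (Fr W : SemilinearAut k Ft) (p : ℕ)
    (hES : ∀ D : Divisor K F, Finsupp.mapDomain r (TD D) =
      Fr • Finsupp.mapDomain r D + (p : ℤ) • (W • Finsupp.mapDomain r D))
    (z : Pic0 K F) : red (T z) = Fr • red z + p • (W • red z) := by
  obtain ⟨D, rfl⟩ := Pic0.mk_surjective z
  obtain ⟨h1, e1⟩ := hT D
  obtain ⟨h2, e2⟩ := hred D
  obtain ⟨h3, e3⟩ := hred ⟨TD (D : Divisor K F), h1⟩
  rw [e1, e3, e2, SemilinearAut.pic0_smul_mk, SemilinearAut.pic0_smul_mk]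
  have key : (⟨Finsupp.mapDomain r (TD (D : Divisor K F)), h3⟩ :
      Divisor.degZero (K := k) (F := Ft)) =
      SemilinearAut.degZeroSMulHom Fr ⟨Finsupp.mapDomain r (D : Divisor K F), h2⟩ +
        p • SemilinearAut.degZeroSMulHom W ⟨Finsupp.mapDomain r (D : Divisor K F), h2⟩ := by
    apply Subtype.ext
    rw [AddSubgroup.coe_add, AddSubgroup.coe_nsmul, SemilinearAut.coe_degZeroSMulHom,
      SemilinearAut.coe_degZeroSMulHom, ← Nat.cast_smul_eq_nsmul ℤ]
    exact hES _
  rw [key]
  show QuotientAddGroup.mk' _ _ = QuotientAddGroup.mk' _ _ + p • QuotientAddGroup.mk' _ _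
  rw [map_add, map_nsmul]

end EsPic

/-! ### The relations after reduction and on torsion -/

section Main

variable {Γ : Type*} [Group Γ] (gal : Γ →* SemilinearAut K F)
  {r : Place K F → Place k Ft} {red : Pic0 K F →+ Pic0 k Ft}
  {T : Pic0 K F →+ Pic0 K F} {TD : Divisor K F →+ Divisor K F}

/-- **(Φ2) with diamond**: `red` kills the Eichler--Shimura expression
`σ σ x - T (σ x) + p • d x` for every `σ` acting through Frobenius on the places downstairs. -/
theorem red_relation (hred : RedHom r red) (hT : DivModel T TD) (Fr W d' : SemilinearAut k Ft)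
    (hW : W * Fr = d') (d : SemilinearAut K F) (hd : ∀ P, r (d • P) = d' • r P) (p : ℕ)
    (hES : ∀ D : Divisor K F, Finsupp.mapDomain r (TD D) =
      Fr • Finsupp.mapDomain r D + (p : ℤ) • (W • Finsupp.mapDomain r D))
    (σ : Γ) (hσ : ∀ P, r (gal σ • P) = Fr • r P) (x : Pic0 K F) :
    red (gal σ • gal σ • x - T (gal σ • x) + p • (d • x)) = 0 := by
  have e1 : ∀ y : Pic0 K F, red (gal σ • y) = Fr • red y := red_smul hred (gal σ) Fr hσ
  have e2 : red (d • x) = d' • red x := red_smul hred d d' hd x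
  rw [map_add, map_sub, map_nsmul, red_T hred hT Fr W p hES, e1, e1, e2, ← mul_smul W Fr, hW]
  abel

variable {gal}

/-- **`Pic⁰(F)[m]` is unramified**: elements acting trivially on the reduced places act trivially
on the torsion on which the reduction is injective. -/
theorem inertia_smul_eq (hred : RedHom r red) (p : ℕ)
    (inj : ∀ (m : ℕ) (x : Pic0 K F), ¬ p ∣ m → m • x = 0 → red x = 0 → x = 0)
    {τ : Γ} (hτ : ∀ P, r (gal τ • P) = r P) {m : ℕ} (hm : ¬ p ∣ m) {x : Pic0 K F}
    (hx : m • x = 0) : gal τ • x = x := by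
  rw [← sub_eq_zero]
  refine inj m _ hm ?_ ?_
  · rw [nsmul_sub, smul_comm m (gal τ) x, hx, smul_zero, sub_zero]
  · rw [map_sub, red_smul_of_fixed hred (gal τ) hτ, sub_self]

/-- **The Eichler--Shimura relation with diamond on `Pic⁰(F)[m]`.** -/
theorem frobenius_relation (hred : RedHom r red) (hT : DivModel T TD)
    (Fr W d' : SemilinearAut k Ft) (hW : W * Fr = d') (d : SemilinearAut K F)
    (hd : ∀ P, r (d • P) = d' • r P) (p : ℕ)
    (hES : ∀ D : Divisor K F, Finsupp.mapDomain r (TD D) =
      Fr • Finsupp.mapDomain r D + (p : ℤ) • (W • Finsupp.mapDomain r D))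
    (inj : ∀ (m : ℕ) (x : Pic0 K F), ¬ p ∣ m → m • x = 0 → red x = 0 → x = 0)
    {σ : Γ} (hσ : ∀ P, r (gal σ • P) = Fr • r P) {m : ℕ} (hm : ¬ p ∣ m) {x : Pic0 K F}
    (hx : m • x = 0) : gal σ • gal σ • x - T (gal σ • x) + p • (d • x) = 0 := by
  refine inj m _ hm ?_ (red_relation gal hred hT Fr W d' hW d hd p hES σ hσ x)
  have e1 : m • (gal σ • x) = 0 := by rw [smul_comm m (gal σ) x, hx, smul_zero]
  have e2 : m • (gal σ • gal σ • x) = 0 := by
    rw [smul_comm m (gal σ) (gal σ • x), e1]
    exact smul_zero _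
  have e3 : m • T (gal σ • x) = 0 := by rw [← map_nsmul, e1, map_zero]
  have e4 : m • (p • (d • x)) = 0 := by
    rw [smul_comm m p, smul_comm m d x, hx, smul_zero, smul_zero]
  rw [nsmul_add, nsmul_sub, e2, e3, e4, sub_zero, add_zero]

end Main

/-! ### Variants: abstract diamond on `Pic⁰`, `K`-algebra automorphisms, composition of models -/

section Variants

variable {r : Place K F → Place k Ft} {red : Pic0 K F →+ Pic0 k Ft}

/-- equivariance for a `K`-algebra automorphism upstairs. -/
theorem red_algEquiv_smul (hred : RedHom r red) (s : F ≃ₐ[K] F) (h : SemilinearAut k Ft)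
    (hsh : ∀ P, r (s • P) = h • r P) (x : Pic0 K F) : red (s • x) = h • red x := by
  obtain ⟨D, rfl⟩ := Pic0.mk_surjective x
  obtain ⟨h1, e1⟩ := hred D
  obtain ⟨h2, e2⟩ := hred (Pic0.degZeroSMulHom s D)
  rw [Pic0.smul_mk, e2, e1, SemilinearAut.pic0_smul_mk]
  apply mk_congr
  show Finsupp.mapDomain r (s • (D : Divisor K F)) = h • Finsupp.mapDomain r (D : Divisor K F)
  rw [Divisor.smul_def, SemilinearAut.divisor_smul_def, ← Finsupp.mapDomain_comp,
    ← Finsupp.mapDomain_comp]
  congr 1
  funext P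
  exact hsh P

/-- the action of a semilinear automorphism has a divisor model. -/
theorem divModel_semilinear (g : SemilinearAut K F) :
    DivModel (DistribSMul.toAddMonoidHom (Pic0 K F) g)
      (DistribSMul.toAddMonoidHom (Divisor K F) g) := fun D =>
  ⟨SemilinearAut.smul_mem_degZero g D.2, rfl⟩

/-- the action of a `K`-algebra automorphism has a divisor model. -/
theorem divModel_algEquiv (s : F ≃ₐ[K] F) :
    DivModel (DistribSMul.toAddMonoidHom (Pic0 K F) s)
      (DistribSMul.toAddMonoidHom (Divisor K F) s) := fun D =>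
  ⟨Divisor.smul_mem_degZero s D.2, rfl⟩

/-- divisor models compose. -/
theorem DivModel.comp {T₁ T₂ : Pic0 K F →+ Pic0 K F} {TD₁ TD₂ : Divisor K F →+ Divisor K F}
    (h₁ : DivModel T₁ TD₁) (h₂ : DivModel T₂ TD₂) : DivModel (T₁.comp T₂) (TD₁.comp TD₂) := by
  intro D
  obtain ⟨h2, e2⟩ := h₂ D
  obtain ⟨h1, e1⟩ := h₁ ⟨TD₂ (D : Divisor K F), h2⟩
  exact ⟨h1, by rw [AddMonoidHom.comp_apply, e2, e1]; rfl⟩

variable {Γ : Type*} [Group Γ] {gal : Γ →* SemilinearAut K F}
  {T : Pic0 K F →+ Pic0 K F} {TD : Divisor K F →+ Divisor K F}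

/-- `red_relation` with an abstract diamond `Dm` on `Pic⁰` compatible with the reduction. -/
theorem red_relation' (hred : RedHom r red) (hT : DivModel T TD) (Fr W d' : SemilinearAut k Ft)
    (hW : W * Fr = d') (Dm : Pic0 K F →+ Pic0 K F) (hDm : ∀ x, red (Dm x) = d' • red x) (p : ℕ)
    (hES : ∀ D : Divisor K F, Finsupp.mapDomain r (TD D) =
      Fr • Finsupp.mapDomain r D + (p : ℤ) • (W • Finsupp.mapDomain r D))
    (σ : Γ) (hσ : ∀ P, r (gal σ • P) = Fr • r P) (x : Pic0 K F) :
    red (gal σ • gal σ • x - T (gal σ • x) + p • Dm x) = 0 := by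
  have e1 : ∀ y : Pic0 K F, red (gal σ • y) = Fr • red y := red_smul hred (gal σ) Fr hσ
  rw [map_add, map_sub, map_nsmul, red_T hred hT Fr W p hES, e1, e1, hDm, ← mul_smul W Fr, hW]
  abel

/-- `frobenius_relation` with an abstract diamond `Dm` on `Pic⁰` compatible with the reduction. -/
theorem frobenius_relation' (hred : RedHom r red) (hT : DivModel T TD)
    (Fr W d' : SemilinearAut k Ft) (hW : W * Fr = d') (Dm : Pic0 K F →+ Pic0 K F)
    (hDm : ∀ x, red (Dm x) = d' • red x) (p : ℕ)
    (hES : ∀ D : Divisor K F, Finsupp.mapDomain r (TD D) =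
      Fr • Finsupp.mapDomain r D + (p : ℤ) • (W • Finsupp.mapDomain r D))
    (inj : ∀ (m : ℕ) (x : Pic0 K F), ¬ p ∣ m → m • x = 0 → red x = 0 → x = 0)
    {σ : Γ} (hσ : ∀ P, r (gal σ • P) = Fr • r P) {m : ℕ} (hm : ¬ p ∣ m) {x : Pic0 K F}
    (hx : m • x = 0) : gal σ • gal σ • x - T (gal σ • x) + p • Dm x = 0 := by
  refine inj m _ hm ?_ (red_relation' hred hT Fr W d' hW Dm hDm p hES σ hσ x)
  have e1 : m • (gal σ • x) = 0 := by rw [smul_comm m (gal σ) x, hx, smul_zero]
  have e2 : m • (gal σ • gal σ • x) = 0 := by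
    rw [smul_comm m (gal σ) (gal σ • x), e1]
    exact smul_zero _
  have e3 : m • T (gal σ • x) = 0 := by rw [← map_nsmul, e1, map_zero]
  have e4 : m • (p • Dm x) = 0 := by
    rw [smul_comm m p, ← map_nsmul, hx, map_zero, smul_zero]
  rw [nsmul_add, nsmul_sub, e2, e3, e4, sub_zero, add_zero]

end Variants

end Fermat.Agent.DS.G.Top.TorsionGalois
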