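/-
DS programme (S48), GEO half, brick GEO-FIN-TG (helper54), `ℚ̄`-LAYER.

The abstract core `TorsionGalois` specialised to `K = ℚ̄`, `F = ℚ̄ · F₀` for a rational function
field `F₀ ⊆ ℚ((q))`, the arithmetic Galois action `arithmeticGalois F₀` of the Prelude on
`J := Pic⁰(ℚ̄ · F₀)`, inertia and Frobenius elements at a valuation subring `A` of `ℚ̄`.

* `LocalInputs F₀ p A T Dm` : the package of local inputs at one prime `p` and one valuation
  subring `A` over `p` (reduction of places and of `Pic⁰`, (R3), (ES-div) with `(Fr, W)`, diamond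
  compatibility, (Φ3)).  Every field is the conclusion of one chapter of the geometric half.
* `LocalInputs.inertia_smul_eq`, `LocalInputs.frobenius_relation` : the torsion-level statements.
* `hinertia_of_localInputs`, `hfrob_of_localInputs` : the hypotheses `hinertia`, `hfrob` of
  `Geo/TateOfTorsion.tateDataOfTorsion`, verbatim, for `J = Pic⁰(ℚ̄ · F₀)`.
-/
import Mathlib
import Fermat.Prelude.Def_ModularCurve_ArithmeticGalois
import Fermat.Prelude.Def_EllipticCurve_FrobeniusTrace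
import Fermat.Agent.DS.G.Top.TorsionGalois
import Fermat.Agent.DS.Hecke1.HeckeT1

set_option autoImplicit false

noncomputable section

open AlgebraicCurve ModularCurve

namespace Fermat.Agent.DS.G.Top.TorsionGaloisQ

open Fermat.Agent.DS.G.Top.TorsionGalois Fermat.Agent.DS.Hecke1.HeckeT1

local notation "Qb" => AlgebraicClosure ℚ
local notation "GQ" => (AlgebraicClosure ℚ ≃ₐ[ℚ] AlgebraicClosure ℚ)

variable (F₀ : IntermediateField ℚ (LaurentSeries ℚ))

/-- the function field over `ℚ̄`. -/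
abbrev FFb : IntermediateField Qb (LaurentSeries Qb) := laurentBaseChange Qb F₀

/-- the Jacobian `Pic⁰(ℚ̄ · F₀)`. -/
abbrev JF : Type := Pic0 Qb (laurentBaseChange Qb F₀)

/-- **Local inputs** at a prime `p` and a valuation subring `A` of `ℚ̄` (over `p`), for a Hecke
operator `T` and a diamond operator `Dm` on `J`. -/
structure LocalInputs (p : ℕ) (A : ValuationSubring Qb) (T Dm : JF F₀ →+ JF F₀) : Type 1 where
  /-- the residue field -/
  k : Type
  [instk : Field k]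
  /-- the function field of the special fibre -/
  Ft : Type
  [instFt : Field Ft]
  [instAlg : Algebra k Ft]
  /-- reduction of places -/
  r : Place Qb (FFb F₀) → Place k Ft
  /-- reduction of divisor classes -/
  red : JF F₀ →+ Pic0 k Ft
  hred : RedHom r red
  /-- divisor model of the Hecke operator -/
  TD : Divisor Qb (FFb F₀) →+ Divisor Qb (FFb F₀)
  hT : DivModel T TD
  /-- Frobenius, twisted Verschiebung and diamond on the special fibre -/
  Fr : SemilinearAut k Ft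
  W : SemilinearAut k Ft
  d' : SemilinearAut k Ft
  hW : W * Fr = d'
  /-- the diamond is compatible with the reduction -/
  hDm : ∀ x, red (Dm x) = d' • red x
  /-- (ES-div) -/
  hES : ∀ D : Divisor Qb (FFb F₀), Finsupp.mapDomain r (TD D) =
    Fr • Finsupp.mapDomain r D + (p : ℤ) • (W • Finsupp.mapDomain r D)
  /-- (R3), inertia -/
  hI : ∀ τ ∈ A.inertiaSubgroupIn ℚ, ∀ P, r (arithmeticGalois F₀ τ • P) = r P
  /-- (R3), Frobenius -/
  hFr : ∀ σ : GQ, A.IsFrobeniusAt σ p → ∀ P, r (arithmeticGalois F₀ σ • P) = Fr • r P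
  /-- (Φ3) -/
  inj : ∀ (m : ℕ) (x : JF F₀), ¬ p ∣ m → m • x = 0 → red x = 0 → x = 0

attribute [instance] LocalInputs.instk LocalInputs.instFt LocalInputs.instAlg

variable {F₀}

namespace LocalInputs

variable {p : ℕ} {A : ValuationSubring Qb} {T Dm : JF F₀ →+ JF F₀}

/-- **`J[m]` is unramified at `A`**, `p ∤ m`. -/
theorem inertia_smul_eq (I : LocalInputs F₀ p A T Dm) {τ : GQ}
    (hτ : τ ∈ A.inertiaSubgroupIn ℚ) {m : ℕ} (hm : ¬ p ∣ m) {x : JF F₀} (hx : m • x = 0) :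
    τ • x = x :=
  TorsionGalois.inertia_smul_eq (gal := arithmeticGalois F₀) I.hred p I.inj (I.hI τ hτ) hm hx

/-- **The Eichler--Shimura relation with diamond on `J[m]`**, `p ∤ m`. -/
theorem frobenius_relation (I : LocalInputs F₀ p A T Dm) {σ : GQ} (hσ : A.IsFrobeniusAt σ p)
    {m : ℕ} (hm : ¬ p ∣ m) {x : JF F₀} (hx : m • x = 0) :
    σ • σ • x - T (σ • x) + p • Dm x = 0 :=
  TorsionGalois.frobenius_relation' (gal := arithmeticGalois F₀) I.hred I.hT I.Fr I.W I.d' I.hW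
    Dm I.hDm p I.hES I.inj (I.hFr σ hσ) hm hx

end LocalInputs

/-! ### The hypotheses of `Geo/TateOfTorsion.tateDataOfTorsion` -/

section Global

variable {M : ℕ} {ℓ : ℕ}
  (Tp : ∀ p : ℕ, p.Prime → ¬ p ∣ M → (JF F₀ →+ JF F₀)) (Dia : (ZMod M)ˣ → (JF F₀ →+ JF F₀))

/-- `hinertia` of `tateDataOfTorsion`. -/
theorem hinertia_of_localInputs (hℓ : ℓ.Prime)
    (h : ∀ (p : ℕ) (hp : p.Prime) (hpM : ¬ p ∣ M), p ≠ ℓ → ∀ A : ValuationSubring Qb,
      A.LiesOverPrime p → Nonempty (LocalInputs F₀ p A (Tp p hp hpM) (Dia (unitP hp hpM)))) :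
    ∀ p : ℕ, p.Prime → ¬ p ∣ M → p ≠ ℓ → ∀ A : ValuationSubring Qb,
      A.LiesOverPrime p → ∀ τ ∈ A.inertiaSubgroupIn ℚ, ∀ (n : ℕ) (y : JF F₀), ℓ ^ n • y = 0 →
        τ • y = y := by
  intro p hp hpM hpℓ A hA τ hτ n y hy
  obtain ⟨I⟩ := h p hp hpM hpℓ A hA
  refine I.inertia_smul_eq hτ (m := ℓ ^ n) (fun hd => hpℓ ?_) hy
  exact (Nat.prime_dvd_prime_iff_eq hp hℓ).mp (hp.dvd_of_dvd_pow hd)

/-- `hfrob` of `tateDataOfTorsion`. -/
theorem hfrob_of_localInputs (hℓ : ℓ.Prime)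
    (h : ∀ (p : ℕ) (hp : p.Prime) (hpM : ¬ p ∣ M), p ≠ ℓ → ∀ A : ValuationSubring Qb,
      A.LiesOverPrime p → Nonempty (LocalInputs F₀ p A (Tp p hp hpM) (Dia (unitP hp hpM)))) :
    ∀ (p : ℕ) (hp : p.Prime) (hpM : ¬ p ∣ M), p ≠ ℓ → ∀ A : ValuationSubring Qb,
      A.LiesOverPrime p → ∀ σ : GQ, A.IsFrobeniusAt σ p → ∀ (n : ℕ) (y : JF F₀), ℓ ^ n • y = 0 →
        σ • σ • y - Tp p hp hpM (σ • y) + p • Dia (unitP hp hpM) y = 0 := by
  intro p hp hpM hpℓ A hA σ hσ n y hy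
  obtain ⟨I⟩ := h p hp hpM hpℓ A hA
  refine I.frobenius_relation hσ (m := ℓ ^ n) (fun hd => hpℓ ?_) hy
  exact (Nat.prime_dvd_prime_iff_eq hp hℓ).mp (hp.dvd_of_dvd_pow hd)

end Global

end Fermat.Agent.DS.G.Top.TorsionGaloisQ
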