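/-
DS programme (S48), GEO half, brick GEO-FIN-TG (helper54), glue file `AutCorr`.

The correspondence `id_* s^*` attached to a `K`-algebra automorphism `s : F ≃ₐ[K] F` of a function
field is the action of `s` on places / divisors / `Pic⁰` (Prelude's `F ≃ₐ[K] F`-actions):

* `restrictAlong_algEquiv` : `w ∩ s F = s⁻¹ • w`;  `fiberAlong_algEquiv` : the fibre of `v` along
  `s` is `{s • v}`;  `ramificationIndexAlong_algEquiv = 1`;  `restrictAlong_id`;
* `divCorr_algEquiv_id` : `Inputs.divCorr s id D = s • D`;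
* `corr_algEquiv_id` : `Inputs.corr s id x = s • x`;
* `diaPic_eq_smul` : helper34's diamond operator `Diamond.diaPic A σ hs hx` is `dia A σ hs • ·`;
* `divModel_corr`, `divModel_diaPic`, `divModel_corr_comp_diaPic` : divisor models
  (`TorsionGalois.DivModel`) of `Inputs.corr φ ψ`, of `diaPic` and of `corr β α ∘ diaPic`
  (the shape of `T1 M p`).
-/
import Mathlib
import Fermat.Agent.DS.G.Top.TorsionGalois
import Fermat.Agent.DS.G.HECKE.Inputs
import Fermat.Agent.DS.G.HECKE.Diamond

set_option autoImplicit false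
set_option linter.style.haveILetI false
set_option linter.unusedSectionVars false

noncomputable section

open AlgebraicCurve

namespace Fermat.Agent.DS.G.Top.AutCorr

open Fermat.Agent.DS.G.Top.TorsionGalois Fermat.Agent.DS.G.HECKE Fermat.Agent.X0.FF
open scoped Pointwise

variable {K F : Type*} [Field K] [Field F] [Algebra K F]

/-! ### places along an automorphism -/

/-- an automorphism is integral. -/
theorem isIntegral_algEquiv (s : F ≃ₐ[K] F) : (s : F →ₐ[K] F).toRingHom.IsIntegral := by
  intro y
  obtain ⟨z, rfl⟩ := s.surjective y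
  exact (s : F →ₐ[K] F).toRingHom.isIntegralElem_map

/-- `w ∩ s F`, pulled back to `F` along `s`, is `s⁻¹ • w`. -/
theorem restrictAlong_algEquiv (s : F ≃ₐ[K] F) (hs : (s : F →ₐ[K] F).toRingHom.IsIntegral)
    (w : Place K F) : w.restrictAlong (s : F →ₐ[K] F) hs = s⁻¹ • w := by
  apply Place.ext
  ext f
  rw [Place.smul_toValuationSubring, ValuationSubring.mem_pointwise_smul_iff_inv_smul_mem, inv_inv]
  rfl

/-- the restriction along the identity. -/
theorem restrictAlong_id (h : (AlgHom.id K F).toRingHom.IsIntegral) (w : Place K F) :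
    w.restrictAlong (AlgHom.id K F) h = w := by
  apply Place.ext
  ext f
  rfl

/-- the fibre of `v` along `s` is `{s • v}`. -/
theorem fiberAlong_algEquiv [HasPrincipalDivisors K F] (s : F ≃ₐ[K] F)
    (hs : (s : F →ₐ[K] F).toRingHom.IsIntegral) (v : Place K F) :
    Place.fiberAlong (s : F →ₐ[K] F) hs v = {s • v} := by
  ext w
  rw [Place.mem_fiberAlong, Finset.mem_singleton, restrictAlong_algEquiv]
  constructor
  · intro h
    rw [← h, smul_inv_smul]
  · intro h
    rw [h, inv_smul_smul]

/-- an automorphism is unramified everywhere. -/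
theorem ramificationIndexAlong_algEquiv (s : F ≃ₐ[K] F) (w : Place K F) :
    w.ramificationIndexAlong (s : F →ₐ[K] F) = 1 := by
  have hs := isIntegral_algEquiv s
  obtain ⟨π, hπ⟩ := IsDiscreteValuationRing.exists_irreducible (s⁻¹ • w).toValuationSubring
  have h1 : (s⁻¹ • w).ord (π : F) = 1 := (s⁻¹ • w).ord_coe_irreducible hπ
  have h2 := Place.ord_restrictAlong (s : F →ₐ[K] F) hs w (π : F)
  rw [restrictAlong_algEquiv, h1, mul_one] at h2
  have h3 : w.ord (s (π : F)) = 1 := by
    have := Place.ord_smul s (s⁻¹ • w) (π : F)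
    rwa [smul_inv_smul, h1] at this
  have h4 : ((w.ramificationIndexAlong (s : F →ₐ[K] F) : ℕ) : ℤ) = 1 := by
    rw [← h2]
    exact h3
  exact_mod_cast h4

/-! ### the correspondence of an automorphism -/

section Corr

variable [IsAlgClosed K] [CharZero K] {x : F} (hx : IsGen K x)

/-- **`id_* s^* D = s • D`** on divisors. -/
theorem divCorr_algEquiv_id (s : F ≃ₐ[K] F) (D : Divisor K F) :
    Inputs.divCorr (s : F →ₐ[K] F) (AlgHom.id K F) hx hx D = s • D := by
  haveI := Inputs.hasPrincipalDivisors_of_isGen hx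
  induction D using Finsupp.induction with
  | zero => rw [map_zero, smul_zero]
  | single_add v n D _ _ ih =>
    rw [map_add, smul_add, ih]
    congr 1
    rw [Inputs.divCorr_single, fiberAlong_algEquiv, Finset.sum_singleton, restrictAlong_id,
      ramificationIndexAlong_algEquiv, Nat.cast_one, mul_one, Divisor.smul_single]

/-- **`id_* s^* y = s • y`** on `Pic⁰`. -/
theorem corr_algEquiv_id (s : F ≃ₐ[K] F) (y : Pic0 K F) :
    Inputs.corr (s : F →ₐ[K] F) (AlgHom.id K F) hx hx y = s • y := by
  obtain ⟨D, rfl⟩ := Pic0.mk_surjective y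
  rw [Inputs.corr_mk, Pic0.smul_mk]
  apply mk_congr
  exact divCorr_algEquiv_id hx s D

/-- the divisor model of a correspondence. -/
theorem divModel_corr {F' : Type*} [Field F'] [Algebra K F'] (φ ψ : F →ₐ[K] F') {x' : F'}
    (hx' : IsGen K x') : DivModel (Inputs.corr φ ψ hx hx') (Inputs.divCorr φ ψ hx hx') :=
  fun D => ⟨Inputs.divCorr_mem_degZero φ ψ hx hx' D.2, rfl⟩

/-- the divisor model of the correspondence of an automorphism, in the `smul` form. -/
theorem divModel_corr_algEquiv (s : F ≃ₐ[K] F) :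
    DivModel (Inputs.corr (s : F →ₐ[K] F) (AlgHom.id K F) hx hx)
      (DistribSMul.toAddMonoidHom (Divisor K F) s) := by
  intro D
  refine ⟨Divisor.smul_mem_degZero s D.2, ?_⟩
  rw [corr_algEquiv_id, Pic0.smul_mk]
  rfl

end Corr

/-! ### helper34's diamond operator -/

section Diamond

open Fermat.Agent.X0 Fermat.Agent.DS.G.HECKE.Iface Fermat.Agent.DS.G.HECKE.Diamond
open scoped MatrixGroups

variable {F₀ : IntermediateField ℚ (LaurentSeries ℚ)} (A : ArithModel F₀) {x : FFK F₀}

/-- **the diamond operator `diaPic` is the action of the diamond automorphism `dia`.** -/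
theorem diaPic_eq_smul (s : SL(2, ℤ)) (hs : Acts A s) (hx : IsGen Kbar x)
    (y : Pic0 Kbar (FFK F₀)) : diaPic A s hs hx y = dia A s hs • y :=
  corr_algEquiv_id hx (dia A s hs) y

/-- the same, as an equality of additive maps. -/
theorem diaPic_eq_toAddMonoidHom (s : SL(2, ℤ)) (hs : Acts A s) (hx : IsGen Kbar x) :
    diaPic A s hs hx = DistribSMul.toAddMonoidHom (Pic0 Kbar (FFK F₀)) (dia A s hs) :=
  AddMonoidHom.ext fun y => diaPic_eq_smul A s hs hx y

/-- the divisor model of the diamond operator. -/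
theorem divModel_diaPic (s : SL(2, ℤ)) (hs : Acts A s) (hx : IsGen Kbar x) :
    DivModel (diaPic A s hs hx) (DistribSMul.toAddMonoidHom (Divisor Kbar (FFK F₀)) (dia A s hs)) :=
  divModel_corr_algEquiv hx (dia A s hs)

/-- the divisor model of `corr β α ∘ diaPic` (the shape of `T1 M p`). -/
theorem divModel_corr_comp_diaPic {F' : Type*} [Field F'] [Algebra Kbar F']
    (φ ψ : FFK F₀ →ₐ[Kbar] F') {x' : F'} (hx : IsGen Kbar x) (hx' : IsGen Kbar x')
    (s : SL(2, ℤ)) (hs : Acts A s) :
    DivModel ((Inputs.corr φ ψ hx hx').comp (diaPic A s hs hx))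
      ((Inputs.divCorr φ ψ hx hx').comp
        (DistribSMul.toAddMonoidHom (Divisor Kbar (FFK F₀)) (dia A s hs))) :=
  (divModel_corr hx φ ψ hx').comp (divModel_diaPic A s hs hx)

end Diamond

end Fermat.Agent.DS.G.Top.AutCorr
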