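/-
DS programme (S48), GEO half, brick GEO-FIN PlugK2 (helper20): **the K2 plug.**

`geoInputs2OfK2` : helper91's contract `G/Top/Inputs2.GeoInputs2 M ℓ` for `J = JF F₀ = Pic⁰(ℚ̄ · F₀)`
(helper54's `TorsionGaloisQ.JF`, Galois action = `arithmeticGalois F₀` of the Prelude) from

* a Kummer system `KS : KummerSystem ℓ (Gamma1 M) (JF F₀)` (`HEQ/KumSysQ.ksQ1 M ℓ` for
  `F₀ = (L1 M).F₀`);
* endomorphisms `Tp p hp hpM`, `Dia d` of `JF F₀` which correspond, under the Kummer maps, to the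
  transfer operators of helper78's representatives `heckeRepsT`, `diamondReps` for the matrices of
  a `LatticeSide2.SigmaChoice S` (`KummerCompat`; output of `HEQ/CompatG.kumQAdd_corr / _smul`),
  and commute with `G_ℚ`;
* `hlevel` (GEO-FIN-OS) and the local inputs `TorsionGaloisQ.LocalInputs` at every `p ∤ M`,
  `p ≠ ℓ` (GEO-FIN-TG).

It is `Geo/Final2.geoInputs2OfTorsion` with `ι₀ := TateCompare11.iota KS`, its base change property
(`isBaseChange_iota`) and the intertwining relations (`TateCharReps.map_iota_reps`) filled in, and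
`hinertia`, `hfrob` from `TorsionGaloisQ`.  `geoInputsGenOfK2` is the same for helper71's
`InputsGen.GeoInputsGen`.
-/
import Mathlib
import Fermat.Agent.DS.Geo.Final2
import Fermat.Agent.DS.G.Top.TorsionGaloisQ
import Fermat.Agent.DS.G.ES.HEQ.K2Reps
import Fermat.Agent.DS.Per1.LatticeSideGen

set_option autoImplicit false
set_option linter.unusedSectionVars false
set_option linter.style.haveILetI false

open scoped MatrixGroups
open CongruenceSubgroup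

noncomputable section

namespace Fermat.Agent.DS.G.Top.PlugK2

open Fermat.Agent.ES.J.TateModule13 Fermat.Agent.ES.J.TateChar11 Fermat.Agent.ES.J.TateCompare11
open Fermat.Agent.DS.Per1.HeckeReps Fermat.Agent.DS.Per1.RepsGamma1
open Fermat.Agent.DS.G.ES.HEQ.TateCharReps
open Fermat.Agent.DS.Hecke1.Algebra Fermat.Agent.DS.Hecke1.HeckeT1
open Fermat.Agent.DS.G.Top.Inputs2 Fermat.Agent.DS.Per1.LatticeSide2
open Fermat.Agent.DS.G.Top.TorsionGaloisQ

local notation "Qb" => AlgebraicClosure ℚ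
local notation "GQ" => (AlgebraicClosure ℚ ≃ₐ[ℚ] AlgebraicClosure ℚ)

/-- **Kummer compatibility**: the endomorphism `f` of `J` corresponds on `ℓ ^ k`-torsion, under the
Kummer maps of `KS`, to the transfer operator `dX H` of the Hecke representatives `H`. -/
def KummerCompat {ℓ : ℕ} {Γ : Subgroup SL(2, ℤ)} {J : Type*} [AddCommGroup J]
    {I : Type*} [Fintype I] (KS : KummerSystem ℓ Γ J) (f : J →+ J) (H : HeckeReps Γ I) : Prop :=
  ∀ (k : ℕ) (x : ↥(tors J (ℓ ^ k))) (hfx : f (x : J) ∈ tors J (ℓ ^ k)),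
    KS.κ k ⟨f (x : J), hfx⟩ = dX H (KS.κ k x)

/-- Kummer compatibility only depends on the transfer operator. -/
theorem KummerCompat.congr {Γ : Subgroup SL(2, ℤ)} {J : Type*} [AddCommGroup J]
    {I I' : Type*} [Fintype I] [Fintype I'] {ℓ : ℕ} {KS : KummerSystem ℓ Γ J} {f : J →+ J}
    {H : HeckeReps Γ I} {H' : HeckeReps Γ I'} (h : KummerCompat KS f H)
    (hH : ∀ χ : X Γ, dX H χ = dX H' χ) : KummerCompat KS f H' := by
  intro k x hfx
  rw [h k x hfx, hH]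

/-- Kummer compatibility is stable under composition. -/
theorem KummerCompat.comp {Γ : Subgroup SL(2, ℤ)} {J : Type*} [AddCommGroup J]
    {I₁ I₂ I₃ : Type*} [Fintype I₁] [Fintype I₂] [Fintype I₃] {ℓ : ℕ} {KS : KummerSystem ℓ Γ J}
    {f g : J →+ J} {H₁ : HeckeReps Γ I₁} {H₂ : HeckeReps Γ I₂} {H₃ : HeckeReps Γ I₃}
    (hf : KummerCompat KS f H₁) (hg : KummerCompat KS g H₂)
    (hH : ∀ χ : X Γ, dX H₃ χ = dX H₁ (dX H₂ χ)) : KummerCompat KS (f.comp g) H₃ := by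
  intro k x hfx
  have hgx : g (x : J) ∈ tors J (ℓ ^ k) := by
    rw [mem_tors, ← map_nsmul, mem_tors.mp x.2, map_zero]
  have h1 := hf k ⟨g (x : J), hgx⟩ hfx
  rw [hg k x hgx] at h1
  rw [hH]
  exact h1

variable {M : ℕ} [NeZero M] {ℓ : ℕ} [hℓ : Fact ℓ.Prime]

/-- the `T_p`-representatives of a choice `S` of matrices. -/
def repsT (S : SigmaChoice M) {p : ℕ} [Fact p.Prime] (hp : p.Prime) (hpM : ¬ p ∣ M) :
    HeckeReps (Gamma1 M) (Option (ZMod p)) :=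
  heckeRepsT M hpM (S.sT hp hpM) (S.sT_mem hp hpM) (S.sT_lr hp hpM)

/-- the `⟨d⟩`-representatives of a choice `S` of matrices. -/
def repsD (S : SigmaChoice M) (d : (ZMod M)ˣ) : HeckeReps (Gamma1 M) Unit :=
  diamondReps M (S.sD d) (S.sD_mem d)

theorem aT_eq (S : SigmaChoice M) {p : ℕ} [Fact p.Prime] (hp : p.Prime) (hpM : ¬ p ∣ M) :
    aT S hp hpM = (repsT S hp hpM).dPar ℤ ℤ := rfl

theorem aD_eq (S : SigmaChoice M) (d : (ZMod M)ˣ) : aD S d = (repsD S d).dPar ℤ ℤ := rfl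

section Abstract

variable {J : Type} [AddCommGroup J]

/-- The lattice-to-Tate comparison of a Kummer system for `Γ₁(M)`. -/
def iotaK2 (KS : KummerSystem ℓ (Gamma1 M) J) : Lam M →ₗ[ℤ] TateModule ℓ J := iota KS

theorem isBaseChange_iotaK2 (KS : KummerSystem ℓ (Gamma1 M) J) :
    IsBaseChange ℤ_[ℓ] (iotaK2 KS) :=
  isBaseChange_iota KS (Fermat.Agent.S22.fg_of_finiteIndex (Gamma1 M))

theorem map_iotaK2_T (S : SigmaChoice M) (KS : KummerSystem ℓ (Gamma1 M) J) {p : ℕ}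
    [Fact p.Prime] (hp : p.Prime) (hpM : ¬ p ∣ M) (f : J →+ J) (hf : KummerCompat KS f (repsT S hp hpM))
    (x : Lam M) :
    (map f : Module.End ℤ_[ℓ] (TateModule ℓ J)) (iotaK2 KS x) = iotaK2 KS (aT S hp hpM x) :=
  map_iota_reps (repsT S hp hpM) KS f hf x

theorem map_iotaK2_D (S : SigmaChoice M) (KS : KummerSystem ℓ (Gamma1 M) J) (d : (ZMod M)ˣ)
    (f : J →+ J) (hf : KummerCompat KS f (repsD S d)) (x : Lam M) :
    (map f : Module.End ℤ_[ℓ] (TateModule ℓ J)) (iotaK2 KS x) = iotaK2 KS (aD S d x) :=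
  map_iota_reps (repsD S d) KS f hf x

end Abstract

variable {F₀ : IntermediateField ℚ (LaurentSeries ℚ)}

/-- **The K2 plug**: `GeoInputs2 M ℓ` from a Kummer system on `J = Pic⁰(ℚ̄ · F₀)` for `Γ₁(M)`,
Kummer-compatible Galois-equivariant Hecke and diamond endomorphisms, `hlevel` and the local inputs
of the reduction chapters. -/
def geoInputs2OfK2 (S : SigmaChoice M) (KS : KummerSystem ℓ (Gamma1 M) (JF F₀))
    (Tp : ∀ p : ℕ, p.Prime → ¬ p ∣ M → (JF F₀ →+ JF F₀)) (Dia : (ZMod M)ˣ → (JF F₀ →+ JF F₀))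
    (hT : ∀ (p : ℕ) [Fact p.Prime] (hp : p.Prime) (hpM : ¬ p ∣ M),
      KummerCompat KS (Tp p hp hpM) (repsT S hp hpM))
    (hD : ∀ d : (ZMod M)ˣ, KummerCompat KS (Dia d) (repsD S d))
    (hTpG : ∀ (p : ℕ) (hp : p.Prime) (hpM : ¬ p ∣ M) (σ : GQ) (x : JF F₀),
      Tp p hp hpM (σ • x) = σ • Tp p hp hpM x)
    (hDiaG : ∀ (d : (ZMod M)ˣ) (σ : GQ) (x : JF F₀), Dia d (σ • x) = σ • Dia d x)
    (hlevel : ∃ L : IntermediateField ℚ Qb, FiniteDimensional ℚ L ∧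
      ∀ σ : GQ, (∀ a ∈ L, σ a = a) → ∀ y : JF F₀, ℓ • y = 0 → σ • y = y)
    (h : ∀ (p : ℕ) (hp : p.Prime) (hpM : ¬ p ∣ M), p ≠ ℓ → ∀ A : ValuationSubring Qb,
      A.LiesOverPrime p → Nonempty (LocalInputs F₀ p A (Tp p hp hpM) (Dia (unitP hp hpM)))) :
    GeoInputs2 M ℓ :=
  Fermat.Agent.DS.Geo.Final2.geoInputs2OfTorsion (J := JF F₀) S
    (fun {p} hp hpM => Tp p hp hpM) Dia (iotaK2 KS) (isBaseChange_iotaK2 KS)
    (fun {p} hp hpM x =>
      haveI : Fact p.Prime := ⟨hp⟩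
      map_iotaK2_T S KS hp hpM (Tp p hp hpM) (hT p hp hpM) x)
    (fun d x => map_iotaK2_D S KS d (Dia d) (hD d) x)
    (fun {p} hp hpM σ x => hTpG p hp hpM σ x) hDiaG hlevel
    (hinertia_of_localInputs Tp Dia hℓ.out h)
    (fun {p} hp hpM hpℓ A hA σ hσ n y hy =>
      hfrob_of_localInputs Tp Dia hℓ.out h p hp hpM hpℓ A hA σ hσ n y hy)

/-- The same for helper71's `InputsGen.GeoInputsGen` (`LatticeSideGen.toGen`). -/
def geoInputsGenOfK2 (S : SigmaChoice M) (KS : KummerSystem ℓ (Gamma1 M) (JF F₀))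
    (Tp : ∀ p : ℕ, p.Prime → ¬ p ∣ M → (JF F₀ →+ JF F₀)) (Dia : (ZMod M)ˣ → (JF F₀ →+ JF F₀))
    (hT : ∀ (p : ℕ) [Fact p.Prime] (hp : p.Prime) (hpM : ¬ p ∣ M),
      KummerCompat KS (Tp p hp hpM) (repsT S hp hpM))
    (hD : ∀ d : (ZMod M)ˣ, KummerCompat KS (Dia d) (repsD S d))
    (hTpG : ∀ (p : ℕ) (hp : p.Prime) (hpM : ¬ p ∣ M) (σ : GQ) (x : JF F₀),
      Tp p hp hpM (σ • x) = σ • Tp p hp hpM x)
    (hDiaG : ∀ (d : (ZMod M)ˣ) (σ : GQ) (x : JF F₀), Dia d (σ • x) = σ • Dia d x)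
    (hlevel : ∃ L : IntermediateField ℚ Qb, FiniteDimensional ℚ L ∧
      ∀ σ : GQ, (∀ a ∈ L, σ a = a) → ∀ y : JF F₀, ℓ • y = 0 → σ • y = y)
    (h : ∀ (p : ℕ) (hp : p.Prime) (hpM : ¬ p ∣ M), p ≠ ℓ → ∀ A : ValuationSubring Qb,
      A.LiesOverPrime p → Nonempty (LocalInputs F₀ p A (Tp p hp hpM) (Dia (unitP hp hpM)))) :
    Fermat.Agent.DS.G.Top.InputsGen.GeoInputsGen M ℓ :=
  Fermat.Agent.DS.Per1.LatticeSideGen.toGen (geoInputs2OfK2 S KS Tp Dia hT hD hTpG hDiaG hlevel h)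

end Fermat.Agent.DS.G.Top.PlugK2
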