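/-
DS programme (S48), GEO half, brick GEO-FIN PlugL1 (helper20): **the K2 plug at the level `L1 M`.**

`geoInputs2OfL1` : helper91's contract `G/Top/Inputs2.GeoInputs2 M ℓ` for
`J = J₁(M)(ℚ̄) = Pic⁰(ℚ̄ · F₀(L1 M))` with

* the Kummer system `KS := HEQ/KumSysQ.ksQ1 M ℓ` (G-KUM over `ℂ`, transported to `ℚ̄` by `DescG`,
  restricted from `±Γ₁(M)` to `Γ₁(M)`) — UNCONDITIONAL;
* `hlevel` (open stabiliser of `J[ℓ]`) — UNCONDITIONAL (`GAL/OpenStab12.exists_level_torsion_JL`,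
  `isGen_jQ1`, finiteness of `J[ℓ]` from G-KUM);

so that what remains is: `Tp`, `Dia` with `KummerCompat (ksQ1 M ℓ)` (G-HECKE H09: the output of
`HEQ/CompatG.kumQAdd_corr / kumQAdd_smul`, see `kummerCompat_corr1`, `kummerCompat_smul1` below),
Galois equivariance, and the local inputs `TorsionGaloisQ.LocalInputs` at every `p ∤ M`, `p ≠ ℓ`.
-/
import Mathlib
import Fermat.Agent.DS.G.Top.PlugK2
import Fermat.Agent.DS.G.ES.HEQ.KumSysQ
import Fermat.Agent.DS.G.ES.GAL.OpenStab12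

set_option autoImplicit false
set_option linter.unusedSectionVars false
set_option linter.style.haveILetI false
set_option linter.style.longLine false

open scoped MatrixGroups
open CongruenceSubgroup AlgebraicCurve ModularCurve

noncomputable section

namespace Fermat.Agent.DS.G.Top.PlugL1

open Fermat.Agent.X0 Fermat.Agent.X0.SurjPoint
open Fermat.Agent.ES.J.TateModule13 Fermat.Agent.ES.J.TateChar11
open Fermat.Agent.ES.KUM (slMer)
open Fermat.Agent.DS.Per1.HeckeReps Fermat.Agent.DS.Per1.RepsGamma1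
open Fermat.Agent.DS.Hecke1.Algebra Fermat.Agent.DS.Hecke1.HeckeT1
open Fermat.Agent.DS.G.Top.Inputs2 Fermat.Agent.DS.Per1.LatticeSide2
open Fermat.Agent.DS.G.Top.TorsionGaloisQ Fermat.Agent.DS.G.Top.PlugK2
open Fermat.Agent.DS.G.Level Fermat.Agent.DS.X1.Level1 Fermat.Agent.DS.X1.KumGamma1
open Fermat.Agent.DS.G.HECKE.DescG Fermat.Agent.DS.G.HECKE.KumQG
open Fermat.Agent.DS.G.ES.KUM.Iface Fermat.Agent.DS.G.ES.KUM.CReal5
open Fermat.Agent.DS.G.ES.HEQ.KumSysQ Fermat.Agent.DS.G.ES.HEQ.SigmaFamily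
open Fermat.Agent.DS.G.ES.HEQ.PmRestrict Fermat.Agent.DS.G.ES.HEQ.TateCharReps

local notation "GQ" => (AlgebraicClosure ℚ ≃ₐ[ℚ] AlgebraicClosure ℚ)

attribute [local instance] instAlgebraQbarComplex instTowerQbarComplex

variable (M : ℕ) [NeZero M] (ℓ : ℕ) [hℓ : Fact ℓ.Prime]

/-- **`hlevel` at the level `L1 M`**: `J₁(M)[ℓ]` is fixed by an open subgroup of `G_ℚ`. -/
theorem hlevel1 : ∃ L : IntermediateField ℚ Qb, FiniteDimensional ℚ L ∧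
    ∀ σ : GQ, (∀ a ∈ L, σ a = a) → ∀ y : JF (L1 M).F₀, ℓ • y = 0 → σ • y = y :=
  haveI : NeZero ℓ := ⟨hℓ.out.ne_zero⟩
  Fermat.Agent.DS.G.ES.GAL.OpenStab12.exists_level_torsion_JL (L1 M) (isGen_jQ1 M) ℓ
    (finite_setOf_smul_eq_zero1 M ℓ)

/-! ### Kummer compatibility from the analytic data (restatement of `HEQ/CompatG`) -/

/-- A correspondence `α_* β^*` on `J₁(M)` with analytic data relative to Hecke representatives `H`
of `Γ₁(M)` is Kummer-compatible with `H`. -/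
theorem kummerCompat_corr1 {F₀' : IntermediateField ℚ (LaurentSeries ℚ)}
    [HasPrincipalDivisors Qb (FQ F₀')] {α β : FQ (L1 M).F₀ →ₐ[Qb] FQ F₀'}
    {I : Type*} [Fintype I] {H : HeckeReps (Gamma1 M) I} (D : AnData α β H)
    (hbr : ∀ f : FQ (L1 M).F₀, realMer (modelC M) (bcQC (L1 M).F₀ f) = D.an f)
    (hα : α.toRingHom.IsIntegral) (hβ : β.toRingHom.IsIntegral)
    (hFI : FundamentalIdentityAlong Qb β hβ) (hfin : FiniteAlong Qb α)
    (hN : NormFormulaAlong Qb α hfin) :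
    KummerCompat (ksQ1 M ℓ) (Pic0.correspondence β α hβ hα hFI hfin hN) H := by
  intro k x hfx
  haveI : NeZero (ℓ ^ k) := ⟨pow_ne_zero k hℓ.out.ne_zero⟩
  haveI : Finite ↥(Pic0.torsion ℂ (FCx (L1 M).F₀) (ℓ ^ k)) := finiteC (modelC M) (ℓ ^ k)
  exact Fermat.Agent.DS.G.ES.HEQ.CompatG.kumQAdd_corr (modelC M) (isGen_jQ1 M)
    (Fermat.Agent.DS.G.ES.KUM.Final.hgen (modelC M)) (ℓ ^ k) (Gamma1_le_Gamma1pm M) D hbr hα hβ hFI hfin hN x hfx

/-- the action of an automorphism of the function field on `J₁(M)`, as an additive map. -/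
def smulHom (δ : FQ (L1 M).F₀ ≃ₐ[Qb] FQ (L1 M).F₀) : J1 M →+ J1 M :=
  DistribSMul.toAddMonoidHom (J1 M) (SemilinearAut.ofAlgAut δ)

theorem smulHom_apply (δ : FQ (L1 M).F₀ ≃ₐ[Qb] FQ (L1 M).F₀) (x : J1 M) :
    smulHom M δ x = SemilinearAut.ofAlgAut δ • x := rfl

/-- An automorphism `δ` of the function field realised by `h ↦ h ∘ σ` (`σ` normalising `Γ₁(M)`)
acts on `J₁(M)` Kummer-compatibly with `conjReps (Gamma1 M) σ`. -/
theorem kummerCompat_smul1 (δ : FQ (L1 M).F₀ ≃ₐ[Qb] FQ (L1 M).F₀) (σ : SL(2, ℤ))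
    (hσ : ∀ γ ∈ Gamma1 M, σ * γ * σ⁻¹ ∈ Gamma1 M)
    (an : FQ (L1 M).F₀ →+* MerH)
    (hbr : ∀ f : FQ (L1 M).F₀, realMer (modelC M) (bcQC (L1 M).F₀ f) = an f)
    (han : ∀ f : FQ (L1 M).F₀, an (δ f) = slMer σ (an f)) :
    KummerCompat (ksQ1 M ℓ) (smulHom M δ) (conjReps (Gamma1 M) σ hσ) := by
  intro k x hfx
  haveI : NeZero (ℓ ^ k) := ⟨pow_ne_zero k hℓ.out.ne_zero⟩
  haveI : Finite ↥(Pic0.torsion ℂ (FCx (L1 M).F₀) (ℓ ^ k)) := finiteC (modelC M) (ℓ ^ k)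
  exact Fermat.Agent.DS.G.ES.HEQ.CompatG.kumQAdd_smul (modelC M) (isGen_jQ1 M)
    (Fermat.Agent.DS.G.ES.KUM.Final.hgen (modelC M)) (ℓ ^ k) (Gamma1_le_Gamma1pm M) δ σ hσ an hbr han x

/-! ### the plug -/

/-- **The K2 plug at the level `L1 M`**: only `Tp`, `Dia` (Kummer-compatible, Galois-equivariant)
and the local inputs are left. -/
def geoInputs2OfL1 (S : SigmaChoice M)
    (Tp : ∀ p : ℕ, p.Prime → ¬ p ∣ M → (JF (L1 M).F₀ →+ JF (L1 M).F₀))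
    (Dia : (ZMod M)ˣ → (JF (L1 M).F₀ →+ JF (L1 M).F₀))
    (hT : ∀ (p : ℕ) [Fact p.Prime] (hp : p.Prime) (hpM : ¬ p ∣ M),
      KummerCompat (ksQ1 M ℓ) (Tp p hp hpM) (repsT S hp hpM))
    (hD : ∀ d : (ZMod M)ˣ, KummerCompat (ksQ1 M ℓ) (Dia d) (repsD S d))
    (hTpG : ∀ (p : ℕ) (hp : p.Prime) (hpM : ¬ p ∣ M) (σ : GQ) (x : JF (L1 M).F₀),
      Tp p hp hpM (σ • x) = σ • Tp p hp hpM x)
    (hDiaG : ∀ (d : (ZMod M)ˣ) (σ : GQ) (x : JF (L1 M).F₀), Dia d (σ • x) = σ • Dia d x)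
    (h : ∀ (p : ℕ) (hp : p.Prime) (hpM : ¬ p ∣ M), p ≠ ℓ → ∀ A : ValuationSubring Qb,
      A.LiesOverPrime p →
        Nonempty (LocalInputs (L1 M).F₀ p A (Tp p hp hpM) (Dia (unitP hp hpM)))) :
    GeoInputs2 M ℓ :=
  geoInputs2OfK2 S (ksQ1 M ℓ) Tp Dia hT hD hTpG hDiaG (hlevel1 M ℓ) h

end Fermat.Agent.DS.G.Top.PlugL1
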