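/-
DS programme (S48), GEO half, brick GEO-FIN InstL1 (helper20): **the geometric inputs at the level
`L1 M` from the local inputs alone.**

With helper19's operators `T1 M p σ hσ`, `dia1 M σ hσ` on `J₁(M)(ℚ̄)` (`DS/G/HECKE/Top`), the Kummer
system `ksQ1 M ℓ` (`HEQ/KumSysQ`) and the plug `PlugL1.geoInputs2OfL1`:

* `A1_an_eq_anQ`, `hbr1` : the analytic model `A1 M` of G-HECKE and the realisation
  `anQ (modelC M)` of the Kummer chapter agree;
* `isKummerMap1` : the Kummer map `kumQ (modelC M)` of `ksQ1` is a Kummer map of `(±Γ₁(M), (A1 M).an)`;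
* `kummerCompat_T1`, `kummerCompat_dia1` : `T1`, `dia1` are Kummer-compatible with helper78's
  representatives `heckeRepsT`, `diamondReps` on `Γ₁(M)` (for the same matrix `σ`);
* `Tp1 M S`, `Dia1 M S` : the families of operators of a `SigmaChoice S`;
* **`geoInputs2_L1 M ℓ S hloc : GeoInputs2 M ℓ`** : everything discharged except the local inputs
  `hloc` (`TorsionGaloisQ.LocalInputs` at every `p ∤ M`, `p ≠ ℓ`, `A` over `p`) for
  `T := T1 M p (S.sT hp hpM)`, `Dm := dia1 M (S.sD (unitP hp hpM))`;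
* `geoInputs2_L1' M ℓ hloc` : the same for the coherent choice `S := SigmaOfD.choiceD M`, where both
  operators are built from the SAME matrix `σ = (choiceD M).sT hp hpM`.
-/
import Mathlib
import Fermat.Agent.DS.G.Top.PlugL1
import Fermat.Agent.DS.G.HECKE.Top
import Fermat.Agent.DS.Per1.SigmaOfD

set_option autoImplicit false
set_option linter.unusedSectionVars false
set_option linter.style.haveILetI false
set_option linter.style.longLine false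

open scoped MatrixGroups
open CongruenceSubgroup AlgebraicCurve ModularCurve

noncomputable section

namespace Fermat.Agent.DS.G.Top.InstL1

open Fermat.Agent.X0 Fermat.Agent.X0.SurjPoint
open Fermat.Agent.ES.J.TateModule13 Fermat.Agent.ES.J.TateChar11
open Fermat.Agent.ES.KUM (slMer)
open Fermat.Agent.DS.Per1.HeckeReps Fermat.Agent.DS.Per1.RepsGamma1
open Fermat.Agent.DS.Hecke1.Algebra Fermat.Agent.DS.Hecke1.HeckeT1
open Fermat.Agent.DS.G.Top.Inputs2 Fermat.Agent.DS.Per1.LatticeSide2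
open Fermat.Agent.DS.G.Top.TorsionGaloisQ Fermat.Agent.DS.G.Top.PlugK2
open Fermat.Agent.DS.G.Top.PlugL1
open Fermat.Agent.DS.G.Level Fermat.Agent.DS.X1.Level1 Fermat.Agent.DS.X1.KumGamma1
open Fermat.Agent.DS.G.HECKE.DescG Fermat.Agent.DS.G.HECKE.KumQG
open Fermat.Agent.DS.G.HECKE.Top Fermat.Agent.DS.G.HECKE.Gamma1pm51
open Fermat.Agent.DS.G.ES.KUM.Iface Fermat.Agent.DS.G.ES.KUM.CReal5
open Fermat.Agent.DS.G.ES.HEQ.KumSysQ Fermat.Agent.DS.G.ES.HEQ.KummerHeckeG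
open Fermat.Agent.DS.G.ES.HEQ.PmRestrict Fermat.Agent.DS.G.ES.HEQ.TateCharReps

local notation "GQ" => (AlgebraicClosure ℚ ≃ₐ[ℚ] AlgebraicClosure ℚ)

attribute [local instance] instAlgebraQbarComplex instTowerQbarComplex

variable (M : ℕ) [NeZero M]

/-! ### the two realisations agree -/

/-- The realisation of the model `A1 M` of G-HECKE is `anQ` of the model of the Kummer chapter. -/
theorem A1_an_eq_anQ : (A1 M).an = anQ (modelC M) :=
  A1_an_eq M (anQ (modelC M))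
    (Fermat.Agent.DS.G.HECKE.OfLevel.hasQExpMer_anQ_ofGens (L1 M) (gensC M))

theorem hbr1 (f : FQ (L1 M).F₀) : realMer (modelC M) (bcQC (L1 M).F₀ f) = (A1 M).an f := by
  rw [A1_an_eq_anQ]
  rfl

/-- The Kummer map of `ksQ1` is a Kummer map for `(±Γ₁(M), (A1 M).an)`. -/
theorem isKummerMap1 (n : ℕ) [NeZero n] [Finite ↥(Pic0.torsion ℂ (FCx (L1 M).F₀) n)] :
    IsKummerMap (Gamma1pm M) (A1 M).an n
      (kumQ (modelC M) (isGen_jQ1 M) (Fermat.Agent.DS.G.ES.KUM.Final.hgen (modelC M)) n) :=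
  Fermat.Agent.DS.G.ES.HEQ.CompatG.isKummerMap_kumQ (modelC M) (isGen_jQ1 M)
    (Fermat.Agent.DS.G.ES.KUM.Final.hgen (modelC M)) n (A1 M).an (hbr1 M)

/-! ### Kummer compatibility of `T1`, `dia1` -/

variable (ℓ : ℕ) [hℓ : Fact ℓ.Prime]

/-- `T1` and the restricted Kummer characters. -/
theorem kum_T1_restrict {p : ℕ} [Fact p.Prime] (hpM : ¬ p ∣ M) (σ : SL(2, ℤ))
    (hσ : σ ∈ Gamma0 M) (hσp : ((σ 1 1 : ℤ) : ZMod M) = (p : ZMod M)) {n : ℕ}
    {κ : ↥(Pic0.torsion Kbar (FFL (L1 M)) n) → (Gamma1pm M →* ℂˣ)}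
    (hκ : IsKummerMap (Gamma1pm M) (A1 M).an n κ) (x : ↥(Pic0.torsion Kbar (FFL (L1 M)) n))
    (hfx : T1 M p σ hσ (x : JL (L1 M)) ∈ Pic0.torsion Kbar (FFL (L1 M)) n) :
    (κ ⟨T1 M p σ hσ (x : JL (L1 M)), hfx⟩).comp (Subgroup.inclusion (Gamma1_le_Gamma1pm M)) =
    (heckeRepsT M hpM σ hσ hσp).dMul
      ((κ x).comp (Subgroup.inclusion (Gamma1_le_Gamma1pm M))) := by
  rw [← dMul_heckeRepsTpm_restrict, ← kummer_T1 M hpM σ hσ hσp hκ x]

/-- `dia1` and the restricted Kummer characters. -/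
theorem kum_dia1_restrict (σ : SL(2, ℤ)) (hσ : σ ∈ Gamma0 M) {n : ℕ}
    {κ : ↥(Pic0.torsion Kbar (FFL (L1 M)) n) → (Gamma1pm M →* ℂˣ)}
    (hκ : IsKummerMap (Gamma1pm M) (A1 M).an n κ) (x : ↥(Pic0.torsion Kbar (FFL (L1 M)) n))
    (hfx : dia1 M σ hσ (x : JL (L1 M)) ∈ Pic0.torsion Kbar (FFL (L1 M)) n) :
    (κ ⟨dia1 M σ hσ (x : JL (L1 M)), hfx⟩).comp (Subgroup.inclusion (Gamma1_le_Gamma1pm M)) =
    (diamondReps M σ hσ).dMul
      ((κ x).comp (Subgroup.inclusion (Gamma1_le_Gamma1pm M))) := by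
  rw [← dMul_diamondRepsPm_restrict, ← kummer_dia1 M σ hσ hκ x]

/-- **`T1 M p σ` is Kummer-compatible with `heckeRepsT M hpM σ`** (on `Γ₁(M)`). -/
theorem kummerCompat_T1 {p : ℕ} [Fact p.Prime] (hpM : ¬ p ∣ M) (σ : SL(2, ℤ))
    (hσ : σ ∈ Gamma0 M) (hσp : ((σ 1 1 : ℤ) : ZMod M) = (p : ZMod M)) :
    KummerCompat (ksQ1 M ℓ) (T1 M p σ hσ) (heckeRepsT M hpM σ hσ hσp) := by
  intro k x hfx
  haveI : NeZero (ℓ ^ k) := ⟨pow_ne_zero k hℓ.out.ne_zero⟩
  haveI : Finite ↥(Pic0.torsion ℂ (FCx (L1 M).F₀) (ℓ ^ k)) := finiteC (modelC M) (ℓ ^ k)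
  apply Additive.toMul.injective
  rw [toMul_dX]
  exact kum_T1_restrict M hpM σ hσ hσp (isKummerMap1 M (ℓ ^ k)) x hfx

/-- **`dia1 M σ` is Kummer-compatible with `diamondReps M σ`** (on `Γ₁(M)`). -/
theorem kummerCompat_dia1 (σ : SL(2, ℤ)) (hσ : σ ∈ Gamma0 M) :
    KummerCompat (ksQ1 M ℓ) (dia1 M σ hσ) (diamondReps M σ hσ) := by
  intro k x hfx
  haveI : NeZero (ℓ ^ k) := ⟨pow_ne_zero k hℓ.out.ne_zero⟩
  haveI : Finite ↥(Pic0.torsion ℂ (FCx (L1 M).F₀) (ℓ ^ k)) := finiteC (modelC M) (ℓ ^ k)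
  apply Additive.toMul.injective
  rw [toMul_dX]
  exact kum_dia1_restrict M σ hσ (isKummerMap1 M (ℓ ^ k)) x hfx

/-! ### the operators of a choice of matrices -/

/-- `T_p` on `J₁(M)` for the matrix `S.sT hp hpM`. -/
def Tp1 (S : SigmaChoice M) (p : ℕ) (hp : p.Prime) (hpM : ¬ p ∣ M) :
    JF (L1 M).F₀ →+ JF (L1 M).F₀ :=
  haveI : Fact p.Prime := ⟨hp⟩
  T1 M p (S.sT hp hpM) (S.sT_mem hp hpM)

/-- `⟨d⟩` on `J₁(M)` for the matrix `S.sD d`. -/
def Dia1 (S : SigmaChoice M) (d : (ZMod M)ˣ) : JF (L1 M).F₀ →+ JF (L1 M).F₀ :=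
  dia1 M (S.sD d) (S.sD_mem d)

theorem Tp1_eq (S : SigmaChoice M) (p : ℕ) [Fact p.Prime] (hp : p.Prime) (hpM : ¬ p ∣ M) :
    Tp1 M S p hp hpM = T1 M p (S.sT hp hpM) (S.sT_mem hp hpM) := rfl

/-- **The geometric inputs at the level `L1 M`**, from the local inputs alone. -/
def geoInputs2_L1 (S : SigmaChoice M)
    (hloc : ∀ (p : ℕ) (hp : p.Prime) (hpM : ¬ p ∣ M), p ≠ ℓ → ∀ A : ValuationSubring Qb,
      A.LiesOverPrime p →
        Nonempty (LocalInputs (L1 M).F₀ p A (Tp1 M S p hp hpM) (Dia1 M S (unitP hp hpM)))) :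
    GeoInputs2 M ℓ :=
  geoInputs2OfL1 M ℓ S (Tp1 M S) (Dia1 M S)
    (fun _ _ hp hpM => kummerCompat_T1 M ℓ hpM (S.sT hp hpM) (S.sT_mem hp hpM) (S.sT_lr hp hpM))
    (fun d => kummerCompat_dia1 M ℓ (S.sD d) (S.sD_mem d))
    (fun p hp hpM τ x =>
      haveI : Fact p.Prime := ⟨hp⟩
      T1_galois M p (S.sT hp hpM) (S.sT_mem hp hpM) τ x)
    (fun d τ x => dia1_galois M (S.sD d) (S.sD_mem d) τ x)
    hloc

/-- The same for the coherent choice `choiceD M`: `T_p` and the diamond `⟨p⟩` of the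
Eichler--Shimura relation are built from the SAME matrix `σ_p = (choiceD M).sT hp hpM`. -/
def geoInputs2_L1'
    (hloc : ∀ (p : ℕ) [Fact p.Prime] (hp : p.Prime) (hpM : ¬ p ∣ M), p ≠ ℓ →
      ∀ A : ValuationSubring Qb, A.LiesOverPrime p →
        Nonempty (LocalInputs (L1 M).F₀ p A
          (T1 M p ((Fermat.Agent.DS.Per1.SigmaOfD.choiceD M).sT hp hpM)
            ((Fermat.Agent.DS.Per1.SigmaOfD.choiceD M).sT_mem hp hpM))
          (dia1 M ((Fermat.Agent.DS.Per1.SigmaOfD.choiceD M).sT hp hpM)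
            ((Fermat.Agent.DS.Per1.SigmaOfD.choiceD M).sT_mem hp hpM)))) :
    GeoInputs2 M ℓ :=
  geoInputs2_L1 M ℓ (Fermat.Agent.DS.Per1.SigmaOfD.choiceD M)
    (fun p hp hpM hpℓ A hA =>
      haveI : Fact p.Prime := ⟨hp⟩
      hloc p hp hpM hpℓ A hA)

end Fermat.Agent.DS.G.Top.InstL1
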