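/-
DS programme (S48), GEO half, final wiring (helper71): **the frozen statement S48 from the local
inputs alone.**

`LocalStatement` is the only remaining geometric input: for every level `M` divisible by `4` or by
`9`, every prime `p ∤ M`, every valuation subring `A` of `ℚ̄` over `p` and every `σ ∈ Γ₀(M)` with
lower right entry `≡ p`, the package `TorsionGaloisQ.LocalInputs` (reduction of places and of
`Pic⁰`, Eichler--Shimura on divisors with diamond, (R3), (Φ3)) for the operators `T1 M p σ`,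
`dia1 M σ` of `HECKE/Top` on `J₁(M)(ℚ̄)` (target of `G/Top/LocalInst.lean`).

Everything else is landed and unconditional: `InstL1.geoInputs2_L1'` (helper20: Kummer system,
comparison with the lattice, Kummer and Galois equivariance of `T1`, `dia1`, open stabiliser),
`Dim/Top.wt2AutStable_all` (G-DIM, helper2/helper26), `Asm/GeoFinal.s48_of_geoInputs2`.
-/
import Mathlib
import Fermat.Agent.DS.Asm.GeoFinal
import Fermat.Agent.DS.G.Dim.Top
import Fermat.Agent.DS.G.Top.InstL1

set_option autoImplicit false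
set_option linter.unusedSectionVars false
set_option linter.style.longLine false

open scoped MatrixGroups
open CongruenceSubgroup

noncomputable section

namespace Fermat.Agent.DS.G.Top.Final

open Fermat.Agent.DS.G.Top.Inputs2 Fermat.Agent.DS.G.Top.TorsionGaloisQ
open Fermat.Agent.DS.G.Top.InstL1 Fermat.Agent.DS.G.HECKE.Top
open Fermat.Agent.DS.X1.Level1 Fermat.Agent.DS.Per1.SigmaOfD

local notation "Qb" => AlgebraicClosure ℚ
local notation "Γℚ" => (AlgebraicClosure ℚ ≃ₐ[ℚ] AlgebraicClosure ℚ)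

/-- **The local statement** at the level `L1 M` (`4 ∣ M` or `9 ∣ M`). -/
def LocalStatement : Prop :=
  ∀ (M : ℕ) [NeZero M], (4 ∣ M ∨ 9 ∣ M) → ∀ (p : ℕ) [Fact p.Prime], ¬ p ∣ M →
    ∀ A : ValuationSubring Qb, A.LiesOverPrime p →
      ∀ (σ : SL(2, ℤ)) (hσ : σ ∈ Gamma0 M), ((σ 1 1 : ℤ) : ZMod M) = (p : ZMod M) →
        Nonempty (LocalInputs (L1 M).F₀ p A (T1 M p σ hσ) (dia1 M σ hσ))

/-- the geometric inputs at every level divisible by `4` or `9`. -/
theorem geoInputs2_of_local (h : LocalStatement) (M : ℕ) [NeZero M] (hM : 4 ∣ M ∨ 9 ∣ M)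
    (ℓ : ℕ) [Fact ℓ.Prime] : Nonempty (GeoInputs2 M ℓ) :=
  ⟨geoInputs2_L1' M ℓ (fun p _ hp hpM _ A hA =>
    h M hM p hpM A hA ((choiceD M).sT hp hpM) ((choiceD M).sT_mem hp hpM)
      ((choiceD M).sT_lr hp hpM))⟩

/-- **The frozen statement S48 from the local statement.** -/
theorem s48_of_local (h : LocalStatement)
    (N : ℕ) [NeZero N] (ε : DirichletCharacter ℂ N) (f : CuspForm (Gamma1 N) 1)
    (hf₁ : ModularFormClass.qCoeff f 1 = 1)
    (hT : ∀ p : ℕ, p.Prime → ¬ p ∣ N → ∀ n : ℕ,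
        ModularFormClass.qCoeff f (p * n) +
            ε (p : ZMod N) * (if p ∣ n then ModularFormClass.qCoeff f (n / p) else 0) =
          ModularFormClass.qCoeff f p * ModularFormClass.qCoeff f n) :
    ∃ ρ : Γℚ →* GL (Fin 2) ℂ, GaloisFactorsThroughFiniteLevel ρ ∧
      (Deformation.matrixRepresentation ρ).IsIrreducible ∧
      ∀ p : ℕ, p.Prime → ¬ p ∣ N →
        ∀ A : ValuationSubring (AlgebraicClosure ℚ), A.LiesOverPrime p →
          (∀ σ ∈ A.inertiaSubgroupIn ℚ, ρ σ = 1) ∧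
          ∀ σ : Γℚ, A.IsFrobeniusAt σ p →
            ((ρ σ : GL (Fin 2) ℂ) : Matrix (Fin 2) (Fin 2) ℂ).trace = ModularFormClass.qCoeff f p ∧
            ((ρ σ : GL (Fin 2) ℂ) : Matrix (Fin 2) (Fin 2) ℂ).det = ε (p : ZMod N) :=
  Fermat.Agent.DS.Asm.GeoFinal.s48_of_geoInputs2
    (fun M _ h4 ℓ _ _ => geoInputs2_of_local h M (Or.inl h4) ℓ)
    (fun M _ h9 ℓ _ _ => geoInputs2_of_local h M (Or.inr h9) ℓ)
    Fermat.Agent.DS.G.Dim.Top.wt2AutStable_all N ε f hf₁ hT

end Fermat.Agent.DS.G.Top.Final
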