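/-
DS programme (S48), GEO half, brick GEO-FIN-LOCALINST, plug (P4) (helper16): the fields `hI`, `hFr`
of `TorsionGaloisQ.LocalInputs` — **(R3): inertia acts trivially on the reduced places, a Frobenius
element acts as the Frobenius of the special fibre** — for the level `L1 M` (`F₀ = (X1gens M).FQ`),
as ONE application of the E03 twins (`DS/G/ES/RED/GaloisInst21`: `r_smul_of_mem_inertia'`,
`r_smul_of_isFrobeniusAt'`).

Inputs (from the chart owners): a two-chart reduction datum `T : TwoCharts A hx ((X1gens M).FC κ_A)`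
for a generator `x` of `ℚ̄ · F₀`, a generator `xt` of the special fibre field, and the two
`CoeffChart` packages `h0`, `h1` (the charts are coefficientwise).  The instances
`IsAlgClosed κ_A`, `ExpChar κ_A p`, `PerfectField κ_A` are provided from `A.LiesOverPrime p`.
Stated for a general generator datum `D : GenData` and specialised to `D = X1gens M`
(`(L1 M).F₀ = (X1gens M).FQ` by `rfl`).
-/
import Mathlib
import Fermat.Agent.DS.G.ES.RED.GaloisInst21
import Fermat.Agent.DS.G.Top.TorsionGaloisQ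
import Fermat.Agent.DS.X1.Level1
import Fermat.Agent.ES.KRON.KronInst10

set_option autoImplicit false
set_option linter.unusedSectionVars false

noncomputable section

open AlgebraicCurve ModularCurve

namespace Fermat.Agent.DS.G.Top.GalRedInst

open Fermat.Agent.X0.FF Fermat.Agent.ES.RED.Contract8 Fermat.Agent.ES.RED.TwoCharts8
  Fermat.Agent.DS.G.ES.RED.GaloisInst21 Fermat.Agent.DS.G.ES.KRON.FrobPlace13
  Fermat.Agent.DS.G.ES.RED.Iface Fermat.Agent.DS.G.Level Fermat.Agent.DS.X1.Level1
  Fermat.Agent.DS.G.Top.TorsionGaloisQ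

local notation "Qb" => AlgebraicClosure ℚ
local notation "GQ" => (AlgebraicClosure ℚ ≃ₐ[ℚ] AlgebraicClosure ℚ)

/-! ### the residue field of a valuation subring of `ℚ̄` over `p` -/

section Residue

variable (A : ValuationSubring Qb)

/-- `κ_A` is algebraically closed. -/
theorem isAlgClosed_kA : IsAlgClosed (kA A) :=
  Fermat.Agent.ES.KRON.KronInst10.isAlgClosed_residueField A

/-- `κ_A` is perfect. -/
theorem perfectField_kA : PerfectField (kA A) :=
  haveI := isAlgClosed_kA A
  inferInstance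

/-- `κ_A` has characteristic `p` when `A` lies over `p`. -/
theorem charP_kA {p : ℕ} (hp : p.Prime) (hA : A.LiesOverPrime p) : CharP (kA A) p :=
  Fermat.Agent.ES.KRON.KronInst10.charP_residueField A hp hA

/-- `κ_A` has exponential characteristic `p` when `A` lies over `p`. -/
theorem expChar_kA {p : ℕ} (hp : p.Prime) (hA : A.LiesOverPrime p) : ExpChar (kA A) p :=
  haveI := charP_kA A hp hA
  ExpChar.prime hp

end Residue

/-! ### (R3) for a generator datum -/

section Gen

variable {A : ValuationSubring Qb} {D : GenData}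
  {x : ↥(laurentBaseChange Qb D.FQ)} {hx : IsGen Qb x}
  (T : TwoCharts A hx ↥(D.FC (kA A)))
  {xt : ↥(D.FC (kA A))} (hxt : IsGen (kA A) xt)
  (h0 : CoeffChart (F₀ := D.FQ) T.S0) (h1 : CoeffChart (F₀ := D.FQ) T.S1)

include hxt h0 h1 in
/-- **(R3), inertia**, in the shape of `LocalInputs.hI` (`F₀ := D.FQ`, `r := T.r`). -/
theorem hI_gen : ∀ τ ∈ A.inertiaSubgroupIn ℚ, ∀ P : Place Qb (FFb D.FQ),
    T.r (arithmeticGalois D.FQ τ • P) = T.r P := by
  haveI := isAlgClosed_kA A
  intro τ hτ P
  exact r_smul_of_mem_inertia' T hxt h0 h1 hτ P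

include hxt h0 h1 in
/-- **(R3), Frobenius**, in the shape of `LocalInputs.hFr` (`F₀ := D.FQ`, `r := T.r`,
`Fr := frobSemi κ_A p D`). -/
theorem hFr_gen {p : ℕ} (hp : p.Prime) (hA : A.LiesOverPrime p) :
    haveI := expChar_kA A hp hA
    haveI := perfectField_kA A
    ∀ σ : GQ, A.IsFrobeniusAt σ p → ∀ P : Place Qb (FFb D.FQ),
      T.r (arithmeticGalois D.FQ σ • P) = frobSemi (kA A) p D • T.r P := by
  haveI := isAlgClosed_kA A
  haveI := expChar_kA A hp hA
  haveI := perfectField_kA A
  intro σ hσ P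
  exact r_smul_of_isFrobeniusAt' T hxt h0 h1 hσ P

end Gen

/-! ### the instance `L1 M` -/

section L1

variable (M : ℕ) [NeZero M] {A : ValuationSubring Qb}
  {x : ↥(laurentBaseChange Qb (X1gens M).FQ)} {hx : IsGen Qb x}
  (T : TwoCharts A hx ↥((X1gens M).FC (kA A)))
  {xt : ↥((X1gens M).FC (kA A))} (hxt : IsGen (kA A) xt)
  (h0 : CoeffChart (F₀ := (X1gens M).FQ) T.S0) (h1 : CoeffChart (F₀ := (X1gens M).FQ) T.S1)

include hxt h0 h1 in
/-- **`LocalInputs.hI` for `L1 M`.** -/
theorem hI_L1 : ∀ τ ∈ A.inertiaSubgroupIn ℚ, ∀ P : Place Qb (FFb (L1 M).F₀),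
    T.r (arithmeticGalois (L1 M).F₀ τ • P) = T.r P :=
  hI_gen (D := X1gens M) T hxt h0 h1

include hxt h0 h1 in
/-- **`LocalInputs.hFr` for `L1 M`.** -/
theorem hFr_L1 {p : ℕ} (hp : p.Prime) (hA : A.LiesOverPrime p) :
    haveI := expChar_kA A hp hA
    haveI := perfectField_kA A
    ∀ σ : GQ, A.IsFrobeniusAt σ p → ∀ P : Place Qb (FFb (L1 M).F₀),
      T.r (arithmeticGalois (L1 M).F₀ σ • P) = frobSemi (kA A) p (X1gens M) • T.r P :=
  hFr_gen (D := X1gens M) T hxt h0 h1 hp hA

end L1

end Fermat.Agent.DS.G.Top.GalRedInst
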