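/-
DS programme (S48), GEO last mile, plug (P3) of `LocalInst` (helper57), part A: **the norm identity
(KRON-C) at the level `L1 M = ±Γ₁(M)` for the inverse of the diamond automorphism of `σ`**.

For `p ∤ M`, `σ ∈ Γ₀(M)` with lower right entry `σ₁₁ ≡ p mod M`, and the Hecke pair
`P = heckePair_up (L1 M) p` with the degeneracy embeddings `α = alphaG ℚbar P`, `β = betaG ℚbar P`:

* `finrankAlong_alphaG_L1`, `finrankAlong_betaG_L1` : both degeneracy embeddings have degree `p + 1`;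
* `inv_mul_inv_mem_Gamma1pm` : `σ⁻¹ γ⁻¹ ∈ ±Γ₁(M)` when `γ ∈ Γ₀(M)` has `γ₀₀ ≡ p`;
* `dia_eq_dia_symm` : the diamond of such a `γ` is the inverse of the diamond of `σ`;
* `normIdentity_L1` : `NormIdentity p α β (fun f => (dia (A1 M) σ (acts1 M hσ)).symm f)`, i.e.

    `N_α(β f)(q^p) = ∏_b ((dia σ)⁻¹ f)(ζ^b q) · f(q^{p²})`,

  from helper90's `ConjStable90.kron_alpha_L1'` and helper34's `DiaIdent.dia_eq_of_hasQExp`.
-/
import Mathlib
import Fermat.Agent.DS.G.ES.KRON.ConjPlug90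
import Fermat.Agent.DS.G.ES.KRON.KronInputOf
import Fermat.Agent.DS.G.HECKE.DiaIdent
import Fermat.Agent.DS.G.HECKE.Top
import Fermat.Agent.DS.G.HECKE.UpIndex31
import Fermat.Agent.DS.G.HECKE.DegAlong

set_option autoImplicit false
set_option linter.unusedSectionVars false
set_option linter.style.haveILetI false

noncomputable section

open AlgebraicCurve ModularCurve HahnSeries IntermediateField CongruenceSubgroup
open scoped MatrixGroups

namespace Fermat.Agent.DS.G.Top.KronNormL1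

open Fermat.Agent.X0 Fermat.Agent.X0.FF Fermat.Agent.X0.Analytic
open Fermat.Agent.DS.G.Level
open Fermat.Agent.DS.X1.Level1 Fermat.Agent.DS.X1.Inst13 Fermat.Agent.DS.X1.AnalyticGens13
open Fermat.Agent.DS.G.HECKE Fermat.Agent.DS.G.HECKE.Iface Fermat.Agent.DS.G.HECKE.Diamond
open Fermat.Agent.DS.G.HECKE.UpLevel Fermat.Agent.DS.G.HECKE.LevelPack
open Fermat.Agent.DS.G.HECKE.Top Fermat.Agent.DS.G.HECKE.Gamma1pm51
open Fermat.Agent.DS.G.ES.KRON.KronInputOf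

variable (M : ℕ) [NeZero M] {p : ℕ} [hp : Fact p.Prime]

/-! ### The degrees of the degeneracy embeddings -/

/-- `deg α = p + 1`. -/
theorem finrankAlong_alphaG_L1 (hpM : ¬ p ∣ M) :
    haveI : NeZero p := ⟨hp.out.ne_zero⟩
    finrankAlong Kbar (alphaG Kbar (heckePair_up (p := p) (L1 M))) = p + 1 := by
  haveI : NeZero p := ⟨hp.out.ne_zero⟩
  refine UpIndex31.finrankAlong_eq_succ_Gamma1pm (alphaG Kbar (heckePair_up (p := p) (L1 M))) M hpM
    (Subgroup.FiniteIndex.index_ne_zero (H := (up (L1 M) p).Gam)) (jFL (L1 M))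
    (finrank_jFL (analyticGensK M)) ?_
  rw [alphaG_jFL]
  exact finrank_up (analyticGensK M)

/-- `j` of the level pack is the `j` of `DegAlong`. -/
theorem jFL_eq_jF (L : LevelData) : jFL L = DegAlong.jF Kbar L.jq_mem_F₀ :=
  Subtype.ext ((coe_jFc L Kbar).trans (DegAlong.coe_jF' Kbar L.jq_mem_F₀).symm)

/-- `[ℚbar·F₀ : ℚbar(j)]` as a `relfinrank`. -/
theorem relfinrank_jq {L : LevelData} (G : AnalyticGens L Kbar iotaK) :
    relfinrank Kbar⟮jqModC Kbar⟯ (laurentBaseChange Kbar L.F₀) = L.Gam.index := by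
  have h1 := DegAlong.finrank_jF Kbar L.jq_mem_F₀
  have h2 := finrank_jFL G
  rw [jFL_eq_jF] at h2
  exact h1.symm.trans h2

/-- `deg β = p + 1`. -/
theorem finrankAlong_betaG_L1 (hpM : ¬ p ∣ M) :
    haveI : NeZero p := ⟨hp.out.ne_zero⟩
    finrankAlong Kbar (betaG Kbar (heckePair_up (p := p) (L1 M))) = p + 1 := by
  haveI : NeZero p := ⟨hp.out.ne_zero⟩
  rw [DegAlong.finrankAlong_betaG_eq_relIndex Kbar (heckePair_up (p := p) (L1 M)) (Gamma1pm M)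
    (upGam (Gamma1pm M) p) hp.out (upGam_le (Gamma1pm M))
    (Subgroup.FiniteIndex.index_ne_zero (H := (L1 M).Gam)) (L1 M).jq_mem_F₀
    (relfinrank_jq (analyticGensK M)) (relfinrank_jq (upGensK (p := p) (analyticGensK M))),
    UpIndex31.relIndex_upGam_Gamma1pm M hpM]

/-! ### The diamond of `γ` with `γ₀₀ ≡ σ₁₁` is the inverse of the diamond of `σ` -/

/-- `γ σ ∈ Γ₁(M)` for `σ, γ ∈ Γ₀(M)` with `γ₀₀ ≡ σ₁₁ mod M`. -/
theorem mul_mem_Gamma1 {σ γ : SL(2, ℤ)} (hσ : σ ∈ Gamma0 M) (hγ : γ ∈ Gamma0 M)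
    (h : ((γ 0 0 : ℤ) : ZMod M) = ((σ 1 1 : ℤ) : ZMod M)) : γ * σ ∈ Gamma1 M := by
  have hσ10 : ((σ 1 0 : ℤ) : ZMod M) = 0 := Gamma0_mem.mp hσ
  have hγ10 : ((γ 1 0 : ℤ) : ZMod M) = 0 := Gamma0_mem.mp hγ
  have hdσ := diag_mul_eq_one M hσ
  have hdγ := diag_mul_eq_one M hγ
  have e00 : ((γ * σ : SL(2, ℤ)) 0 0 : ℤ) = γ 0 0 * σ 0 0 + γ 0 1 * σ 1 0 := by
    simp [Matrix.SpecialLinearGroup.coe_mul, Matrix.mul_apply, Fin.sum_univ_two]
  have e11 : ((γ * σ : SL(2, ℤ)) 1 1 : ℤ) = γ 1 0 * σ 0 1 + γ 1 1 * σ 1 1 := by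
    simp [Matrix.SpecialLinearGroup.coe_mul, Matrix.mul_apply, Fin.sum_univ_two]
  have e10 : ((γ * σ : SL(2, ℤ)) 1 0 : ℤ) = γ 1 0 * σ 0 0 + γ 1 1 * σ 1 0 := by
    simp [Matrix.SpecialLinearGroup.coe_mul, Matrix.mul_apply, Fin.sum_univ_two]
  rw [Gamma1_mem]
  refine ⟨?_, ?_, ?_⟩
  · rw [e00]
    push_cast
    rw [hσ10, mul_zero, add_zero, h, mul_comm]
    exact hdσ
  · rw [e11]
    push_cast
    rw [hγ10, zero_mul, zero_add, ← h, mul_comm]
    exact hdγ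
  · rw [e10]
    push_cast
    rw [hγ10, hσ10, zero_mul, mul_zero, add_zero]

/-- the diamond of `γ` is the inverse of the diamond of `σ`. -/
theorem dia_eq_dia_symm {σ γ : SL(2, ℤ)} (hσ : σ ∈ Gamma0 M) (hγ : γ ∈ Gamma0 M)
    (h : ((γ 0 0 : ℤ) : ZMod M) = ((σ 1 1 : ℤ) : ZMod M)) (f : FFK (L1 M).F₀) :
    dia (A1 M) γ (acts1 M hγ) f = (dia (A1 M) σ (acts1 M hσ)).symm f := by
  have hmem : γ * σ ∈ (A1 M).Gam := Gamma1_le_Gamma1pm M (mul_mem_Gamma1 M hσ hγ h)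
  have hst : Acts (A1 M) (γ * σ) := (acts1 M hγ).mul (acts1 M hσ)
  have h1 := dia_mul (A1 M) (acts1 M hγ) (acts1 M hσ) hst f
  rw [dia_of_mem (A1 M) hmem hst] at h1
  rw [AlgEquiv.eq_symm_apply]
  exact h1.symm

/-! ### The norm identity -/

/-- **(KRON-C) at `±Γ₁(M)` for the inverse diamond of `σ`, `σ₁₁ ≡ p`.** -/
theorem normIdentity_L1 (hpM : ¬ p ∣ M) {σ : SL(2, ℤ)} (hσ : σ ∈ Gamma0 M)
    (hσp : ((σ 1 1 : ℤ) : ZMod M) = (p : ZMod M)) :
    haveI : NeZero p := ⟨hp.out.ne_zero⟩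
    NormIdentity p (alphaG Kbar (heckePair_up (p := p) (L1 M)))
      (betaG Kbar (heckePair_up (p := p) (L1 M)))
      (fun f => (dia (A1 M) σ (acts1 M hσ)).symm f) := by
  haveI : NeZero p := ⟨hp.out.ne_zero⟩
  have hfin : FiniteAlong Kbar (alphaG Kbar (heckePair_up (p := p) (L1 M))) :=
    Inputs.finiteAlong_of_isGen _ (isGen_jFL (analyticGensK M)) (isGen_up (analyticGensK M))
  obtain ⟨γ, hγ, hγ00, dia', hq, -, -, hnorm⟩ :=
    Fermat.Agent.DS.G.ES.KRON.ConjStable90.kron_alpha_L1' M (iotaK_zetaK1 M)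
      (L' := up (L1 M) p)
      (alphaG Kbar (heckePair_up (p := p) (L1 M))) (betaG Kbar (heckePair_up (p := p) (L1 M)))
      (fun x => coe_alphaG Kbar _ x) (fun x => coe_betaG Kbar _ x) hp.out hpM le_rfl hfin
      (finrankAlong_alphaG_L1 M hpM)
  have hdia : ∀ f, dia' f = (dia (A1 M) σ (acts1 M hσ)).symm f := by
    intro f
    rw [← dia_eq_dia_symm M hσ hγ (hγ00.trans hσp.symm) f]
    exact (DiaIdent.dia_apply_eq_of_hasQExp (A1 M) (analyticGensC M) (acts1 M hγ)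
      (fun g => Fermat.Agent.DS.G.ES.KRON.ConjStable90.perm_gFun M hγ g) dia' hq f).symm
  intro ζ hζ f
  have h := hnorm ζ hζ f
  rw [hdia f] at h
  exact h

end Fermat.Agent.DS.G.Top.KronNormL1
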