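/-
DS programme (S48), GEO last mile, plug (P3) of `LocalInst` (helper57), GENERIC part: **the Kronecker
congruence `hK` of `LocalInst.LocalHyps` / `TorsionGaloisKron.localInputsOfKronDia`**, from the chart
inputs of the reduction chapter (the instance at `L1 M` is `DS/G/Top/KronInst.lean`).

* `hK_of_chartInputs` (generic in the Hecke pair `P : HeckePair D.FQ F₀' p` and the generator datum
  `D : GenData`): for a two-chart model `T : TwoCharts A hx (D.FC (kA A))` with `ChartInputs` on both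
  charts and the norm identity `NormIdentity p α β dia'` (KRON-C),

    `r_* (α_* β^* X) = (φ * δ) • r_* X + p • φ⁻¹ • r_* X`,   `r = T.r`,

  where `φ` is the coefficientwise Frobenius and `δ` the reduction of `dia'`.  This is helper3's
  `EsDivFinal24.es_div_final` with the Hecke inputs discharged from the generators (`Inputs`), in
  helper54's `hK` shape (`Fr := φ`, `dt := δ⁻¹`).

* `hK_L1` : the instance at `L1 M = ±Γ₁(M)`, `p ∤ M`, `σ ∈ Γ₀(M)` with `σ₁₁ ≡ p`: `dia'` is the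
  inverse of the diamond of `σ` (`KronNormL1.normIdentity_L1`), `φ = frobSemi (kA A) p (X1gens M)`,
  conclusion for `TopG.CpDiv (analyticGensK M) p`.

* `hK_L1_of_coeffChart` : the same with `δ := DiaPlaceInst.reducedDia T hC0 (dia σ).symm hs hfrac`
  (helper95), all chart hypotheses discharged from `CoeffChart` + `ChartInputs`, and `hfixφ` from
  `red s = tq`.
-/
import Mathlib
import Fermat.Agent.DS.G.ES.KRON.EsDivFinal24
import Fermat.Agent.DS.G.ES.RED.DiaPlaceInst
import Fermat.Agent.DS.G.ES.RED.FrobPoles13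
import Fermat.Agent.DS.G.ES.RED.SpecialGen25
import Fermat.Agent.DS.G.HECKE.Inputs
import Fermat.Agent.DS.G.HECKE.Iface
import Fermat.Agent.DS.G.HECKE.TopG
import Fermat.Agent.DS.G.Top.KronNormL1
import Fermat.Agent.ES.RED.ChartSpecOfChart18

set_option autoImplicit false
set_option linter.unusedSectionVars false
set_option linter.style.haveILetI false

noncomputable section

open AlgebraicCurve ModularCurve HahnSeries IntermediateField CongruenceSubgroup
open scoped MatrixGroups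

namespace Fermat.Agent.DS.G.Top.KronGen

open Fermat.Agent.X0 Fermat.Agent.X0.FF
open Fermat.Agent.ES.RED.Contract8 Fermat.Agent.ES.RED.TwoCharts8
open Fermat.Agent.DS.G.ES.RED.Iface Fermat.Agent.DS.G.ES.RED.RedMain15
open Fermat.Agent.DS.G.RED.Defs
open Fermat.Agent.DS.G.ES.KRON.KronInputOf
open Fermat.Agent.DS.G.ES.KRON.FrobPlace13
open Fermat.Agent.DS.G.HECKE.Iface Fermat.Agent.DS.G.HECKE
open Fermat.Agent.DS.G.HECKE.Diamond Fermat.Agent.DS.G.HECKE.Top Fermat.Agent.DS.G.HECKE.TopG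
open Fermat.Agent.DS.G.HECKE.UpLevel Fermat.Agent.DS.G.HECKE.LevelPack
open Fermat.Agent.DS.X1.Level1 Fermat.Agent.DS.X1.Inst13

local notation "Qb" => AlgebraicClosure ℚ

/-! ### The generic form -/

section Generic

variable {p : ℕ} [hp : Fact p.Prime]
variable {A : ValuationSubring Qb} [CharP (kA A) p] [IsAlgClosed (kA A)]
variable {D : GenData} {F₀' : IntermediateField ℚ (LaurentSeries ℚ)}
variable {x : ↥(laurentBaseChange Qb D.FQ)} {hx : IsGen Qb x}
variable {x₁ : ↥(laurentBaseChange Qb D.FQ)} (hx₁ : IsGen Qb x₁)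
variable {x' : ↥(laurentBaseChange Qb F₀')} (hx' : IsGen Qb x')

/-- **(P3), generic form**: the Kronecker congruence on divisors for the reduction map of a two-chart
model satisfying `ChartInputs`, in helper54's `hK` shape (`Fr := φ`, `dt := δ⁻¹`). -/
theorem hK_of_chartInputs
    (P : haveI : NeZero p := ⟨hp.out.ne_zero⟩; HeckePair D.FQ F₀' p)
    (T : TwoCharts A hx ↥(D.FC (kA A)))
    (h0 : ChartInputs A D.FQ (D.FC (kA A)) T.S0) (h1 : ChartInputs A D.FQ (D.FC (kA A)) T.S1)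
    (hintU0 : ∀ Pl : Place Qb ↥(laurentBaseChange Qb D.FQ), T.S0.s ∈ Pl.toValuationSubring →
      ∀ b ∈ T.S0.B, b ∈ Pl.toValuationSubring)
    (hintU1 : ∀ Pl : Place Qb ↥(laurentBaseChange Qb D.FQ), T.S1.s ∈ Pl.toValuationSubring →
      ∀ b ∈ T.S1.B, b ∈ Pl.toValuationSubring)
    (dia' : ↥(laurentBaseChange Qb D.FQ) → ↥(laurentBaseChange Qb D.FQ))
    (hnorm : haveI : NeZero p := ⟨hp.out.ne_zero⟩;
      NormIdentity p (alphaG Qb P) (betaG Qb P) dia')
    (hnβ : haveI : NeZero p := ⟨hp.out.ne_zero⟩; finrankAlong Qb (betaG Qb P) = p + 1)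
    (φ δ : SemilinearAut (kA A) ↥(D.FC (kA A)))
    (hφ : ∀ g : ↥(D.FC (kA A)), ((φ • g : ↥(D.FC (kA A))) : LaurentSeries (kA A)) =
      coeffMap (frobenius (kA A) p) (g : LaurentSeries (kA A)))
    (hδ0 : ∀ b : ↥T.S0.B, T.S0.red b ≠ 0 →
      Red A (resA A) (dia' (b : ↥(laurentBaseChange Qb D.FQ))) (δ • T.S0.red b))
    (hδ1 : ∀ b : ↥T.S1.B, T.S1.red b ≠ 0 →
      Red A (resA A) (dia' (b : ↥(laurentBaseChange Qb D.FQ))) (δ • T.S1.red b))
    (hfixφ : φ • T.S0.red T.S0.sB = T.S0.red T.S0.sB)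
    (hfixδ : δ • T.S0.red T.S0.sB = T.S0.red T.S0.sB)
    (X : Divisor Qb ↥(laurentBaseChange Qb D.FQ)) :
    haveI : NeZero p := ⟨hp.out.ne_zero⟩
    Finsupp.mapDomain T.r (Inputs.divCorr (betaG Qb P) (alphaG Qb P) hx₁ hx' X) =
      (φ * δ) • Finsupp.mapDomain T.r X + (p : ℤ) • (φ⁻¹ • Finsupp.mapDomain T.r X) := by
  haveI : NeZero p := ⟨hp.out.ne_zero⟩
  haveI : HasPrincipalDivisors Qb ↥(laurentBaseChange Qb F₀') :=
    Inputs.hasPrincipalDivisors_of_isGen hx'
  haveI : HasPrincipalDivisors Qb ↥(laurentBaseChange Qb D.FQ) :=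
    Inputs.hasPrincipalDivisors_of_isGen hx₁
  have hα := Inputs.isIntegral_of_isGen (alphaG Qb P) hx₁ hx'
  have hβ := Inputs.isIntegral_of_isGen (betaG Qb P) hx₁ hx'
  have hfin := Inputs.finiteAlong_of_isGen (alphaG Qb P) hx₁ hx'
  have hmain := Fermat.Agent.DS.G.ES.KRON.EsDivFinal24.es_div_final (ℓ := p) T h0 h1
    (fun Pl => FF.deg_eq_one hx₁ Pl) (alphaG Qb P) (betaG Qb P) hα hβ dia' hnorm
    (Inputs.fundamentalIdentityAlong_of_isGen (betaG Qb P) hx₁ hx' hβ) hnβ hfin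
    (Inputs.normFormulaAlong_of_isGen (alphaG Qb P) hx' hfin) φ δ hφ hδ0 hδ1 hintU0 hintU1
    hfixφ hfixδ X
  rw [Inputs.divCorr_eq_correspondence (betaG Qb P) (alphaG Qb P) hx₁ hx' hβ hα, hmain]
  rfl

end Generic

end Fermat.Agent.DS.G.Top.KronGen
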