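/-
DS programme (S48), GEO last mile, plug (P3) of `LocalInst` (helper57): **the Kronecker congruence
`hK` of `LocalInst.LocalHyps` / `TorsionGaloisKron.localInputsOfKronDia`**, from the chart inputs
of the reduction chapter.

* `hK_of_chartInputs` (generic in the Hecke pair `P : HeckePair D.FQ F₀' p` and the generator datum
  `D : GenData`): for a two-chart model `T : TwoCharts A hx (D.FC (kA A))` with `ChartInputs` on both
  charts and the norm identity `NormIdentity p α β dia'` (KRON-C),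

    `r_* (α_* β^* X) = (φ * δ) • r_* X + p • φ⁻¹ • r_* X`,   `r = T.r`,

  where `φ` is the coefficientwise Frobenius and `δ` the reduction of `dia'`.  This is helper3's
  `EsDivFinal24.es_div_final` with the Hecke inputs discharged from the generators (`Inputs`), in
  helper54's `hK` shape (`Fr := φ`, `dt := δ⁻¹`).

* `hK_L1` : the instance at `L1 M = ±Γ₁(M)`, `p ∤ M`, `σ ∈ Γ₀(M)` with `σ₁₁ ≡ p`: `dia'` is the
  inverse of the diamond of `σ` (`KronNormL1.normIdentity_L1`), `φ = frobSemi (kA A) p (X1gens M)`,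
  conclusion for `TopG.CpDiv (analyticGensK M) p`.

* `hK_L1_of_coeffChart` : the same with `δ := DiaPlaceInst.reducedDia T hC0 (dia σ).symm hs hfrac`
  (helper95), all chart hypotheses discharged from `CoeffChart` + `ChartInputs`, and `hfixφ` from
  `red s = tq`.
-/
import Mathlib
import Fermat.Agent.DS.G.Top.KronGen
import Fermat.Agent.DS.G.ES.RED.DiaPlaceInst
import Fermat.Agent.DS.G.ES.RED.FrobPoles13
import Fermat.Agent.DS.G.ES.RED.SpecialGen25
import Fermat.Agent.DS.G.HECKE.Inputs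
import Fermat.Agent.DS.G.HECKE.Iface
import Fermat.Agent.DS.G.HECKE.TopG
import Fermat.Agent.DS.G.Top.KronNormL1
import Fermat.Agent.ES.RED.ChartSpecOfChart18

set_option autoImplicit false
set_option linter.unusedSectionVars false
set_option linter.style.haveILetI false

noncomputable section

open AlgebraicCurve ModularCurve HahnSeries IntermediateField CongruenceSubgroup
open scoped MatrixGroups

namespace Fermat.Agent.DS.G.Top.KronInst

open Fermat.Agent.X0 Fermat.Agent.X0.FF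
open Fermat.Agent.ES.RED.Contract8 Fermat.Agent.ES.RED.TwoCharts8
open Fermat.Agent.DS.G.ES.RED.Iface Fermat.Agent.DS.G.ES.RED.RedMain15
open Fermat.Agent.DS.G.RED.Defs
open Fermat.Agent.DS.G.ES.KRON.KronInputOf
open Fermat.Agent.DS.G.ES.KRON.FrobPlace13
open Fermat.Agent.DS.G.HECKE.Iface Fermat.Agent.DS.G.HECKE
open Fermat.Agent.DS.G.HECKE.Diamond Fermat.Agent.DS.G.HECKE.Top Fermat.Agent.DS.G.HECKE.TopG
open Fermat.Agent.DS.G.HECKE.UpLevel Fermat.Agent.DS.G.HECKE.LevelPack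
open Fermat.Agent.DS.X1.Level1 Fermat.Agent.DS.X1.Inst13
open Fermat.Agent.DS.G.Top.KronGen Fermat.Agent.DS.G.Level

local notation "Qb" => AlgebraicClosure ℚ

/-! ### The instance at `L1 M = ±Γ₁(M)` -/

section L1

variable (M : ℕ) [NeZero M] {p : ℕ} [hp : Fact p.Prime]
variable {A : ValuationSubring Qb} [CharP (kA A) p] [IsAlgClosed (kA A)]
variable {x : ↥(laurentBaseChange Qb (X1gens M).FQ)} {hx : IsGen Qb x}

/-- **(P3) at `L1 M`**: the Kronecker congruence for `C_p = α_* β^*` on `X₁(M)/±`, with `δ` any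
reduction of the inverse of the diamond automorphism of `σ ∈ Γ₀(M)`, `σ₁₁ ≡ p`. -/
theorem hK_L1 (hpM : ¬ p ∣ M)
    (T : TwoCharts A hx ↥((X1gens M).FC (kA A)))
    (h0 : ChartInputs A (X1gens M).FQ ((X1gens M).FC (kA A)) T.S0)
    (h1 : ChartInputs A (X1gens M).FQ ((X1gens M).FC (kA A)) T.S1)
    (hintU0 : ∀ Pl : Place Qb ↥(laurentBaseChange Qb (X1gens M).FQ),
      T.S0.s ∈ Pl.toValuationSubring → ∀ b ∈ T.S0.B, b ∈ Pl.toValuationSubring)
    (hintU1 : ∀ Pl : Place Qb ↥(laurentBaseChange Qb (X1gens M).FQ),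
      T.S1.s ∈ Pl.toValuationSubring → ∀ b ∈ T.S1.B, b ∈ Pl.toValuationSubring)
    {σ : SL(2, ℤ)} (hσ : σ ∈ Gamma0 M) (hσp : ((σ 1 1 : ℤ) : ZMod M) = (p : ZMod M))
    (δ : SemilinearAut (kA A) ↥((X1gens M).FC (kA A)))
    (hδ0 : ∀ b : ↥T.S0.B, T.S0.red b ≠ 0 →
      Red A (resA A) ((dia (A1 M) σ (acts1 M hσ)).symm
        (b : ↥(laurentBaseChange Qb (X1gens M).FQ))) (δ • T.S0.red b))
    (hδ1 : ∀ b : ↥T.S1.B, T.S1.red b ≠ 0 →
      Red A (resA A) ((dia (A1 M) σ (acts1 M hσ)).symm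
        (b : ↥(laurentBaseChange Qb (X1gens M).FQ))) (δ • T.S1.red b))
    (hfixφ : frobSemi (kA A) p (X1gens M) • T.S0.red T.S0.sB = T.S0.red T.S0.sB)
    (hfixδ : δ • T.S0.red T.S0.sB = T.S0.red T.S0.sB)
    (X : Divisor Qb ↥(laurentBaseChange Qb (X1gens M).FQ)) :
    Finsupp.mapDomain T.r (CpDiv (analyticGensK M) p X) =
      (frobSemi (kA A) p (X1gens M) * δ) • Finsupp.mapDomain T.r X +
        (p : ℤ) • ((frobSemi (kA A) p (X1gens M))⁻¹ • Finsupp.mapDomain T.r X) := by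
  haveI : NeZero p := ⟨hp.out.ne_zero⟩
  have hn := KronNormL1.normIdentity_L1 M hpM hσ hσp
  have hb := KronNormL1.finrankAlong_betaG_L1 (p := p) M hpM
  have key := hK_of_chartInputs (p := p) (A := A) (D := X1gens M) (F₀' := (up (L1 M) p).F₀)
    (x₁ := jFL (L1 M)) (x' := jFL (up (L1 M) p))
    (isGen_jFL (analyticGensK M)) (isGen_up (analyticGensK M))
    (heckePair_up (p := p) (L1 M)) T h0 h1 hintU0 hintU1
    (fun f => (dia (A1 M) σ (acts1 M hσ)).symm f) hn hb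
    (frobSemi (kA A) p (X1gens M)) δ (fun g => coe_frobSemi_smul (kA A) p (X1gens M) g)
    hδ0 hδ1 hfixφ hfixδ X
  -- unfold `CpDiv` first: otherwise the defeq check explores the wrong side (timeout)
  unfold CpDiv
  exact key

open Fermat.Agent.DS.G.ES.RED.GaloisInst21 Fermat.Agent.DS.G.ES.RED.DiaPlace
open Fermat.Agent.DS.G.ES.RED.DiaPlaceInst Fermat.Agent.RED.BASE.EtaQuot12

/-- `hintU` from a `CoeffChart`: a place at which `s` is regular contains the chart ring. -/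
theorem hintU_of_coeffChart {D : GenData} {y : ↥(laurentBaseChange Qb D.FQ)} {hy : IsGen Qb y}
    (S : ChartSpec A hy ↥(D.FC (kA A))) (hC : CoeffChart (F₀ := D.FQ) S)
    (Pl : Place Qb ↥(laurentBaseChange Qb D.FQ)) (hs : S.s ∈ Pl.toValuationSubring)
    (b : ↥(laurentBaseChange Qb D.FQ)) (hb : b ∈ S.B) : b ∈ Pl.toValuationSubring :=
  Fermat.Agent.ES.RED.ChartSpecOfChart18.mem_place_of_mem_chart' A S.s Pl hs ((hC.mem_iff b).1 hb)

/-- the reduced chart coordinate of a coefficientwise chart whose coordinate is the Hauptmodul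
`t = tq ℚbar n e` is `tq (kA A) n e` (no `IgusaStep` needed). -/
theorem coe_red_sB_eq_tq {D : GenData} (n e : ℕ) [NeZero n] (hmem : tq Qb n e ∈ D.Fbar)
    {y : ↥(laurentBaseChange Qb D.FQ)} {hy : IsGen Qb y}
    (S : ChartSpec A hy ↥(D.FC (kA A))) (hC : CoeffChart (F₀ := D.FQ) S)
    (hs : S.s = Fermat.Agent.DS.G.ES.RED.SpecialGen25.tF D n e hmem) :
    ((S.red S.sB : ↥(D.FC (kA A))) : LaurentSeries (kA A)) = tq (kA A) n e := by
  have hY : coeffMap A.subtype (tq ↥A n e) =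
      (((S.sB : ↥S.B) : ↥(laurentBaseChange Qb D.FQ)) : LaurentSeries Qb) := by
    rw [coeffMap_tq]
    show tq Qb n e = ((S.s : ↥(laurentBaseChange Qb D.FQ)) : LaurentSeries Qb)
    rw [hs]
    rfl
  rw [hC.red_eq S.sB _ hY, coeffMap_tq]

/-- **(P3) at `L1 M`, with helper95's reduced diamond**: `δ := reducedDia T hC0 (dia σ).symm hs hfrac`,
the chart hypotheses from `CoeffChart`, and `hfixφ` from `red s = tq`. -/
theorem hK_L1_of_coeffChart (hpM : ¬ p ∣ M)
    (T : TwoCharts A hx ↥((X1gens M).FC (kA A)))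
    (h0 : ChartInputs A (X1gens M).FQ ((X1gens M).FC (kA A)) T.S0)
    (h1 : ChartInputs A (X1gens M).FQ ((X1gens M).FC (kA A)) T.S1)
    (hC0 : CoeffChart (F₀ := (X1gens M).FQ) T.S0)
    (hC1 : CoeffChart (F₀ := (X1gens M).FQ) T.S1)
    {σ : SL(2, ℤ)} (hσ : σ ∈ Gamma0 M) (hσp : ((σ 1 1 : ℤ) : ZMod M) = (p : ZMod M))
    (hs : (dia (A1 M) σ (acts1 M hσ)).symm T.S0.s = T.S0.s) (hfrac : FracRed T.S0)
    (n e : ℕ) [NeZero n]
    (hs0 : ((T.S0.red T.S0.sB : ↥((X1gens M).FC (kA A))) : LaurentSeries (kA A)) = tq (kA A) n e)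
    (X : Divisor Qb ↥(laurentBaseChange Qb (X1gens M).FQ)) :
    Finsupp.mapDomain T.r (CpDiv (analyticGensK M) p X) =
      (frobSemi (kA A) p (X1gens M) *
          reducedDia T hC0 (dia (A1 M) σ (acts1 M hσ)).symm hs hfrac) •
        Finsupp.mapDomain T.r X +
        (p : ℤ) • ((frobSemi (kA A) p (X1gens M))⁻¹ • Finsupp.mapDomain T.r X) :=
  hK_L1 M hpM T h0 h1 (fun Pl h b hb => hintU_of_coeffChart T.S0 hC0 Pl h b hb)
    (fun Pl h b hb => hintU_of_coeffChart T.S1 hC1 Pl h b hb) hσ hσp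
    (reducedDia T hC0 (dia (A1 M) σ (acts1 M hσ)).symm hs hfrac)
    (fun b hb => red_dia₀ T hC0 (dia (A1 M) σ (acts1 M hσ)).symm hs hfrac b hb)
    (fun b hb => red_dia₁ T hC0 hC1 (dia (A1 M) σ (acts1 M hσ)).symm hs hfrac b hb)
    (Fermat.Agent.DS.G.ES.RED.FrobPoles13.frobSemi_smul_tq (kA A) p (X1gens M) n e hs0)
    (smul_red_s T hC0 (dia (A1 M) σ (acts1 M hσ)).symm hs hfrac) X

/-- **(P3) at `L1 M`**, the chart coordinate being the Hauptmodul `t = tF (X1gens M) n e hmem`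
(the shape of `RedInst15.chartInputs_both`). -/
theorem hK_L1_of_tF (hpM : ¬ p ∣ M)
    (T : TwoCharts A hx ↥((X1gens M).FC (kA A)))
    (h0 : ChartInputs A (X1gens M).FQ ((X1gens M).FC (kA A)) T.S0)
    (h1 : ChartInputs A (X1gens M).FQ ((X1gens M).FC (kA A)) T.S1)
    (hC0 : CoeffChart (F₀ := (X1gens M).FQ) T.S0)
    (hC1 : CoeffChart (F₀ := (X1gens M).FQ) T.S1)
    {σ : SL(2, ℤ)} (hσ : σ ∈ Gamma0 M) (hσp : ((σ 1 1 : ℤ) : ZMod M) = (p : ZMod M))
    (hs : (dia (A1 M) σ (acts1 M hσ)).symm T.S0.s = T.S0.s) (hfrac : FracRed T.S0)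
    (n e : ℕ) [NeZero n] (hmem : tq Qb n e ∈ (X1gens M).Fbar)
    (hsT : T.S0.s = Fermat.Agent.DS.G.ES.RED.SpecialGen25.tF (X1gens M) n e hmem)
    (X : Divisor Qb ↥(laurentBaseChange Qb (X1gens M).FQ)) :
    Finsupp.mapDomain T.r (CpDiv (analyticGensK M) p X) =
      (frobSemi (kA A) p (X1gens M) *
          reducedDia T hC0 (dia (A1 M) σ (acts1 M hσ)).symm hs hfrac) •
        Finsupp.mapDomain T.r X +
        (p : ℤ) • ((frobSemi (kA A) p (X1gens M))⁻¹ • Finsupp.mapDomain T.r X) :=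
  hK_L1_of_coeffChart M hpM T h0 h1 hC0 hC1 hσ hσp hs hfrac n e
    (coe_red_sB_eq_tq n e hmem T.S0 hC0 hsT) X

end L1

end Fermat.Agent.DS.G.Top.KronInst
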