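/-
DS programme (S48), GEO half, brick GEO-FIN-TG (helper54), `KRON`-shaped constructor of
`TorsionGaloisQ.LocalInputs`.

The KRON chapter proves (ES-div) for the PLAIN correspondence `C_p = α_* β^* = Inputs.corr β α`
with the pair `(Fr_K, W_K) = (Fr * dt⁻¹, Fr⁻¹)` (`Fr` = coefficientwise Frobenius, `dt` = the
reduction of the diamond automorphism `s` of `⟨p⟩`; conventions of report 627).  The Hecke operator
of the contract is `T_p = C_p ∘ ⟨p⟩` (`T1 M p = corr β α ∘ diaPic σ_p`).  This file turns the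
KRON-shaped statement into the `LocalInputs` of `T_p` and `⟨p⟩`:

* `mapDomain_algEquiv_smul` : `r_* (s • D) = dt • r_* D` from `r (s • P) = dt • r P`;
* `es_div_twist` : (ES-div) for `corr β α ∘ (s • ·)` with `(Fr, Fr⁻¹ * dt)`;
* `localInputsOfKron` : the `LocalInputs` for `T = corr β α ∘ (s • ·)`, `Dm = (s • ·)`;
* `localInputsOfKronDia` : the same with helper34's `diaPic` (`T = corr β α ∘ diaPic`,
  `Dm = diaPic`).
-/
import Mathlib
import Fermat.Agent.DS.G.Top.TorsionGaloisQ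
import Fermat.Agent.DS.G.Top.AutCorr

set_option autoImplicit false
set_option linter.style.haveILetI false
set_option linter.unusedSectionVars false

noncomputable section

open AlgebraicCurve ModularCurve

namespace Fermat.Agent.DS.G.Top.TorsionGaloisKron

open Fermat.Agent.DS.G.Top.TorsionGalois Fermat.Agent.DS.G.Top.TorsionGaloisQ
open Fermat.Agent.DS.G.Top.AutCorr Fermat.Agent.DS.G.HECKE Fermat.Agent.X0.FF

/-! ### generic part -/

section Generic

variable {K F k Ft : Type*} [Field K] [Field F] [Algebra K F] [Field k] [Field Ft] [Algebra k Ft]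

/-- the bijection of the places attached to a semilinear automorphism acts on divisors as the
automorphism (the shape in which the KRON chapter states (ES-div)). -/
theorem mapDomain_toPerm (g : SemilinearAut k Ft) (X : Divisor k Ft) :
    Finsupp.mapDomain (⇑(MulAction.toPerm g : Equiv.Perm (Place k Ft))) X = g • X := rfl

/-- if `r (s • P) = h • r P` for all places, then `r_* (s • D) = h • r_* D`. -/
theorem mapDomain_algEquiv_smul (r : Place K F → Place k Ft) (s : F ≃ₐ[K] F)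
    (h : SemilinearAut k Ft) (hsh : ∀ P, r (s • P) = h • r P) (D : Divisor K F) :
    Finsupp.mapDomain r (s • D) = h • Finsupp.mapDomain r D := by
  rw [Divisor.smul_def, SemilinearAut.divisor_smul_def, ← Finsupp.mapDomain_comp,
    ← Finsupp.mapDomain_comp]
  congr 1
  funext P
  exact hsh P

/-- **(ES-div) for the twisted correspondence**: from (ES-div) for `TD₀` with the pair
`(Fr * dt⁻¹, Fr⁻¹)` to (ES-div) for `TD₀ ∘ (s • ·)` with the pair `(Fr, Fr⁻¹ * dt)`. -/
theorem es_div_twist (r : Place K F → Place k Ft) (TD₀ : Divisor K F →+ Divisor K F)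
    (s : F ≃ₐ[K] F) (Fr dt : SemilinearAut k Ft) (hdia : ∀ P, r (s • P) = dt • r P) (p : ℕ)
    (hK : ∀ D : Divisor K F, Finsupp.mapDomain r (TD₀ D) =
      (Fr * dt⁻¹) • Finsupp.mapDomain r D + (p : ℤ) • (Fr⁻¹ • Finsupp.mapDomain r D))
    (D : Divisor K F) :
    Finsupp.mapDomain r ((TD₀.comp (DistribSMul.toAddMonoidHom (Divisor K F) s)) D) =
      Fr • Finsupp.mapDomain r D + (p : ℤ) • ((Fr⁻¹ * dt) • Finsupp.mapDomain r D) := by
  rw [AddMonoidHom.comp_apply]
  show Finsupp.mapDomain r (TD₀ (s • D)) = _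
  rw [hK, mapDomain_algEquiv_smul r s dt hdia, mul_smul, inv_smul_smul, mul_smul]

end Generic

/-! ### the `ℚ̄`-layer -/

section Q

local notation "Qb" => AlgebraicClosure ℚ
local notation "GQ" => (AlgebraicClosure ℚ ≃ₐ[ℚ] AlgebraicClosure ℚ)

variable {F₀ : IntermediateField ℚ (LaurentSeries ℚ)}

/-- **`LocalInputs` from the KRON-shaped (ES-div).**  `α β : F → F'` the two degeneracy
embeddings, `s` the diamond automorphism of `⟨p⟩`; `T = corr β α ∘ (s • ·)`, `Dm = (s • ·)`. -/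
def localInputsOfKron {p : ℕ} {A : ValuationSubring Qb} {F' : Type*} [Field F'] [Algebra Qb F']
    (α β : FFb F₀ →ₐ[Qb] F') {x : FFb F₀} (hx : IsGen Qb x) {x' : F'} (hx' : IsGen Qb x')
    (s : FFb F₀ ≃ₐ[Qb] FFb F₀)
    (k : Type) [Field k] (Ft : Type) [Field Ft] [Algebra k Ft]
    (r : Place Qb (FFb F₀) → Place k Ft) (red : JF F₀ →+ Pic0 k Ft) (hred : RedHom r red)
    (Fr dt : SemilinearAut k Ft) (hcomm : Commute dt Fr)
    (hdia : ∀ P, r (s • P) = dt • r P)
    (hK : ∀ D : Divisor Qb (FFb F₀), Finsupp.mapDomain r (Inputs.divCorr β α hx hx' D) =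
      (Fr * dt⁻¹) • Finsupp.mapDomain r D + (p : ℤ) • (Fr⁻¹ • Finsupp.mapDomain r D))
    (hI : ∀ τ ∈ A.inertiaSubgroupIn ℚ, ∀ P, r (arithmeticGalois F₀ τ • P) = r P)
    (hFr : ∀ σ : GQ, A.IsFrobeniusAt σ p → ∀ P, r (arithmeticGalois F₀ σ • P) = Fr • r P)
    (inj : ∀ (m : ℕ) (y : JF F₀), ¬ p ∣ m → m • y = 0 → red y = 0 → y = 0) :
    LocalInputs F₀ p A
      ((Inputs.corr β α hx hx').comp (DistribSMul.toAddMonoidHom (JF F₀) s))
      (DistribSMul.toAddMonoidHom (JF F₀) s) where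
  k := k
  Ft := Ft
  r := r
  red := red
  hred := hred
  TD := (Inputs.divCorr β α hx hx').comp (DistribSMul.toAddMonoidHom (Divisor Qb (FFb F₀)) s)
  hT := (divModel_corr hx β α hx').comp (divModel_algEquiv s)
  Fr := Fr
  W := Fr⁻¹ * dt
  d' := dt
  hW := by rw [mul_assoc, hcomm.eq, ← mul_assoc, inv_mul_cancel, one_mul]
  hDm := fun y => red_algEquiv_smul hred s dt hdia y
  hES := es_div_twist r (Inputs.divCorr β α hx hx') s Fr dt hdia p hK
  hI := hI
  hFr := hFr
  inj := inj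

section Dia

open Fermat.Agent.X0 Fermat.Agent.DS.G.HECKE.Iface Fermat.Agent.DS.G.HECKE.Diamond
open scoped MatrixGroups

/-- **`LocalInputs` from the KRON-shaped (ES-div), with helper34's diamond operator**:
`T = corr β α ∘ diaPic σ`, `Dm = diaPic σ` (the shape of `T1 M p` and of `⟨p⟩`). -/
def localInputsOfKronDia {p : ℕ} {A : ValuationSubring Qb} (Am : ArithModel F₀)
    {F' : Type*} [Field F'] [Algebra Qb F']
    (α β : FFb F₀ →ₐ[Qb] F') {x : FFb F₀} (hx : IsGen Qb x) {x' : F'} (hx' : IsGen Qb x')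
    (σ : SL(2, ℤ)) (hs : Acts Am σ)
    (k : Type) [Field k] (Ft : Type) [Field Ft] [Algebra k Ft]
    (r : Place Qb (FFb F₀) → Place k Ft) (red : JF F₀ →+ Pic0 k Ft) (hred : RedHom r red)
    (Fr dt : SemilinearAut k Ft) (hcomm : Commute dt Fr)
    (hdia : ∀ P, r (dia Am σ hs • P) = dt • r P)
    (hK : ∀ D : Divisor Qb (FFb F₀), Finsupp.mapDomain r (Inputs.divCorr β α hx hx' D) =
      (Fr * dt⁻¹) • Finsupp.mapDomain r D + (p : ℤ) • (Fr⁻¹ • Finsupp.mapDomain r D))
    (hI : ∀ τ ∈ A.inertiaSubgroupIn ℚ, ∀ P, r (arithmeticGalois F₀ τ • P) = r P)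
    (hFr : ∀ σ' : GQ, A.IsFrobeniusAt σ' p → ∀ P, r (arithmeticGalois F₀ σ' • P) = Fr • r P)
    (inj : ∀ (m : ℕ) (y : JF F₀), ¬ p ∣ m → m • y = 0 → red y = 0 → y = 0) :
    LocalInputs F₀ p A ((Inputs.corr β α hx hx').comp (diaPic Am σ hs hx))
      (diaPic Am σ hs hx) := by
  rw [diaPic_eq_toAddMonoidHom Am σ hs hx]
  exact localInputsOfKron α β hx hx' (dia Am σ hs) k Ft r red hred Fr dt hcomm hdia hK hI hFr inj

end Dia

end Q

end Fermat.Agent.DS.G.Top.TorsionGaloisKron
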