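/-
DS programme (S48), GEO half, brick GEO-FIN-TG (helper54): **THE INSTANCE** of
`TorsionGaloisQ.LocalInputs` at the level `L1 M = ±Γ₁(M)` for helper19's operators
`HECKE.Top.T1 M p σ hσ` and `HECKE.Top.dia1 M σ hσ`.

`LocalHyps M p A σ hσ` collects the chapter outputs at the instance, in the exact shape in which
they are consumed (one field per chapter):

* (1)  `r`, `hr`   : the reduction of places and `IsPlaceReductionAlongG` (G-ESRED E02 top);
* (1') `hgen`      : `(Rgen)` (G-RED `Rgen.principalGeneratedByIntegralG_of_isGen` from (GB2));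
* (3)  `Fr`, `dt`, `hcomm` : the coefficientwise Frobenius `frobSemi`, the reduced diamond, and their
  commutation (DIAPLACE);
* (4)  `hdia`      : the reduction of places commutes with the diamond (DIAPLACE / KRON `RedAut24`);
* (5)  `hK`        : (ES-div) for the plain correspondence `C_p = α_* β^*` with the pair
  `(Fr * dt⁻¹, Fr⁻¹)` (KRON-D, `EsDivSeries24.es_div_series_of_norm` with `δ = dt⁻¹`);
* (6)  `hI`, `hFr` : (R3) (G-ESRED E03, `GaloisInst21.r_smul_of_mem_inertia'`,
  `r_smul_of_isFrobeniusAt'`);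
* (7)  `inj`       : (Φ3) (G-RED `Rgen.phi3_of_gb2`).

`localInputs_of_hyps : LocalHyps M p A σ hσ → LocalInputs (L1 M).F₀ p A (T1 M p σ hσ) (dia1 M σ hσ)`.
-/
import Mathlib
import Fermat.Agent.DS.G.Top.TorsionGaloisKron
import Fermat.Agent.DS.G.HECKE.Top
import Fermat.Agent.DS.G.RED.Defs

set_option autoImplicit false
set_option linter.style.haveILetI false
set_option linter.unusedSectionVars false

noncomputable section

open AlgebraicCurve ModularCurve CongruenceSubgroup
open scoped MatrixGroups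

namespace Fermat.Agent.DS.G.Top.LocalInst

open Fermat.Agent.DS.G.Top.TorsionGalois Fermat.Agent.DS.G.Top.TorsionGaloisQ
open Fermat.Agent.DS.G.Top.TorsionGaloisKron Fermat.Agent.DS.G.Top.AutCorr
open Fermat.Agent.DS.G.HECKE Fermat.Agent.DS.G.HECKE.Top Fermat.Agent.DS.G.HECKE.TopG
open Fermat.Agent.DS.G.HECKE.Iface Fermat.Agent.DS.G.HECKE.Diamond
open Fermat.Agent.DS.G.HECKE.LevelPack Fermat.Agent.DS.G.HECKE.UpLevel
open Fermat.Agent.DS.X1.Level1 Fermat.Agent.DS.X1.Inst13
open Fermat.Agent.DS.G.RED.Defs Fermat.Agent.DS.G.ES.RED.Iface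
open Fermat.Agent.X0.FF

local notation "Qb" => AlgebraicClosure ℚ
local notation "GQ" => (AlgebraicClosure ℚ ≃ₐ[ℚ] AlgebraicClosure ℚ)

/-- the residue field of `A`. -/
abbrev kR (A : ValuationSubring Qb) : Type := IsLocalRing.ResidueField A

/-- the function field of the special fibre of `X₁(M)` at `A`. -/
abbrev FtR (M : ℕ) [NeZero M] (A : ValuationSubring Qb) :
    IntermediateField (kR A) (LaurentSeries (kR A)) := (X1gens M).FC (kR A)

variable (M : ℕ) [NeZero M]

/-- **The chapter outputs at the instance `L1 M`, `p`, `A`, `σ`.** -/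
structure LocalHyps (p : ℕ) [Fact p.Prime] (A : ValuationSubring Qb) (σ : SL(2, ℤ))
    (hσ : σ ∈ Gamma0 M) : Type where
  /-- (1) the reduction of places -/
  r : Place Qb (FFb (L1 M).F₀) → Place (kR A) (FtR M A)
  hr : IsPlaceReductionAlongG A (IsLocalRing.residue A) (L1 M).F₀ (FtR M A) r
  /-- (1') `(Rgen)` -/
  hgen : PrincipalGeneratedByIntegralG A (IsLocalRing.residue A) (L1 M).F₀ (FtR M A)
  /-- (3) the Frobenius and the reduced diamond -/
  Fr : SemilinearAut (kR A) (FtR M A)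
  dt : SemilinearAut (kR A) (FtR M A)
  hcomm : Commute dt Fr
  /-- (4) the reduction of places commutes with the diamond -/
  hdia : ∀ P : Place Qb (FFb (L1 M).F₀), r (dia (A1 M) σ (acts1 M hσ) • P) = dt • r P
  /-- (5) (ES-div) for the plain correspondence `C_p` -/
  hK : ∀ D : Divisor Qb (FFb (L1 M).F₀),
    Finsupp.mapDomain r (CpDiv (analyticGensK M) p D) =
      (Fr * dt⁻¹) • Finsupp.mapDomain r D + (p : ℤ) • (Fr⁻¹ • Finsupp.mapDomain r D)
  /-- (6) (R3), inertia -/
  hI : ∀ τ ∈ A.inertiaSubgroupIn ℚ, ∀ P : Place Qb (FFb (L1 M).F₀),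
    r (arithmeticGalois (L1 M).F₀ τ • P) = r P
  /-- (6) (R3), Frobenius -/
  hFr : ∀ σ' : GQ, A.IsFrobeniusAt σ' p → ∀ P : Place Qb (FFb (L1 M).F₀),
    r (arithmeticGalois (L1 M).F₀ σ' • P) = Fr • r P
  /-- (7) (Φ3) -/
  inj : ∀ (m : ℕ) (y : JF (L1 M).F₀), ¬ p ∣ m → m • y = 0 →
    reductionPic0AlongG r hr hgen y = 0 → y = 0

variable {M}

/-- the reduction of divisor classes is induced by the reduction of places. -/
theorem redHom_reductionPic0AlongG {A : ValuationSubring Qb}
    {r : Place Qb (FFb (L1 M).F₀) → Place (kR A) (FtR M A)}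
    (hr : IsPlaceReductionAlongG A (IsLocalRing.residue A) (L1 M).F₀ (FtR M A) r)
    (hgen : PrincipalGeneratedByIntegralG A (IsLocalRing.residue A) (L1 M).F₀ (FtR M A)) :
    RedHom r (reductionPic0AlongG r hr hgen) := fun D =>
  ⟨mapDomain_mem_degZero_of_deg_eqG hr.1 D.2, rfl⟩

/-- **The local inputs at `L1 M`** for `T1 M p σ hσ` and `dia1 M σ hσ`, from the chapter
outputs. -/
def localInputs_of_hyps {p : ℕ} [Fact p.Prime] {A : ValuationSubring Qb} {σ : SL(2, ℤ)}
    {hσ : σ ∈ Gamma0 M} (H : LocalHyps M p A σ hσ) :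
    LocalInputs (L1 M).F₀ p A (T1 M p σ hσ) (dia1 M σ hσ) :=
  localInputsOfKronDia (A1 M) (alphaG Qb (heckePair_up (p := p) (L1 M)))
    (betaG Qb (heckePair_up (p := p) (L1 M))) (isGen_jFL (analyticGensK M))
    (isGen_up (analyticGensK M)) σ (acts1 M hσ) (kR A) (FtR M A) H.r
    (reductionPic0AlongG H.r H.hr H.hgen) (redHom_reductionPic0AlongG H.hr H.hgen)
    H.Fr H.dt H.hcomm H.hdia H.hK H.hI H.hFr H.inj

/-- the statement consumed by `PlugK2.geoInputs2_L1`. -/
theorem nonempty_localInputs_of_hyps {p : ℕ} [Fact p.Prime] {A : ValuationSubring Qb}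
    {σ : SL(2, ℤ)} {hσ : σ ∈ Gamma0 M} (H : LocalHyps M p A σ hσ) :
    Nonempty (LocalInputs (L1 M).F₀ p A (T1 M p σ hσ) (dia1 M σ hσ)) :=
  ⟨localInputs_of_hyps H⟩

end Fermat.Agent.DS.G.Top.LocalInst
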