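/-
DS programme (S48), GEO half, brick GEO-FIN-LOCALINST (helper54), LAYER B:
**`LocalInst.LocalHyps` from ONE two-chart model `T : TwoCharts A hx (FtR M A)`** of `X₁(M)` at `A`
and the landed generic twins:

* (1)  `hr`   := `RedMain15.isPlaceReductionModL_twoCharts T h0 h1`                 (G-ESRED E02),
* (1') `hgen` := `Rgen.principalGeneratedByIntegralG_of_isGen … hGB2`                (G-RED R6 / E08),
* (6)  `hI`, `hFr` := `GaloisInst21.r_smul_of_mem_inertia'`, `r_smul_of_isFrobeniusAt'` (E03),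
* (7)  `inj`  := `Rgen.phi3_of_gb2 … hModel hGB2`                                     (G-RED R4/R6),
* `Fr := FrobPlace13.frobSemi (kA A) p (X1gens M)`.

The remaining inputs are explicit hypotheses, in the owners' shapes:
`T`, `h0 h1 : ChartInputs`, `c0 c1 : CoeffChart` (X1Inst, helper93), `hGB2 : GB2Step (X1gens M) A`,
`hModel : ModelStepG (X1gens M).FQ A`, the reduced diamond `dt` with `hcomm`, `hdia` (DIAPLACE
instance, helper95) and (ES-div) `hK` (KRON instance, helper57/helper3).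
-/
import Mathlib
import Fermat.Agent.DS.G.Top.LocalInst
import Fermat.Agent.DS.G.ES.RED.RedMain15
import Fermat.Agent.DS.G.ES.RED.GaloisInst21
import Fermat.Agent.DS.G.RED.Rgen
import Fermat.Agent.DS.G.ES.RED.DiaPlaceInst
import Fermat.Agent.ES.KRON.KronInst10
import Fermat.Agent.ES.FROB.FrobFacts12

set_option autoImplicit false
set_option linter.style.haveILetI false
set_option linter.unusedSectionVars false

noncomputable section

open AlgebraicCurve ModularCurve CongruenceSubgroup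
open scoped MatrixGroups

namespace Fermat.Agent.DS.G.Top.LocalInstT

open Fermat.Agent.DS.G.Top.TorsionGalois Fermat.Agent.DS.G.Top.TorsionGaloisQ
open Fermat.Agent.DS.G.Top.LocalInst
open Fermat.Agent.DS.G.HECKE Fermat.Agent.DS.G.HECKE.Top Fermat.Agent.DS.G.HECKE.TopG
open Fermat.Agent.DS.G.HECKE.Iface Fermat.Agent.DS.G.HECKE.Diamond
open Fermat.Agent.DS.X1.Level1 Fermat.Agent.DS.X1.Inst13
open Fermat.Agent.DS.G.RED.Defs Fermat.Agent.DS.G.RED.Num Fermat.Agent.DS.G.RED.Rgen
open Fermat.Agent.DS.G.ES.RED.Iface Fermat.Agent.DS.G.ES.RED.GaussUnit25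
open Fermat.Agent.DS.G.ES.RED.RedMain15 Fermat.Agent.DS.G.ES.RED.GaloisInst21
open Fermat.Agent.DS.G.ES.KRON.FrobPlace13
open Fermat.Agent.DS.G.ES.RED.DiaPlace Fermat.Agent.DS.G.ES.RED.DiaPlaceInst
open Fermat.Agent.ES.RED.Contract8 Fermat.Agent.ES.RED.TwoCharts8
open Fermat.Agent.X0.FF

local notation "Qb" => AlgebraicClosure ℚ
local notation "GQ" => (AlgebraicClosure ℚ ≃ₐ[ℚ] AlgebraicClosure ℚ)

variable {M : ℕ} [NeZero M] {p : ℕ} [hpF : Fact p.Prime] {A : ValuationSubring Qb}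
  {σ : SL(2, ℤ)} {hσ : σ ∈ Gamma0 M}

/-- the coefficientwise Frobenius of the special fibre of `X₁(M)` at `A` (over `p`). -/
def FrR (M : ℕ) [NeZero M] (p : ℕ) [Fact p.Prime] (A : ValuationSubring Qb)
    (hA : A.LiesOverPrime p) : SemilinearAut (kR A) (FtR M A) :=
  haveI : IsAlgClosed (kA A) := Fermat.Agent.ES.KRON.KronInst10.isAlgClosed_residueField A
  haveI : CharP (kA A) p :=
    Fermat.Agent.ES.KRON.KronInst10.charP_residueField A (Fact.out : p.Prime) hA
  haveI : ExpChar (kA A) p := ExpChar.prime (Fact.out : p.Prime)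
  frobSemi (kA A) p (X1gens M)

/-- **`LocalHyps` from one two-chart model.** -/
def localHyps_of_twoCharts (hA : A.LiesOverPrime p)
    {x : ↥(laurentBaseChange Qb (X1gens M).FQ)} {hx : IsGen Qb x}
    (T : TwoCharts A hx ↥(FtR M A))
    (h0 : ChartInputs A (X1gens M).FQ (FtR M A) T.S0)
    (h1 : ChartInputs A (X1gens M).FQ (FtR M A) T.S1)
    (c0 : CoeffChart (F₀ := (X1gens M).FQ) T.S0) (c1 : CoeffChart (F₀ := (X1gens M).FQ) T.S1)
    (hGB2 : GB2Step (X1gens M) A) (hModel : ModelStepG (X1gens M).FQ A)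
    (dt : SemilinearAut (kR A) (FtR M A)) (hcomm : Commute dt (FrR M p A hA))
    (hdia : ∀ P : Place Qb (FFb (L1 M).F₀),
      T.r (dia (A1 M) σ (acts1 M hσ) • P) = dt • T.r P)
    (hK : ∀ D : Divisor Qb (FFb (L1 M).F₀),
      Finsupp.mapDomain T.r (CpDiv (analyticGensK M) p D) =
        (FrR M p A hA * dt⁻¹) • Finsupp.mapDomain T.r D +
          (p : ℤ) • ((FrR M p A hA)⁻¹ • Finsupp.mapDomain T.r D)) :
    LocalHyps M p A σ hσ :=
  haveI : IsAlgClosed (kA A) := Fermat.Agent.ES.KRON.KronInst10.isAlgClosed_residueField A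
  haveI : CharP (kA A) p :=
    Fermat.Agent.ES.KRON.KronInst10.charP_residueField A (Fact.out : p.Prime) hA
  haveI : ExpChar (kA A) p := ExpChar.prime (Fact.out : p.Prime)
  { r := T.r
    hr := isPlaceReductionModL_twoCharts T h0 h1
    hgen := principalGeneratedByIntegralG_of_isGen (X1gens M) A p hA hx hGB2
    Fr := FrR M p A hA
    dt := dt
    hcomm := hcomm
    hdia := hdia
    hK := hK
    hI := fun τ hτ P => r_smul_of_mem_inertia' T h0.gent c0 c1 hτ P
    hFr := fun σ' hσ' P => r_smul_of_isFrobeniusAt' T h0.gent c0 c1 hσ' P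
    inj := fun m y hm hmy hy =>
      phi3_of_gb2 (X1gens M) A hx hA hModel hGB2 T.r (isPlaceReductionModL_twoCharts T h0 h1)
        m hm y hmy hy }

/-! ### the diamond through `DiaPlaceInst` (helper95) -/

/-- the inverse diamond automorphism `(dia σ)⁻¹` (the `dia'` of the KRON chapter for
`σ₁₁ ≡ p`). -/
abbrev diaS (M : ℕ) [NeZero M] (σ : SL(2, ℤ)) (hσ : σ ∈ Gamma0 M) :
    FFK (L1 M).F₀ ≃ₐ[Qb] FFK (L1 M).F₀ :=
  (dia (A1 M) σ (acts1 M hσ)).symm

/-- the inverse diamond commutes with the arithmetic Galois action. -/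
theorem diaS_galois (τ : GQ) (f : FFK (L1 M).F₀) :
    diaS M σ hσ (arithmeticGalois (L1 M).F₀ τ • f) =
      arithmeticGalois (L1 M).F₀ τ • diaS M σ hσ f := by
  apply (dia (A1 M) σ (acts1 M hσ)).injective
  rw [AlgEquiv.apply_symm_apply,
    arithmeticGalois_smul_dia (A1 M) (acts1 M hσ) (preservesRat1 M hσ) τ,
    AlgEquiv.apply_symm_apply]

/-- **`LocalHyps` from one two-chart model, the diamond through `DiaPlaceInst`**: the reduced
diamond is `dt := dts⁻¹`, `dts := reducedDia T c0 (dia σ)⁻¹ hs hfrac`; remaining diamond inputs: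
`hs` (the diamond fixes the chart coordinate) and `hfrac` ((L4) for chart `0`); (ES-div) `hK` is
stated with `δ := dts` as in the KRON chapter. -/
def localHyps_of_twoCharts_dia (hA : A.LiesOverPrime p)
    {x : ↥(laurentBaseChange Qb (X1gens M).FQ)} {hx : IsGen Qb x}
    (T : TwoCharts A hx ↥(FtR M A))
    (h0 : ChartInputs A (X1gens M).FQ (FtR M A) T.S0)
    (h1 : ChartInputs A (X1gens M).FQ (FtR M A) T.S1)
    (c0 : CoeffChart (F₀ := (X1gens M).FQ) T.S0) (c1 : CoeffChart (F₀ := (X1gens M).FQ) T.S1)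
    (hGB2 : GB2Step (X1gens M) A) (hModel : ModelStepG (X1gens M).FQ A)
    (hs : diaS M σ hσ T.S0.s = T.S0.s) (hfrac : FracRed T.S0)
    (hK : ∀ D : Divisor Qb (FFb (L1 M).F₀),
      Finsupp.mapDomain T.r (CpDiv (analyticGensK M) p D) =
        (FrR M p A hA * reducedDia T c0 (diaS M σ hσ) hs hfrac) • Finsupp.mapDomain T.r D +
          (p : ℤ) • ((FrR M p A hA)⁻¹ • Finsupp.mapDomain T.r D)) :
    LocalHyps M p A σ hσ :=
  haveI : IsAlgClosed (kA A) := Fermat.Agent.ES.KRON.KronInst10.isAlgClosed_residueField A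
  haveI : CharP (kA A) p :=
    Fermat.Agent.ES.KRON.KronInst10.charP_residueField A (Fact.out : p.Prime) hA
  haveI : ExpChar (kA A) p := ExpChar.prime (Fact.out : p.Prime)
  localHyps_of_twoCharts hA T h0 h1 c0 c1 hGB2 hModel
    (reducedDia T c0 (diaS M σ hσ) hs hfrac)⁻¹
    (by
      obtain ⟨σ', hσ'⟩ :=
        Fermat.Agent.ES.FROB.FrobFacts12.exists_isFrobeniusAt_of p (Fact.out : p.Prime) A hA
      exact (commute_frobSemi T c0 (diaS M σ hσ) hs hfrac
        (fun τ f => diaS_galois τ f) hσ').inv_left)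
    (fun P => by
      have h := Fermat.Agent.DS.G.ES.RED.DiaPlaceInst.hdia T c0 c1 (diaS M σ hσ) hs hfrac h0.gent
        (dia (A1 M) σ (acts1 M hσ) • P)
      rw [eq_inv_smul_iff, ← h]
      congr 1
      exact inv_smul_smul (dia (A1 M) σ (acts1 M hσ)) P)
    (by rw [inv_inv]; exact hK)

end Fermat.Agent.DS.G.Top.LocalInstT
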