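/-
DS programme (S48), GEO half, brick GEO-FIN-LOCALINST (helper54), LAYER C:
**the local statement of `G/Top/Final.lean` from the reduction package** `RedPack.Pack (X1gens M) n e p A`
(helper93, `X1Inst.exists_pack_X1`) and the KRON instance `hK`.

* `hs_of_pack`    : the inverse diamond fixes the chart coordinate `t = tq · n e` (`HECKE/DiaFixX0`);
* `hfrac_of_pack` : (L4) for chart `0` (`ES/RED/L4Inst16.chartLevels_L4`, Igusa input from
  `Bridge79.degIrrStep_of_gaussInputs`);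
* `localHyps_of_pack` : `LocalInst.LocalHyps M p A σ hσ` from a package and (ES-div) `hK`;
* `KronAt M p A hA σ hσ` : the statement (ES-div) at every package (output of `Top/KronInst`);
* `localStatement_of` : the local statement (verbatim `Final.LocalStatement`, unfolded) from
  `X1Inst.X1Hyps` at all instances and `KronAt` at all instances.
-/
import Mathlib
import Fermat.Agent.DS.G.Top.LocalInstT
import Fermat.Agent.DS.G.ES.RED.X1Inst
import Fermat.Agent.DS.G.ES.RED.L4Inst16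
import Fermat.Agent.DS.G.ES.RED.Bridge79
import Fermat.Agent.DS.G.HECKE.DiaFixX0

set_option autoImplicit false
set_option linter.style.haveILetI false
set_option linter.unusedSectionVars false
set_option linter.style.longLine false

noncomputable section

open AlgebraicCurve ModularCurve CongruenceSubgroup
open scoped MatrixGroups

namespace Fermat.Agent.DS.G.Top.LocalInstFinal

open Fermat.Agent.DS.G.Top.TorsionGalois Fermat.Agent.DS.G.Top.TorsionGaloisQ
open Fermat.Agent.DS.G.Top.LocalInst Fermat.Agent.DS.G.Top.LocalInstT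
open Fermat.Agent.DS.G.HECKE Fermat.Agent.DS.G.HECKE.Top Fermat.Agent.DS.G.HECKE.TopG
open Fermat.Agent.DS.G.HECKE.Iface Fermat.Agent.DS.G.HECKE.Diamond
open Fermat.Agent.DS.X1.Level1 Fermat.Agent.DS.X1.Inst13
open Fermat.Agent.DS.G.RED.Defs
open Fermat.Agent.DS.G.ES.RED.Iface
open Fermat.Agent.DS.G.ES.RED.RedPack Fermat.Agent.DS.G.ES.RED.X1Inst
open Fermat.Agent.DS.G.ES.RED.DiaPlace Fermat.Agent.DS.G.ES.RED.DiaPlaceInst
open Fermat.Agent.DS.G.ES.KRON.FrobPlace13
open Fermat.Agent.ES.RED.Contract8 Fermat.Agent.ES.RED.TwoCharts8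
open Fermat.Agent.RED.BASE.Hauptmodul12
open Fermat.Agent.X0.FF

local notation "Qb" => AlgebraicClosure ℚ
local notation "GQ" => (AlgebraicClosure ℚ ≃ₐ[ℚ] AlgebraicClosure ℚ)

variable {M : ℕ} [NeZero M] {p : ℕ} [hpF : Fact p.Prime] {A : ValuationSubring Qb}
  {σ : SL(2, ℤ)} {hσ : σ ∈ Gamma0 M} {n e : ℕ} [NeZero n]

/-- **(hs)**: the inverse diamond fixes the chart coordinate of a reduction package. -/
theorem hs_of_pack (P : Pack (X1gens M) n e p A) (hb : BaseHyp n e) (hnM : n ∣ M) :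
    diaS M σ hσ P.T.S0.s = P.T.S0.s := by
  rw [P.hs0]
  exact Fermat.Agent.DS.G.HECKE.DiaFixX0.dia_symm_eq_self_of_mem_full M hσ _
    (tMem_of_dvd hb hnM)

/-- **(hfrac)**: (L4) for chart `0` of a reduction package. -/
theorem hfrac_of_pack (hA : A.LiesOverPrime p) (P : Pack (X1gens M) n e p A) (hb : BaseHyp n e)
    (hG : Fermat.Agent.DS.G.RED.ModelMain4.GaussInputs (X1gens M).FQ A) : FracRed P.T.S0 :=
  Fermat.Agent.DS.G.ES.RED.L4Inst16.chartLevels_L4 P.T.S0
    (fun b hb' => (P.c0.mem_iff b).mpr hb') P.c0.red_eq n e p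
    (Fermat.Agent.DS.G.ES.RED.Bridge79.degIrrStep_of_gaussInputs hG) P.hmem (tGenBase' hb) hA
    (Or.inl P.hs0)

/-- **`LocalHyps` from a reduction package** and (ES-div). -/
def localHyps_of_pack (hA : A.LiesOverPrime p) (P : Pack (X1gens M) n e p A)
    (hs : diaS M σ hσ P.T.S0.s = P.T.S0.s) (hfrac : FracRed P.T.S0)
    (hK : ∀ D : Divisor Qb (FFb (L1 M).F₀),
      Finsupp.mapDomain P.T.r (CpDiv (analyticGensK M) p D) =
        (FrR M p A hA * reducedDia P.T P.c0 (diaS M σ hσ) hs hfrac) • Finsupp.mapDomain P.T.r D +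
          (p : ℤ) • ((FrR M p A hA)⁻¹ • Finsupp.mapDomain P.T.r D)) :
    LocalHyps M p A σ hσ :=
  haveI : IsAlgClosed (kA A) := Fermat.Agent.ES.KRON.KronInst10.isAlgClosed_residueField A
  haveI : CharP (kA A) p :=
    Fermat.Agent.ES.KRON.KronInst10.charP_residueField A (Fact.out : p.Prime) hA
  haveI : ExpChar (kA A) p := ExpChar.prime (Fact.out : p.Prime)
  { r := P.T.r
    hr := P.hr
    hgen := P.hgen
    Fr := FrR M p A hA
    dt := (reducedDia P.T P.c0 (diaS M σ hσ) hs hfrac)⁻¹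
    hcomm := by
      obtain ⟨σ', hσ'⟩ :=
        Fermat.Agent.ES.FROB.FrobFacts12.exists_isFrobeniusAt_of p (Fact.out : p.Prime) A hA
      exact (commute_frobSemi P.T P.c0 (diaS M σ hσ) hs hfrac
        (fun τ f => diaS_galois τ f) hσ').inv_left
    hdia := fun Q => by
      have h := Fermat.Agent.DS.G.ES.RED.DiaPlaceInst.hdia P.T P.c0 P.c1 (diaS M σ hσ) hs hfrac P.h0.gent
        (dia (A1 M) σ (acts1 M hσ) • Q)
      rw [eq_inv_smul_iff, ← h]
      congr 1
      exact inv_smul_smul (dia (A1 M) σ (acts1 M hσ)) Q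
    hK := by rw [inv_inv]; exact hK
    hI := fun τ hτ Q => P.hI τ hτ Q
    hFr := fun σ' hσ' Q => P.hFr σ' hσ' Q
    inj := fun m y hm hmy hy => P.inj P.hr m y hm hmy hy }

/-- **The KRON instance at `(M, p, A, σ)`**: (ES-div) with the reduced inverse diamond, for every
reduction package (the output of `Top/KronInst`). -/
def KronAt (M : ℕ) [NeZero M] (p : ℕ) [Fact p.Prime] (A : ValuationSubring Qb)
    (hA : A.LiesOverPrime p) (σ : SL(2, ℤ)) (hσ : σ ∈ Gamma0 M) : Prop :=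
  ∀ (n e : ℕ) [NeZero n], BaseHyp n e → n ∣ M → ∀ (P : Pack (X1gens M) n e p A)
    (hs : diaS M σ hσ P.T.S0.s = P.T.S0.s) (hfrac : FracRed P.T.S0)
    (D : Divisor Qb (FFb (L1 M).F₀)),
      Finsupp.mapDomain P.T.r (CpDiv (analyticGensK M) p D) =
        (FrR M p A hA * reducedDia P.T P.c0 (diaS M σ hσ) hs hfrac) • Finsupp.mapDomain P.T.r D +
          (p : ℤ) • ((FrR M p A hA)⁻¹ • Finsupp.mapDomain P.T.r D)

/-- **The local inputs at `L1 M`** from `X1Hyps` and the KRON instance. -/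
theorem nonempty_localInputs (hM : 4 ∣ M ∨ 9 ∣ M) (hA : A.LiesOverPrime p)
    (HX : ∀ (n e : ℕ) [NeZero n], BaseHyp n e → n ∣ M → X1Hyps M p A n e)
    (HK : KronAt M p A hA σ hσ) :
    Nonempty (LocalInputs (L1 M).F₀ p A (T1 M p σ hσ) (dia1 M σ hσ)) := by
  obtain ⟨n, e, hn, hb, hnM, ⟨P⟩⟩ := exists_pack_X1 M hM p A hA HX
  have hs : diaS M σ hσ P.T.S0.s = P.T.S0.s := hs_of_pack P hb hnM
  have hfrac : FracRed P.T.S0 := hfrac_of_pack hA P hb (HX n e hb hnM).gauss
  exact nonempty_localInputs_of_hyps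
    (localHyps_of_pack hA P hs hfrac (HK n e hb hnM P hs hfrac))

/-- **The local statement** (`Final.LocalStatement`, unfolded) from the chapter outputs `X1Hyps`
(IGU-INST, GB2, MODEL, E06) and the KRON instance at all instances. -/
theorem localStatement_of
    (HX : ∀ (M : ℕ) [NeZero M], (4 ∣ M ∨ 9 ∣ M) → ∀ (p : ℕ) [Fact p.Prime], ¬ p ∣ M →
      ∀ A : ValuationSubring Qb, A.LiesOverPrime p →
        ∀ (n e : ℕ) [NeZero n], BaseHyp n e → n ∣ M → X1Hyps M p A n e)
    (HK : ∀ (M : ℕ) [NeZero M], (4 ∣ M ∨ 9 ∣ M) → ∀ (p : ℕ) [Fact p.Prime], ¬ p ∣ M →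
      ∀ (A : ValuationSubring Qb) (hA : A.LiesOverPrime p) (σ : SL(2, ℤ)) (hσ : σ ∈ Gamma0 M),
        ((σ 1 1 : ℤ) : ZMod M) = (p : ZMod M) → KronAt M p A hA σ hσ) :
    ∀ (M : ℕ) [NeZero M], (4 ∣ M ∨ 9 ∣ M) → ∀ (p : ℕ) [Fact p.Prime], ¬ p ∣ M →
      ∀ A : ValuationSubring Qb, A.LiesOverPrime p →
        ∀ (σ : SL(2, ℤ)) (hσ : σ ∈ Gamma0 M), ((σ 1 1 : ℤ) : ZMod M) = (p : ZMod M) →
          Nonempty (LocalInputs (L1 M).F₀ p A (T1 M p σ hσ) (dia1 M σ hσ)) :=
  fun M _ hM p _ hpM A hA σ hσ hσp =>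
    nonempty_localInputs hM hA (fun n e _ hb hnM => HX M hM p hpM A hA n e hb hnM)
      (HK M hM p hpM A hA σ hσ hσp)

end Fermat.Agent.DS.G.Top.LocalInstFinal
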