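/-
DS programme (S48), GEO last mile (helper57): **the KRON instance `LocalInstFinal.KronAt` at every
`(M, p, A, σ)`**, `p ∤ M`, `σ ∈ Γ₀(M)` with `σ₁₁ ≡ p mod M` — the last open input of
`LocalFinal.localStatement_of_kron` / `Final.LocalStatement`.

`kronAt_L1 M hM p hpM A hA σ hσ hσp : KronAt M p A hA σ hσ` is `KronInst.hK_L1_of_tF` at the two-chart
model of a reduction package `P : RedPack.Pack (X1gens M) n e p A` (`T := P.T`, `h0 h1 := P.h0 P.h1`,
`c0 c1 := P.c0 P.c1`, chart coordinate `P.hs0 : P.T.S0.s = tF (X1gens M) n e P.hmem`).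
-/
import Mathlib
import Fermat.Agent.DS.G.Top.KronInst
import Fermat.Agent.DS.G.Top.LocalInstFinal

set_option autoImplicit false
set_option linter.unusedSectionVars false
set_option linter.style.haveILetI false

noncomputable section

open AlgebraicCurve ModularCurve CongruenceSubgroup
open scoped MatrixGroups

namespace Fermat.Agent.DS.G.Top.KronAtL1

open Fermat.Agent.DS.G.Top.LocalInstT Fermat.Agent.DS.G.Top.LocalInstFinal
open Fermat.Agent.DS.G.HECKE.TopG
open Fermat.Agent.ES.RED.Contract8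

local notation "Qb" => AlgebraicClosure ℚ

/-- **The KRON instance at `(M, p, A, σ)`.** -/
theorem kronAt_L1 (M : ℕ) [NeZero M] (_hM : 4 ∣ M ∨ 9 ∣ M) (p : ℕ) [Fact p.Prime] (hpM : ¬ p ∣ M)
    (A : ValuationSubring Qb) (hA : A.LiesOverPrime p) (σ : SL(2, ℤ)) (hσ : σ ∈ Gamma0 M)
    (hσp : ((σ 1 1 : ℤ) : ZMod M) = (p : ZMod M)) : KronAt M p A hA σ hσ := by
  intro n e _ _ _ P hs hfrac D
  haveI : IsAlgClosed (kA A) := Fermat.Agent.ES.KRON.KronInst10.isAlgClosed_residueField A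
  haveI : CharP (kA A) p :=
    Fermat.Agent.ES.KRON.KronInst10.charP_residueField A (Fact.out : p.Prime) hA
  have key := KronInst.hK_L1_of_tF M hpM P.T P.h0 P.h1 P.c0 P.c1 hσ hσp hs hfrac n e P.hmem P.hs0 D
  unfold FrR
  exact key

/-- the same for all instances: the hypothesis `HK` of `LocalInstFinal.localStatement_of` and of
`LocalFinal.localStatement_of_kron`. -/
theorem kronAt_all : ∀ (M : ℕ) [NeZero M], (4 ∣ M ∨ 9 ∣ M) → ∀ (p : ℕ) [Fact p.Prime], ¬ p ∣ M →
    ∀ (A : ValuationSubring Qb) (hA : A.LiesOverPrime p) (σ : SL(2, ℤ)) (hσ : σ ∈ Gamma0 M),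
      ((σ 1 1 : ℤ) : ZMod M) = (p : ZMod M) → KronAt M p A hA σ hσ :=
  fun M _ hM p _ hpM A hA σ hσ hσp => kronAt_L1 M hM p hpM A hA σ hσ hσp

end Fermat.Agent.DS.G.Top.KronAtL1
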