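/-
DS programme (S48), GEO half, brick KS-Q (helper71): **the Kummer system of `Pic⁰(ℚ̄ · F₀)`**.

For a rational function field `F₀ ⊆ ℚ((q))`, an analytic model `A : CModel (ℂ · F₀)` (chapter G-KUM)
and a generator fact `hQ : IsGen ℚ̄ xQ`, the Kummer maps `kumQAdd A hQ (hgen A) (p ^ k)` of
`DS/G/HECKE/KumQG` (= `kummerC ∘ torsionEquivC`) form a `TateChar11.KummerSystem p A.Gam (Pic⁰(F_ℚ̄))`:
transport of `KUM/Final.kummerSystem A p` along the torsion isomorphism `ℚ̄ → ℂ`.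
`kummerSystemQ_κ` identifies its components with `kumQAdd` (so `CompatG.kumQAdd_corr/_smul` apply).
-/
import Mathlib
import Fermat.Agent.DS.G.HECKE.KumQG
import Fermat.Agent.DS.G.ES.KUM.Final

set_option autoImplicit false
set_option linter.style.haveILetI false
set_option linter.unusedSectionVars false
set_option linter.style.longLine false

open AlgebraicCurve
open scoped MatrixGroups

noncomputable section

namespace Fermat.Agent.DS.G.Top.KumSysQ

open Fermat.Agent.X0 Fermat.Agent.X0.SurjPoint ModularCurve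
open Fermat.Agent.DS.G.HECKE.DescG Fermat.Agent.DS.G.HECKE.KumQG
open Fermat.Agent.DS.G.ES.KUM.Iface Fermat.Agent.DS.G.ES.KUM.CReal5
open Fermat.Agent.DS.G.ES.KUM
open Fermat.Agent.ES.J.TateChar11 (KummerSystem tors X Xpar mem_tors mem_Xpar_iff)

attribute [local instance] instAlgebraQbarComplex instTowerQbarComplex

variable {F₀ : IntermediateField ℚ (LaurentSeries ℚ)} (A : CModel (FCx F₀))
variable {xQ : FQ F₀} (hQ : FF.IsGen Qb xQ)

theorem neZero_pow_of_prime (p : ℕ) [hp : Fact p.Prime] (k : ℕ) : NeZero (p ^ k) :=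
  ⟨pow_ne_zero k hp.out.ne_zero⟩

include A in
/-- finiteness of the torsion over `ℂ`, as a local instance source. -/
theorem finite_torsionC (n : ℕ) [NeZero n] : Finite (Pic0.torsion ℂ (FCx F₀) n) :=
  Final.finite_torsion A n

/-- the level-`p ^ k` Kummer map over `ℚ̄`. -/
def kappaQ (p : ℕ) [hp : Fact p.Prime] (k : ℕ) :
    ↥(Pic0.torsion Qb (FQ F₀) (p ^ k)) →+ Additive (↥A.Gam →* ℂˣ) :=
  haveI := neZero_pow_of_prime p k
  haveI := finite_torsionC A (p ^ k)
  kumQAdd A hQ (Final.hgen A) (p ^ k)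

theorem kappaQ_eq (p : ℕ) [hp : Fact p.Prime] (k : ℕ) [NeZero (p ^ k)]
    [Finite (Pic0.torsion ℂ (FCx F₀) (p ^ k))] :
    kappaQ A hQ p k = kumQAdd A hQ (Final.hgen A) (p ^ k) := rfl

theorem kappaQ_apply (p : ℕ) [hp : Fact p.Prime] (k : ℕ) [NeZero (p ^ k)]
    [Finite (Pic0.torsion ℂ (FCx F₀) (p ^ k))] (x : ↥(Pic0.torsion Qb (FQ F₀) (p ^ k))) :
    kappaQ A hQ p k x =
      (Final.kummerSystem A p).κ k (torsionEquivC hQ (Final.hgen A) (p ^ k) x) := rfl

/-- level compatibility of the Kummer maps over `ℚ̄`. -/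
theorem kappaQ_compat (p : ℕ) [hp : Fact p.Prime] (k : ℕ)
    (x : ↥(Pic0.torsion Qb (FQ F₀) (p ^ (k + 1))))
    (hx : p • (x : Pic0 Qb (FQ F₀)) ∈ Pic0.torsion Qb (FQ F₀) (p ^ k)) :
    kappaQ A hQ p k ⟨p • (x : Pic0 Qb (FQ F₀)), hx⟩ = p • kappaQ A hQ p (k + 1) x := by
  haveI := neZero_pow_of_prime p k
  haveI := neZero_pow_of_prime p (k + 1)
  haveI := finite_torsionC A (p ^ k)
  haveI := finite_torsionC A (p ^ (k + 1))
  haveI : NeZero p := ⟨hp.out.ne_zero⟩
  rw [kappaQ_eq, kappaQ_eq, kumQAdd_apply, kumQAdd_apply]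
  refine Final.kummer_pow_succ A p k (torsionEquivC hQ (Final.hgen A) (p ^ (k + 1)) x)
    (torsionEquivC hQ (Final.hgen A) (p ^ k) ⟨p • (x : Pic0 Qb (FQ F₀)), hx⟩) ?_
  rw [coe_torsionEquivC_apply, coe_torsionEquivC_apply, map_nsmul]

/-- **The Kummer system of `Pic⁰(ℚ̄ · F₀)`.** -/
def kummerSystemQ (p : ℕ) [hp : Fact p.Prime] : KummerSystem p A.Gam (Pic0 Qb (FQ F₀)) where
  κ k := kappaQ A hQ p k
  inj k := by
    haveI := neZero_pow_of_prime p k
    haveI := finite_torsionC A (p ^ k)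
    exact kumQAdd_injective A hQ (Final.hgen A) (p ^ k) (Final.kummer_injective A (p ^ k))
  range_eq k χ := by
    haveI := neZero_pow_of_prime p k
    haveI := finite_torsionC A (p ^ k)
    rw [← (Final.kummerSystem A p).range_eq k χ]
    constructor
    · rintro ⟨x, rfl⟩
      exact ⟨torsionEquivC hQ (Final.hgen A) (p ^ k) x, rfl⟩
    · rintro ⟨y, rfl⟩
      obtain ⟨x, rfl⟩ := (torsionEquivC hQ (Final.hgen A) (p ^ k)).surjective y
      exact ⟨x, rfl⟩
  compat k x hx := kappaQ_compat A hQ p k x hx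

theorem kummerSystemQ_κ (p : ℕ) [hp : Fact p.Prime] (k : ℕ) [NeZero (p ^ k)]
    [Finite (Pic0.torsion ℂ (FCx F₀) (p ^ k))] :
    (kummerSystemQ A hQ p).κ k = kumQAdd A hQ (Final.hgen A) (p ^ k) := rfl

include A hQ in
/-- `Pic⁰(ℚ̄ · F₀)[n]` is finite (set form of `Geo/TateJOne`). -/
theorem finite_setOf_nsmul_eq_zero_Q (n : ℕ) [NeZero n] :
    {y : Pic0 Qb (FQ F₀) | n • y = 0}.Finite :=
  haveI := finite_torsionC A n
  Fermat.Agent.DS.G.HECKE.DescG.finite_setOf_nsmul_eq_zero hQ (Final.hgen A) n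

end Fermat.Agent.DS.G.Top.KumSysQ
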