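/-
DS programme (S48), GEO half, brick GEO-FIN-LOCALINST (helper54), LAYER D (end game, item (3) of
helper71's plan): **the local statement `Final.LocalStatement` from the KRON instance alone.**

Everything on the reduction side is discharged from landed, unconditional files:

* the three smoothness targets at `L1 M` (`G/RED/TargetsL1.targets_L1_four / _nine`, helper19);
* (MODEL) over the number fields (`G/RED/ModelStepL1.modelStep_L1`, helper19/helper29);
* the two-chart model over `A` (`ES/TOP/ModelOf52.model_of_targets'`, helper52);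
* `GaussInputs` (`GaussInputsX1.gaussInputs_X1gens`, helper55), (GB2)
  (`GB2Final31.gb2Step_X1gens_of_dvd`, helper31), inside `X1Final.nonempty_pack_X1_final` (helper93);
* `hs`, `hfrac`, `LocalHyps`, `LocalInputs` (`Top/LocalInstFinal`).

* `nonempty_pack_of_targets`, `nonempty_pack_four`, `nonempty_pack_nine` : the reduction package
  `RedPack.Pack (X1gens M) n e p A`, unconditional;
* `nonempty_localInputs_of_pack` : the local inputs from a package and `KronAt`;
* `KronStatement` : `LocalInstFinal.KronAt` at all instances (output of `Top/KronInst`);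
* `localStatement_of_kron : KronStatement → Final.LocalStatement`.
-/
import Mathlib
import Fermat.Agent.DS.G.Top.LocalInstFinal
import Fermat.Agent.DS.G.Top.Final
import Fermat.Agent.DS.G.ES.RED.X1Final
import Fermat.Agent.DS.G.RED.TargetsL1
import Fermat.Agent.DS.G.ES.TOP.ModelOf52

set_option autoImplicit false
set_option linter.style.haveILetI false
set_option linter.unusedSectionVars false
set_option linter.style.longLine false

noncomputable section

open AlgebraicCurve ModularCurve CongruenceSubgroup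
open scoped MatrixGroups

namespace Fermat.Agent.DS.G.Top.LocalFinal

open Fermat.Agent.DS.G.Top.TorsionGalois Fermat.Agent.DS.G.Top.TorsionGaloisQ
open Fermat.Agent.DS.G.Top.LocalInst Fermat.Agent.DS.G.Top.LocalInstT
open Fermat.Agent.DS.G.Top.LocalInstFinal
open Fermat.Agent.DS.G.HECKE.Top
open Fermat.Agent.DS.X1.Level1
open Fermat.Agent.DS.G.ES.RED.Iface
open Fermat.Agent.DS.G.ES.RED.RedPack Fermat.Agent.DS.G.ES.RED.X1Inst
open Fermat.Agent.DS.G.ES.RED.X1Final
open Fermat.Agent.DS.G.RED.ModelTargets4 (OffTarget OverTarget InfTarget)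
open Fermat.Agent.RED.BASE.Hauptmodul12 (BaseHyp baseHyp_four baseHyp_nine tGenBase')
open Fermat.Agent.RED.BASE.CuspExpMain11 (cvT)

local notation "Qb" => AlgebraicClosure ℚ

variable {M : ℕ} [NeZero M] {p : ℕ} [hpF : Fact p.Prime] {A : ValuationSubring Qb}
  {σ : SL(2, ℤ)} {hσ : σ ∈ Gamma0 M} {n e : ℕ} [NeZero n]

/-- **The reduction package at `X1gens M`** from the three smoothness targets. -/
theorem nonempty_pack_of_targets (hM : 4 ∣ M ∨ 9 ∣ M) (hpM : ¬ p ∣ M) (hA : A.LiesOverPrime p)
    (hb : BaseHyp n e) (hnM : n ∣ M)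
    (ht : OffTarget (L1 M).F₀ n e A (cvT n e M) ∧ OverTarget (L1 M).F₀ n e A (cvT n e M) ∧
      InfTarget (L1 M).F₀ n e A) :
    Nonempty (Pack (X1gens M) n e p A) :=
  nonempty_pack_X1_final M hM p hpM A hA hb
    (Fermat.Agent.DS.G.RED.ModelStepL1.modelStep_L1 M A hM hpM hA)
    (Fermat.Agent.DS.G.ES.TOP.ModelOf52.model_of_targets' (X1gens M) n e p
      (tq_mem_X1 M hb hnM) (tGenBase' hb) A hA
      (Fermat.Agent.DS.X1.GB2Final31.gb2Step_X1gens_of_dvd M hM p hpM A hA)
      (Fermat.Agent.DS.G.ES.RED.GaussInputsX1.gaussInputs_X1gens M p hpM A hA)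
      (cvT n e M) ht.1 ht.2.1 ht.2.2)

/-- the reduction package, `4 ∣ M`, base pair `(4, 8)`: unconditional. -/
theorem nonempty_pack_four (hM : 4 ∣ M) (hpM : ¬ p ∣ M) (hA : A.LiesOverPrime p) :
    Nonempty (Pack (X1gens M) 4 8 p A) :=
  nonempty_pack_of_targets (Or.inl hM) hpM hA baseHyp_four hM
    (Fermat.Agent.DS.G.RED.TargetsL1.targets_L1_four M A hM hpM hA)

/-- the reduction package, `9 ∣ M`, base pair `(9, 3)`: unconditional. -/
theorem nonempty_pack_nine (hM : 9 ∣ M) (hpM : ¬ p ∣ M) (hA : A.LiesOverPrime p) :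
    Nonempty (Pack (X1gens M) 9 3 p A) :=
  nonempty_pack_of_targets (Or.inr hM) hpM hA baseHyp_nine hM
    (Fermat.Agent.DS.G.RED.TargetsL1.targets_L1_nine M A hM hpM hA)

/-- **The local inputs from a reduction package** and the KRON instance. -/
theorem nonempty_localInputs_of_pack (hpM : ¬ p ∣ M) (hA : A.LiesOverPrime p)
    (P : Pack (X1gens M) n e p A) (hb : BaseHyp n e) (hnM : n ∣ M)
    (HK : KronAt M p A hA σ hσ) :
    Nonempty (LocalInputs (L1 M).F₀ p A (T1 M p σ hσ) (dia1 M σ hσ)) := by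
  have hs : diaS M σ hσ P.T.S0.s = P.T.S0.s := hs_of_pack P hb hnM
  have hfrac : Fermat.Agent.DS.G.ES.RED.DiaPlace.FracRed P.T.S0 :=
    hfrac_of_pack hA P hb
      (Fermat.Agent.DS.G.ES.RED.GaussInputsX1.gaussInputs_X1gens M p hpM A hA)
  exact nonempty_localInputs_of_hyps
    (localHyps_of_pack hA P hs hfrac (HK n e hb hnM P hs hfrac))

/-- **The KRON instance at all instances** (output of `Top/KronInst`). -/
def KronStatement : Prop :=
  ∀ (M : ℕ) [NeZero M], (4 ∣ M ∨ 9 ∣ M) → ∀ (p : ℕ) [Fact p.Prime], ¬ p ∣ M →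
    ∀ (A : ValuationSubring Qb) (hA : A.LiesOverPrime p) (σ : SL(2, ℤ)) (hσ : σ ∈ Gamma0 M),
      ((σ 1 1 : ℤ) : ZMod M) = (p : ZMod M) → KronAt M p A hA σ hσ

/-- **The local statement from the KRON instance.** -/
theorem localStatement_of_kron (HK : KronStatement) : Final.LocalStatement := by
  intro M _ hM p _ hpM A hA σ hσ hσp
  rcases hM with h4 | h9
  · obtain ⟨P⟩ := nonempty_pack_four h4 hpM hA
    exact nonempty_localInputs_of_pack hpM hA P baseHyp_four h4
      (HK M (Or.inl h4) p hpM A hA σ hσ hσp)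
  · obtain ⟨P⟩ := nonempty_pack_nine h9 hpM hA
    exact nonempty_localInputs_of_pack hpM hA P baseHyp_nine h9
      (HK M (Or.inr h9) p hpM A hA σ hσ hσp)

end Fermat.Agent.DS.G.Top.LocalFinal
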