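/-
DS programme (S48), GEO half, GEO-FIN-LOCALINST plug (P5) (helper28): the field `inj` (= (Φ3)) of
`TorsionGaloisQ.LocalInputs (L1 M).F₀ p A T Dm` at the instance `D := X1gens M`.

`IsGen` is discharged (`KumSysQ.isGen_jQ1 M`).  The ONLY remaining hypotheses are
* `hModel : ModelMain4.ModelStep (L1 M).F₀ A`   (MODEL; helper77's top assembly), and
* `hGB2 : GaussUnit25.GB2Step (X1gens M) A`      ((GB2); IGU-FIN / DistMod),
plus the place reduction `(r, hr)` (E-chain top, X1Inst).

* `hgen_L1`   : `PrincipalGeneratedByIntegralG A (residue A) (L1 M).F₀ ((X1gens M).FC (kA A))` from (GB2);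
* `inj_L1_of_hgen` : (Φ3) for `red := reductionPic0AlongG r hr hgen` with an ARBITRARY proof `hgen`
  (only MODEL is used);
* `inj_L1`    : the same with `hgen := hgen_L1 ..`;
* `hred_L1`   : the field `hred`.
-/
import Mathlib
import Fermat.Agent.DS.G.RED.LocalRed
import Fermat.Agent.DS.X1.Level1
import Fermat.Agent.DS.G.ES.HEQ.KumSysQ

set_option autoImplicit false

open HahnSeries IntermediateField AlgebraicCurve ModularCurve

noncomputable section

namespace Fermat.Agent.DS.G.Top.Phi3Inst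

open Fermat.Agent.X0 Fermat.Agent.RED.Interface4
open Fermat.Agent.DS.G.RED.Defs Fermat.Agent.DS.G.RED.Iface Fermat.Agent.DS.G.RED.Num
open Fermat.Agent.DS.G.ES.RED.Iface Fermat.Agent.DS.G.ES.RED.GaussUnit25
open Fermat.Agent.DS.G.Top.TorsionGalois Fermat.Agent.DS.G.Top.TorsionGaloisQ
open Fermat.Agent.DS.X1.Level1 Fermat.Agent.DS.G.ES.HEQ.KumSysQ Fermat.Agent.DS.G.Level

variable (M : ℕ) [NeZero M] (A : ValuationSubring Qbar)

/-- `IsGen` for `ℚ̄ · F₁(M)`, in the form used by chapter G-RED. -/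
theorem isGen_L1 : FF.IsGen Qbar (jFL (L1 M)) := isGen_jQ1 M

/-- **(Rgen)** at `X1gens M` from (GB2). -/
theorem hgen_L1 (p : ℕ) [Fact p.Prime] (hA : A.LiesOverPrime p) (hGB2 : GB2Step (X1gens M) A) :
    PrincipalGeneratedByIntegralG A (IsLocalRing.residue A) (L1 M).F₀
      ((X1gens M).FC (IsLocalRing.ResidueField A)) :=
  Fermat.Agent.DS.G.RED.Rgen.principalGeneratedByIntegralG_of_isGen (X1gens M) A p hA
    (isGen_L1 M) hGB2

/-- the field `hred`. -/
theorem hred_L1
    (r : Place Qbar (FbarG (L1 M).F₀) →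
      Place (IsLocalRing.ResidueField A) ((X1gens M).FC (IsLocalRing.ResidueField A)))
    (hr : IsPlaceReductionAlongG A (IsLocalRing.residue A) (L1 M).F₀
      ((X1gens M).FC (IsLocalRing.ResidueField A)) r)
    (hgen : PrincipalGeneratedByIntegralG A (IsLocalRing.residue A) (L1 M).F₀
      ((X1gens M).FC (IsLocalRing.ResidueField A))) :
    RedHom r (reductionPic0AlongG r hr hgen) :=
  Fermat.Agent.DS.G.RED.LocalRed.redHom_reductionPic0AlongG r hr hgen

/-- **the field `inj`** at `X1gens M`, for an arbitrary proof `hgen` of (Rgen). -/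
theorem inj_L1_of_hgen {p : ℕ} [Fact p.Prime] (hA : A.LiesOverPrime p)
    (hModel : Fermat.Agent.DS.G.RED.ModelMain4.ModelStep (L1 M).F₀ A)
    (r : Place Qbar (FbarG (L1 M).F₀) →
      Place (IsLocalRing.ResidueField A) ((X1gens M).FC (IsLocalRing.ResidueField A)))
    (hr : IsPlaceReductionAlongG A (IsLocalRing.residue A) (L1 M).F₀
      ((X1gens M).FC (IsLocalRing.ResidueField A)) r)
    (hgen : PrincipalGeneratedByIntegralG A (IsLocalRing.residue A) (L1 M).F₀
      ((X1gens M).FC (IsLocalRing.ResidueField A))) :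
    ∀ (m : ℕ) (x : JF (L1 M).F₀), ¬ p ∣ m → m • x = 0 →
      reductionPic0AlongG r hr hgen x = 0 → x = 0 :=
  fun m x hm hmx hx =>
    Fermat.Agent.DS.G.RED.Phi3.phi3_of_modelMain4 (X1gens M) (isGen_L1 M) A hA hModel r hr hgen
      m hm x hmx hx

/-- **the field `inj`** at `X1gens M` from MODEL + (GB2). -/
theorem inj_L1 {p : ℕ} [Fact p.Prime] (hA : A.LiesOverPrime p)
    (hModel : Fermat.Agent.DS.G.RED.ModelMain4.ModelStep (L1 M).F₀ A)
    (hGB2 : GB2Step (X1gens M) A)
    (r : Place Qbar (FbarG (L1 M).F₀) →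
      Place (IsLocalRing.ResidueField A) ((X1gens M).FC (IsLocalRing.ResidueField A)))
    (hr : IsPlaceReductionAlongG A (IsLocalRing.residue A) (L1 M).F₀
      ((X1gens M).FC (IsLocalRing.ResidueField A)) r) :
    ∀ (m : ℕ) (x : JF (L1 M).F₀), ¬ p ∣ m → m • x = 0 →
      reductionPic0AlongG r hr (hgen_L1 M A p hA hGB2) x = 0 → x = 0 :=
  inj_L1_of_hgen M A hA hModel r hr (hgen_L1 M A p hA hGB2)

end Fermat.Agent.DS.G.Top.Phi3Inst

end
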