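/-
DS programme (S48), GEO half, GEO-FIN-LOCALINST plug (P5), FINAL form (helper28): the fields
`hgen` and `inj` of `LocalInst.LocalHyps M p A σ hσ` at the S48 levels (`4 ∣ M` or `9 ∣ M`,
`p ∤ M`), with (GB2) discharged by `GB2Final31.gb2Step_X1gens_of_dvd` (helper31/helper27/helper11).

The ONLY remaining hypothesis is MODEL: `ModelMain4.ModelStep (L1 M).F₀ A`.
-/
import Mathlib
import Fermat.Agent.DS.G.Top.Phi3Inst
import Fermat.Agent.DS.X1.GB2Final31

set_option autoImplicit false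

open HahnSeries IntermediateField AlgebraicCurve ModularCurve

noncomputable section

namespace Fermat.Agent.DS.G.Top.Phi3Final

open Fermat.Agent.RED.Interface4
open Fermat.Agent.DS.G.RED.Defs Fermat.Agent.DS.G.RED.Iface
open Fermat.Agent.DS.G.ES.RED.Iface Fermat.Agent.DS.G.ES.RED.GaussUnit25
open Fermat.Agent.DS.G.Top.TorsionGaloisQ
open Fermat.Agent.DS.X1.Level1 Fermat.Agent.DS.G.Top.Phi3Inst

variable (M : ℕ) [NeZero M] (hM : 4 ∣ M ∨ 9 ∣ M) (p : ℕ) [Fact p.Prime] (hpM : ¬ p ∣ M)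
  (A : ValuationSubring Qbar) (hA : A.LiesOverPrime p)

include hM hpM hA

/-- (GB2) at the S48 levels. -/
theorem gb2_L1 : GB2Step (X1gens M) A :=
  Fermat.Agent.DS.X1.GB2Final31.gb2Step_X1gens_of_dvd M hM p hpM A hA

/-- **the field `hgen`**, unconditional. -/
theorem hgen_L1_final :
    PrincipalGeneratedByIntegralG A (IsLocalRing.residue A) (L1 M).F₀
      ((X1gens M).FC (IsLocalRing.ResidueField A)) :=
  hgen_L1 M A p hA (gb2_L1 M hM p hpM A hA)

/-- **the field `inj`** with `hgen := hgen_L1_final ..`: only MODEL is left. -/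
theorem inj_L1_final
    (hModel : Fermat.Agent.DS.G.RED.ModelMain4.ModelStep (L1 M).F₀ A)
    (r : Place Qbar (FbarG (L1 M).F₀) →
      Place (IsLocalRing.ResidueField A) ((X1gens M).FC (IsLocalRing.ResidueField A)))
    (hr : IsPlaceReductionAlongG A (IsLocalRing.residue A) (L1 M).F₀
      ((X1gens M).FC (IsLocalRing.ResidueField A)) r) :
    ∀ (m : ℕ) (x : JF (L1 M).F₀), ¬ p ∣ m → m • x = 0 →
      reductionPic0AlongG r hr (hgen_L1_final M hM p hpM A hA) x = 0 → x = 0 :=
  inj_L1_of_hgen M A hA hModel r hr (hgen_L1_final M hM p hpM A hA)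

end Fermat.Agent.DS.G.Top.Phi3Final

end
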