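/-
DS programme (S48), GEO half, brick GEO-FIN-TG (helper54), PLUG into the Tate back end.

`tateDataOfLocalInputs` : helper93's `Geo/TateOfTorsion.tateDataOfTorsion` with its two arithmetic
hypotheses `hinertia`, `hfrob` discharged by `TorsionGaloisQ.LocalInputs` at every `p ∤ M`,
`p ≠ ℓ` and every valuation subring `A` of `ℚ̄` over `p`, for `J = Pic⁰(ℚ̄ · F₀)`.
-/
import Mathlib
import Fermat.Agent.DS.G.Top.TorsionGaloisQ
import Fermat.Agent.DS.Geo.TateOfTorsion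

set_option autoImplicit false

noncomputable section

namespace Fermat.Agent.DS.G.Top.TorsionGaloisPlug

open Fermat.Agent.DS.G.Top.TorsionGaloisQ Fermat.Agent.DS.Geo.TateOfTorsion
open Fermat.Agent.ES.J.TateModule13
open Fermat.Agent.DS.Hecke1.Algebra Fermat.Agent.DS.Hecke1.HeckeT1 Fermat.Agent.DS.Hecke1.Diamond
open Fermat.Agent.DS.Geo.ContractOfTate

local notation "Qb" => AlgebraicClosure ℚ
local notation "GQ" => (AlgebraicClosure ℚ ≃ₐ[ℚ] AlgebraicClosure ℚ)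

variable {F₀ : IntermediateField ℚ (LaurentSeries ℚ)} {M : ℕ} [NeZero M] {ℓ : ℕ}
  [hℓ : Fact ℓ.Prime]
variable {Λ : Type*} [AddCommGroup Λ] (T : T2 M →+* Module.End ℤ Λ)
  {ι₀ : Λ →ₗ[ℤ] TateModule ℓ (JF F₀)} (hι₀ : IsBaseChange ℤ_[ℓ] ι₀)
variable (Tp : ∀ p : ℕ, p.Prime → ¬ p ∣ M → (JF F₀ →+ JF F₀)) (Dia : (ZMod M)ˣ → (JF F₀ →+ JF F₀))
  (hTpG : ∀ (p : ℕ) (hp : p.Prime) (hpM : ¬ p ∣ M) (σ : GQ) (x : JF F₀),
    Tp p hp hpM (σ • x) = σ • Tp p hp hpM x)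
  (hDiaG : ∀ (d : (ZMod M)ˣ) (σ : GQ) (x : JF F₀), Dia d (σ • x) = σ • Dia d x)
  (hι₀Tp : ∀ (p : ℕ) (hp : p.Prime) (hpM : ¬ p ∣ M) (x : Λ),
    map (Tp p hp hpM) (ι₀ x) = ι₀ (T (heckeAlgebra1.T hp hpM) x))
  (hι₀Dia : ∀ (d : (ZMod M)ˣ) (x : Λ), map (Dia d) (ι₀ x) = ι₀ (T (heckeAlgebra1.dia d) x))

/-- **`TateData M ℓ` from the local inputs of the reduction chapters.** -/
def tateDataOfLocalInputs [Module.Finite ℤ Λ] (hT : Function.Injective T)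
    (hfin : {y : JF F₀ | ℓ • y = 0}.Finite)
    (hlevel : ∃ L : IntermediateField ℚ Qb, FiniteDimensional ℚ L ∧
      ∀ σ : GQ, (∀ a ∈ L, σ a = a) → ∀ y : JF F₀, ℓ • y = 0 → σ • y = y)
    (h : ∀ (p : ℕ) (hp : p.Prime) (hpM : ¬ p ∣ M), p ≠ ℓ → ∀ A : ValuationSubring Qb,
      A.LiesOverPrime p → Nonempty (LocalInputs F₀ p A (Tp p hp hpM) (Dia (unitP hp hpM)))) :
    TateData M ℓ :=
  tateDataOfTorsion T hι₀ Tp Dia hTpG hDiaG hι₀Tp hι₀Dia hT hfin hlevel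
    (hinertia_of_localInputs Tp Dia hℓ.out h) (hfrob_of_localInputs Tp Dia hℓ.out h)

end Fermat.Agent.DS.G.Top.TorsionGaloisPlug
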